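/-
Programme MZ, chapter LOCP (helper6): **(K3) the kernel of reduction has no prime-to-`p` torsion.**

Abstract form (on helper7's `ORD/INSTN/KapSys7.KapSys` with the power series contract
`ORD/GLUEN/RationalN7.PSOutN`, i.e. the output of F5): if `n` is a unit of the valuation ring `A` then
`n • kap T = 0 → T = 0`.  Proof: the contract at `N = 2` says that the coordinates of a sum of points
with coordinates in `(w)` are given, modulo `w²`, by the LINEAR part of the law; `kap 0 = 0` forces
the linear part to be the identity on `(w)^g` modulo `w²`; hence `coord (n • y) ≡ n · coord y` modulo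
`w²`, and for `w` a generator of the ideal of the coordinates of `y` this gives `n ∈ (w)`.

* `truncTotal_two`, `eval_truncTotal_two` : the truncation of a power series at total degree `2`;
* `LawSpec K Fs`, `coord_add_sub_mem` : `kap T + kap T' = kap T''`, `T, T' ∈ (w)^g` ⟹
  `T'' i - T i - T' i ∈ (w²)`;
* **`eq_zero_of_nsmul_kap_eq_zero`**, `eq_zero_of_nsmul_eq_zero_of_mem_range`.
-/
import Mathlib
import Fermat.Agent.ORD.GLUEN.RationalN7

set_option autoImplicit false
set_option linter.unusedSectionVars false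
set_option linter.style.longLine false

namespace Fermat.Agent.MZ.LOCP.KerTors6

open Fermat.Agent.ORD.INSTN.KapSys7 Fermat.Agent.ORD.GLUEN.RationalN7

noncomputable section

/-! ### truncation at total degree two -/

section algebra

variable {σ R : Type*} [Fintype σ] [DecidableEq σ] [CommRing R]

theorem truncTotal_two (f : MvPowerSeries σ R) :
    MvPowerSeries.truncTotal 2 f = MvPolynomial.C (MvPowerSeries.constantCoeff f) +
      ∑ s, MvPolynomial.C (MvPowerSeries.coeff (Finsupp.single s 1) f) * MvPolynomial.X s := by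
  ext d
  rw [MvPowerSeries.coeff_truncTotal_eq_ite, MvPolynomial.coeff_add, MvPolynomial.coeff_C,
    MvPolynomial.coeff_sum]
  simp only [MvPolynomial.coeff_C_mul, MvPolynomial.coeff_X]
  rcases Nat.lt_or_ge d.degree 2 with h | h
  · rw [if_pos h]
    rcases Nat.lt_or_ge d.degree 1 with h0 | h1
    · have hd : d = 0 := (Finsupp.degree_eq_zero_iff d).mp (by omega)
      subst hd
      rw [if_pos rfl]
      have hs : ∀ s : σ, (Finsupp.single s 1 : σ →₀ ℕ) ≠ 0 := fun s => by simp
      rw [Finset.sum_eq_zero (fun s _ => by rw [if_neg (hs s), mul_zero]), add_zero]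
      rfl
    · have hd1 : d.degree = 1 := by omega
      obtain ⟨t, rfl⟩ : ∃ t, Finsupp.single t 1 = d := by
        have hmem : d ∈ {d : σ →₀ ℕ | d.degree = 1} := hd1
        rw [← Finsupp.range_single_one] at hmem
        exact hmem
      have h0 : (0 : σ →₀ ℕ) ≠ Finsupp.single t 1 := by
        intro h; have := congrArg Finsupp.degree h; simp at this
      rw [if_neg h0, zero_add, Finset.sum_eq_single t]
      · rw [if_pos rfl, mul_one]
      · intro s _ hst
        rw [if_neg, mul_zero]
        intro h
        exact hst (Finsupp.single_left_injective one_ne_zero h)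
      · intro ht
        exact absurd (Finset.mem_univ t) ht
  · rw [if_neg (by omega)]
    have h0 : (0 : σ →₀ ℕ) ≠ d := by
      rintro rfl
      simp at h
    rw [if_neg h0, zero_add]
    symm
    refine Finset.sum_eq_zero fun s _ => ?_
    rw [if_neg, mul_zero]
    rintro rfl
    simp at h

theorem eval_truncTotal_two (f : MvPowerSeries σ R) (x : σ → R) :
    MvPolynomial.eval x (MvPowerSeries.truncTotal 2 f) =
      MvPowerSeries.constantCoeff f + ∑ s, MvPowerSeries.coeff (Finsupp.single s 1) f * x s := by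
  rw [truncTotal_two, map_add, MvPolynomial.eval_C, map_sum]
  congr 1
  refine Finset.sum_congr rfl fun s _ => ?_
  rw [map_mul, MvPolynomial.eval_C, MvPolynomial.eval_X]

end algebra

/-! ### the law modulo `w²` -/

variable {L : Type} [Field L] {A : ValuationSubring L} {g : ℕ} {X : Type} [AddCommGroup X]

/-- the property of the series in `PSOutN`. -/
def LawSpec (K : KapSys A g X) (Fs : Fin g → MvPowerSeries (Var g) A) : Prop :=
  ∀ T T' δ T'' : Fin g → mA A,
    K.kap T + K.kap T' + K.kap δ = K.kap T'' → ∀ (i : Fin g) (N : ℕ),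
      ((T'' i : A)) - MvPolynomial.eval (coords T T' δ) (MvPowerSeries.truncTotal N (Fs i))
        ∈ Ideal.span (Set.range (coords T T' δ)) ^ N

theorem psOutN_iff (K : KapSys A g X) : PSOutN K ↔ ∃ Fs, LawSpec K Fs := Iff.rfl

variable {K : KapSys A g X} {Fs : Fin g → MvPowerSeries (Var g) A}

/-- the first block of the linear part -/
def lin1 (Fs : Fin g → MvPowerSeries (Var g) A) (i j : Fin g) : A :=
  MvPowerSeries.coeff (Finsupp.single (Sum.inl (Sum.inl j) : Var g) 1) (Fs i)

/-- the second block of the linear part -/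
def lin2 (Fs : Fin g → MvPowerSeries (Var g) A) (i j : Fin g) : A :=
  MvPowerSeries.coeff (Finsupp.single (Sum.inl (Sum.inr j) : Var g) 1) (Fs i)

theorem span_coords_le {T T' : Fin g → mA A} {w : A} (hT : ∀ j, w ∣ (T j : A))
    (hT' : ∀ j, w ∣ (T' j : A)) :
    Ideal.span (Set.range (coords T T' 0)) ≤ Ideal.span {w} := by
  rw [Ideal.span_le]
  rintro _ ⟨s, rfl⟩
  rw [SetLike.mem_coe, Ideal.mem_span_singleton]
  rcases s with (l | l) | l
  · exact hT l
  · exact hT' l
  · exact dvd_zero w

/-- raw form of the law modulo `w²`. -/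
theorem coord_sub_lin_mem (hF : LawSpec K Fs) {T T' T'' : Fin g → mA A} {w : A}
    (hT : ∀ j, w ∣ (T j : A)) (hT' : ∀ j, w ∣ (T' j : A))
    (hkap : K.kap T + K.kap T' = K.kap T'') (i : Fin g) :
    (T'' i : A) - (MvPowerSeries.constantCoeff (Fs i) + ∑ j, lin1 Fs i j * (T j : A) +
      ∑ j, lin2 Fs i j * (T' j : A)) ∈ Ideal.span {w ^ 2} := by
  have h := hF T T' 0 T'' (by rw [K.zero, add_zero]; exact hkap) i 2
  rw [eval_truncTotal_two, Fintype.sum_sum_type, Fintype.sum_sum_type] at h
  have h3 : ∑ l : Fin g, MvPowerSeries.coeff (Finsupp.single (Sum.inr l : Var g) 1) (Fs i) *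
      coords T T' 0 (Sum.inr l) = 0 :=
    Finset.sum_eq_zero fun l _ => by
      show _ * ((0 : mA A) : A) = 0
      rw [ZeroMemClass.coe_zero, mul_zero]
  rw [h3, add_zero] at h
  have hle := Ideal.pow_right_mono (span_coords_le hT hT') 2
  rw [Ideal.span_singleton_pow] at hle
  have h' := hle h
  convert h' using 2
  rw [add_assoc]
  rfl

/-- the constant terms vanish. -/
theorem constantCoeff_eq_zero (hF : LawSpec K Fs) (i : Fin g) :
    MvPowerSeries.constantCoeff (Fs i) = 0 := by
  have h := coord_sub_lin_mem (w := 0) hF (T := 0) (T' := 0) (T'' := 0)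
    (fun j => dvd_refl _) (fun j => dvd_refl _) (by rw [K.zero, add_zero]) i
  rw [zero_pow two_ne_zero, Ideal.span_singleton_eq_bot.mpr rfl, Ideal.mem_bot] at h
  simp only [Pi.zero_apply, ZeroMemClass.coe_zero, mul_zero, Finset.sum_const_zero, add_zero,
    zero_sub, neg_eq_zero] at h
  exact h

/-- **the law modulo `w²`**: on vectors with coordinates in `(w)` the sum is computed by the
coordinatewise sum, modulo `w²`. -/
theorem coord_add_sub_mem (hF : LawSpec K Fs) {T T' T'' : Fin g → mA A} {w : A}
    (hT : ∀ j, w ∣ (T j : A)) (hT' : ∀ j, w ∣ (T' j : A))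
    (hkap : K.kap T + K.kap T' = K.kap T'') (i : Fin g) :
    (T'' i : A) - ((T i : A) + (T' i : A)) ∈ Ideal.span {w ^ 2} := by
  have h0 := constantCoeff_eq_zero hF i
  -- the two special cases
  have h1 := coord_sub_lin_mem hF (T := T) (T' := 0) (T'' := T) hT (fun j => dvd_zero w)
    (by rw [K.zero, add_zero]) i
  have h2 := coord_sub_lin_mem hF (T := 0) (T' := T') (T'' := T') (fun j => dvd_zero w) hT'
    (by rw [K.zero, zero_add]) i
  have h := coord_sub_lin_mem hF hT hT' hkap i
  simp only [h0, Pi.zero_apply, ZeroMemClass.coe_zero, mul_zero, Finset.sum_const_zero, add_zero,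
    zero_add] at h1 h2 h
  have := Ideal.sub_mem _ (Ideal.sub_mem _ h h1) h2
  convert this using 1
  ring

/-! ### multiplication by `n` -/

/-- among finitely many elements of a valuation ring one divides all the others. -/
theorem exists_dvd_all [Nonempty (Fin g)] (T : Fin g → A) : ∃ j₀, ∀ j, T j₀ ∣ T j := by
  classical
  have key : ∀ s : Finset (Fin g), s.Nonempty → ∃ j₀ ∈ s, ∀ j ∈ s, T j₀ ∣ T j := by
    intro s hs
    induction hs using Finset.Nonempty.cons_induction with
    | singleton a => exact ⟨a, Finset.mem_singleton_self a, fun j hj => by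
        rw [Finset.mem_singleton] at hj; rw [hj]⟩
    | cons a s ha hs ih =>
      obtain ⟨j₀, hj₀, h⟩ := ih
      rcases ValuationRing.dvd_total (T j₀) (T a) with hd | hd
      · refine ⟨j₀, Finset.mem_cons_of_mem hj₀, fun j hj => ?_⟩
        rcases Finset.mem_cons.mp hj with rfl | hj
        · exact hd
        · exact h j hj
      · refine ⟨a, Finset.mem_cons_self a s, fun j hj => ?_⟩
        rcases Finset.mem_cons.mp hj with rfl | hj
        · exact dvd_rfl
        · exact hd.trans (h j hj)
  obtain ⟨j₀, -, h⟩ := key Finset.univ Finset.univ_nonempty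
  exact ⟨j₀, fun j => h j (Finset.mem_univ j)⟩

/-- the coordinates of `m • kap T` are `m · T` modulo `w²`. -/
theorem exists_nsmul_coord (hF : LawSpec K Fs) {T : Fin g → mA A} {w : A}
    (hT : ∀ j, w ∣ (T j : A)) (m : ℕ) :
    ∃ U : Fin g → mA A, K.kap U = m • K.kap T ∧
      ∀ i, (U i : A) - (m : A) * (T i : A) ∈ Ideal.span {w ^ 2} := by
  induction m with
  | zero =>
    refine ⟨0, by rw [K.zero, zero_smul], fun i => ?_⟩
    simp
  | succ m ih =>
    obtain ⟨U, hU, hUm⟩ := ih
    obtain ⟨U', hU'⟩ := K.add2 U T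
    have hUw : ∀ j, w ∣ (U j : A) := by
      intro j
      have h1 : w ∣ (U j : A) - (m : A) * (T j : A) := by
        have := hUm j
        rw [Ideal.mem_span_singleton] at this
        exact (dvd_pow_self w two_ne_zero).trans this
      have h2 : w ∣ (m : A) * (T j : A) := Dvd.dvd.mul_left (hT j) _
      have := dvd_add h1 h2
      rwa [sub_add_cancel] at this
    refine ⟨U', by rw [← hU', hU, succ_nsmul], fun i => ?_⟩
    have h := coord_add_sub_mem hF hUw hT hU' i
    have := Ideal.add_mem _ h (hUm i)
    convert this using 1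
    push_cast
    ring

/-- **(K3), abstract form**: the kernel of reduction has no `n`-torsion when `n` is a unit of the
valuation ring. -/
theorem eq_zero_of_nsmul_kap_eq_zero (hPS : PSOutN K) {n : ℕ} (hn : IsUnit ((n : A)))
    {T : Fin g → mA A} (h : n • K.kap T = 0) : T = 0 := by
  obtain ⟨Fs, hF⟩ := hPS
  rcases isEmpty_or_nonempty (Fin g) with hg | hg
  · exact Subsingleton.elim _ _
  obtain ⟨j₀, hj₀⟩ := exists_dvd_all (fun j => (T j : A))
  set w : A := (T j₀ : A) with hw
  by_contra hT0
  have hw0 : w ≠ 0 := by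
    intro hw0
    apply hT0
    funext j
    apply Subtype.ext
    have := hj₀ j
    rw [hw0, zero_dvd_iff] at this
    exact this
  obtain ⟨U, hU, hUn⟩ := exists_nsmul_coord hF (T := T) (w := w) hj₀ n
  have hU0 : U = 0 := K.inj (by rw [hU, h, K.zero])
  have h1 := hUn j₀
  rw [hU0, Pi.zero_apply, ZeroMemClass.coe_zero, zero_sub, neg_mem_iff,
    Ideal.mem_span_singleton, ← hw, pow_two] at h1
  obtain ⟨c, hc⟩ := h1
  have h2 : (n : A) = w * c := by
    have : w * (n : A) = w * (w * c) := by rw [mul_comm, hc, mul_assoc]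
    exact mul_left_cancel₀ hw0 this
  have hwm : ¬ IsUnit w := not_isUnit_of_mA (T j₀)
  rw [h2] at hn
  exact hwm (isUnit_of_mul_isUnit_left hn)

/-- the same for elements of the range of `kap`. -/
theorem eq_zero_of_nsmul_eq_zero_of_mem_range (hPS : PSOutN K) {n : ℕ} (hn : IsUnit ((n : A)))
    {x : X} (hx : x ∈ Set.range K.kap) (h : n • x = 0) : x = 0 := by
  obtain ⟨T, rfl⟩ := hx
  rw [eq_zero_of_nsmul_kap_eq_zero hPS hn h, K.zero]

end

end Fermat.Agent.MZ.LOCP.KerTors6
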