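/-
Programme MZ, chapter LOCP (helper6): **(K3) on a semistable datum of `X₀(N)` along `padicPlace p`**:
`kerRed 𝔻 ∩ J₀(N)[n] = 0` for `p ∤ n`.

* **`datumFacts_eq_zero_of_mem_kerRed`** : `x ∈ kerRed 𝔻`, `n • x = 0`, `p ∤ n` ⟹ `x = 0`;
* `datumFacts_eq_of_sub_mem_kerRed` : two `n`-torsion points congruent modulo `kerRed 𝔻` are equal;
* **`eq_zero_of_mem_kerRed_datum`** : the same on the concrete datum `MainDatum6.datum hpM h4 hp2` of
  `X₀(M' p)` (`p` odd, `4 ∣ M'`, `p ∤ M'`).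
-/
import Mathlib
import Fermat.Agent.MZ.LOCP.KerTors6
import Fermat.Agent.MP.FINAL.DatumFacts6
import Fermat.Agent.ES.EC.LiftTorsion29

set_option autoImplicit false
set_option linter.unusedSectionVars false
set_option linter.style.longLine false
set_option synthInstance.maxHeartbeats 400000

open AlgebraicCurve ModularCurve IntermediateField Fermat.Agent.X0.FF Fermat.Agent.RR.LSpace
open Fermat.Agent.ORD.SEMIRED.SemiRedDatum9
open Fermat.Agent.ORD.KERN.KerDefs9 Fermat.Agent.ORD.KERN.KerN9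
open Fermat.Agent.ORD.INSTN.KapInst7 Fermat.Agent.ORD.INSTN.KapSys7
open Fermat.Agent.ORD.GLUEN.RationalN7
open Fermat.Agent.FF.BASE.Place2 Fermat.Agent.FF.FINAL.Final0 GaloisRep
open Fermat.Agent.FF.LEVEL.Transfer0 Fermat.Agent.FF.FINAL.Discharge2
open Fermat.Agent.TW.FLAT.FlatModule6 Fermat.Agent.FF.HOPF.Tors6
open Fermat.Agent.ORD.FINAL.LevelOrd0
open Fermat.Agent.RED.Interface4 Fermat.Agent.ES.RED.ChartIntegralA1
open Fermat.Agent.MP.FINAL.MainDatum6 Fermat.Agent.MP.FINAL.DatumFacts6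

noncomputable section

namespace Fermat.Agent.MZ.LOCP.KerTorsDatum6

local instance (priority := 100000) algKF6k (A : ValuationSubring Qbar) (M : ℕ) [NeZero M] :
    Algebra (kA A) ↥(modularFunctionFieldFullC (kA A) M) := inferInstance

section Abstract

variable {p : ℕ} [Fact p.Prime] {N : ℕ} [NeZero N]
  {κ Ft : Type} [Field κ] [Field Ft] [Algebra κ Ft] {ι E : Type}
  {𝔻 : SemiRedDatum Qb (X0.FF N) κ Ft ι E}

/-- **(K3)** on a datum with `DatumFacts`. -/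
theorem datumFacts_eq_zero_of_mem_kerRed [Finite ι] [Nonempty ι] [Finite E] [Infinite κ]
    (h : DatumFacts p N 𝔻) {n : ℕ} (hn : ¬ p ∣ n) {x : Pic0 Qb (X0.FF N)}
    (hx : x ∈ kerRed 𝔻) (hnx : n • x = 0) : x = 0 := by
  have := Fermat.Agent.X0.HasCanDivInst.hasCanonicalDivisor N
  have hp : p.Prime := Fact.out
  obtain ⟨x0, hx0⟩ := h.hx
  obtain ⟨S, -, -⟩ := h.exists_nsSystem ∅ Set.finite_empty
  have hP := placeHyp p
  have hrank : ∀ w : 𝔻.B.A, w ≠ 0 → ∀ c : 𝔻.B.A, ¬ IsUnit c → ∃ n : ℕ, c ^ n ∈ Ideal.span {w} := by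
    rw [h.hA]; exact hP.hrank
  have hPS : PSOutN (kapSys S h.hRR) :=
    Fermat.Agent.ORD.FAMN.CloseN3.psOutN_all hx0 h.hlink h.hns hrank h.hRR S
  have hA : 𝔻.B.A.LiesOverPrime p := by rw [h.hA]; exact liesOverPrime p
  have hu : IsUnit ((n : ℕ) : 𝔻.B.A) := by
    have := Fermat.Agent.ES.EC.LiftTorsion29.isUnit_intCast_of_not_dvd 𝔻.B.A hp hA
      (n := (n : ℤ)) (by rwa [Int.natCast_dvd_natCast])
    rwa [Int.cast_natCast] at this
  obtain ⟨T, hT⟩ := exists_kap_of_mem_kerRed S h.hRR hx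
  exact Fermat.Agent.MZ.LOCP.KerTors6.eq_zero_of_nsmul_eq_zero_of_mem_range hPS hu ⟨T, hT⟩ hnx

/-- two `n`-torsion points (`p ∤ n`) congruent modulo the kernel of reduction are equal. -/
theorem datumFacts_eq_of_sub_mem_kerRed [Finite ι] [Nonempty ι] [Finite E] [Infinite κ]
    (h : DatumFacts p N 𝔻) {n : ℕ} (hn : ¬ p ∣ n) {x y : Pic0 Qb (X0.FF N)}
    (hxy : x - y ∈ kerRed 𝔻) (hnx : n • x = 0) (hny : n • y = 0) : x = y :=
  sub_eq_zero.mp (datumFacts_eq_zero_of_mem_kerRed h hn hxy (by rw [nsmul_sub, hnx, hny, sub_zero]))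

end Abstract

section Concrete

variable {p M' : ℕ} [Fact p.Prime] [NeZero M'] (hpM : ¬ p ∣ M') (h4 : 4 ∣ M') (hp2 : p ≠ 2)

/-- **(K3) on the concrete datum of `X₀(M' p)`.** -/
theorem eq_zero_of_mem_kerRed_datum {n : ℕ} (hn : ¬ p ∣ n) {x : Pic0 Qbar ↥(Fbar (M' * p))}
    (hx : x ∈ kerRed (datum hpM h4 hp2)) (hnx : n • x = 0) : x = 0 := by
  have : IsAlgClosed (kA (padicPlace p)) := isAlgClosed_kA
  have : Infinite (kA (padicPlace p)) := inferInstance
  have : Nonempty (Nodes hpM h4 hp2) :=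
    Fermat.Agent.ORD.IFACEN.GlueTwoN9.nonempty_edges (assembly hpM h4 hp2)
  exact datumFacts_eq_zero_of_mem_kerRed (datumFacts_datum hpM h4 hp2) hn hx hnx

/-- two `n`-torsion points (`p ∤ n`) congruent modulo the kernel of reduction are equal. -/
theorem eq_of_sub_mem_kerRed_datum {n : ℕ} (hn : ¬ p ∣ n) {x y : Pic0 Qbar ↥(Fbar (M' * p))}
    (hxy : x - y ∈ kerRed (datum hpM h4 hp2)) (hnx : n • x = 0) (hny : n • y = 0) : x = y :=
  sub_eq_zero.mp (eq_zero_of_mem_kerRed_datum hpM h4 hp2 hn hxy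
    (by rw [nsmul_sub, hnx, hny, sub_zero]))

end Concrete

end Fermat.Agent.MZ.LOCP.KerTorsDatum6
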