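/-
Programme MZ, chapter LOCP (helper6): **(L2) a two-component semistable datum has at most `g + 1`
nodes**, `g` the genus of the generic fibre (in the form: Riemann's inequality `hRR` holds in degree
`g`).

If `#E ≥ g + 2`, any `g + 1` distinct smooth points of the component `v0` form a non-special system on
the nodal curve (a function on `v0` with at most `g + 1` poles taking one value at the `≥ g + 2`
branches is constant), so `KerN9.const_of_le` gives `l(D) = 1` for the corresponding divisor `D` of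
degree `g + 1` on the generic fibre — against Riemann's inequality in degree `g` applied to `D − P`.

* `nonSpecial_of_lt_card` : the non-speciality;
* **`card_le_succ`** : `Fintype.card E ≤ gen + 1`.
-/
import Mathlib
import Fermat.Agent.ORD.KERN.KerN9
import Fermat.Agent.ORD.NSN.OrthN9
import Fermat.Agent.MP.T3.Config2

set_option autoImplicit false
set_option linter.unusedSectionVars false
set_option linter.style.longLine false

namespace Fermat.Agent.MZ.LOCP.NodeBound6

open AlgebraicCurve Fermat.Agent.X0.FF Fermat.Agent.RR.LSpace Fermat.Agent.MW.EMB.Value6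
open Fermat.Agent.ORD.ANN.Side3 Fermat.Agent.ORD.ANN.Node3 Fermat.Agent.ORD.ANN.SemiRed3
open Fermat.Agent.ORD.SEMIRED.SemiRedDatum9 Fermat.Agent.ORD.SEMIRED.ToSemiRed9
open Fermat.Agent.ORD.KERN.KerDefs9 Fermat.Agent.ORD.KERN.KerN9
open Fermat.Agent.ORD.NSN.OrthN9
open Fermat.Agent.MP.T3.Config2

noncomputable section

variable {L F k Ft : Type*} [Field L] [Field F] [Algebra L F] [Field k] [Field Ft] [Algebra k Ft]
variable {ι E : Type*} (𝔻 : SemiRedDatum L F k Ft ι E)

open Classical in
/-- the reduced divisor of points of `v0`, evaluated. -/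
theorem redDivOf_apply {g : ℕ} (v0 : ι) (Q : Fin g → Place k Ft) (v : ι) (Q' : Place k Ft) :
    redDivOf (E := E) (fun _ : Fin g => v0) Q (Sum.inl (v, Q')) =
      ∑ i : Fin g, if v0 = v ∧ Q i = Q' then (1 : ℤ) else 0 := by
  classical
  rw [redDivOf, Finsupp.finsetSum_apply]
  refine Finset.sum_congr rfl fun i _ => ?_
  rw [Finsupp.single_apply]
  congr 1
  simp only [Sum.inl.injEq, Prod.mk.injEq]

/-- **non-speciality**: fewer points on `v0` than nodes. -/
theorem nonSpecial_of_lt_card {v0 v1 : ι} (tc : TwoComp 𝔻 v0 v1) [Fintype E] {g : ℕ}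
    (Q : Fin g → Place k Ft) (hQsm : ∀ i, 𝔻.IsSm v0 (Q i))
    (hcard : g < Fintype.card E) :
    (toSemiRed 𝔻).NonSpecial
      (fun v Q' => redDivOf (E := E) (fun _ : Fin g => v0) Q (Sum.inl (v, Q'))) := by
  classical
  intro s
  have hE : Nonempty E := by
    rw [← Fintype.card_pos_iff]; omega
  -- the component `v1`
  have h1 : ∀ Q' : Place k Ft, 0 ≤ Q'.ord (s.f v1) := by
    intro Q'
    by_cases h0 : s.f v1 = 0
    · rw [h0, Place.ord_zero]
    have := s.pole v1 h0 Q'
    rw [redDivOf_apply] at this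
    rw [Finset.sum_eq_zero (fun i _ => by rw [if_neg (fun h => tc.ne h.1)])] at this
    simpa using this
  obtain ⟨c1, hc1⟩ := eq_algebraMap_of_forall_ord_nonneg 𝔻.Hk h1
  -- the matching at the nodes
  have hmatch : ∀ e, valF 𝔻.Hk (𝔻.Qs e) (s.f v0) = c1 := by
    intro e
    have := s.matched e
    have hs : s.f ((toSemiRed 𝔻).src e) = s.f v0 := by
      rw [show (toSemiRed 𝔻).src e = v0 from tc.src e]
    have ht : s.f ((toSemiRed 𝔻).tgt e) = s.f v1 := by
      rw [show (toSemiRed 𝔻).tgt e = v1 from tc.tgt e]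
    rw [hs, ht, hc1] at this
    rw [← valF_algebraMap 𝔻.Hk (𝔻.Qt e) c1]
    exact this
  -- the component `v0`
  have h0 : s.f v0 = algebraMap k Ft c1 := by
    by_contra hne
    set h : Ft := s.f v0 - algebraMap k Ft c1 with hh
    have hh0 : h ≠ 0 := sub_ne_zero.mpr hne
    by_cases hf0 : s.f v0 = 0
    · obtain ⟨e⟩ := hE
      have := hmatch e
      rw [hf0, valF_zero] at this
      apply hne
      rw [hf0, ← this, map_zero]
    -- the numbers of centres and of branches at a point
    set Anum : Place k Ft → ℤ := fun Q' => ∑ i : Fin g, if Q i = Q' then (1 : ℤ) else 0 with hA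
    set Bnum : Place k Ft → ℤ := fun Q' => ∑ e : E, if 𝔻.Qs e = Q' then (1 : ℤ) else 0 with hB
    have hA0 : ∀ Q', 0 ≤ Anum Q' := fun Q' =>
      Finset.sum_nonneg fun i _ => by split_ifs <;> norm_num
    have hpole : ∀ Q', -(Anum Q') ≤ Q'.ord (s.f v0) := by
      intro Q'
      have := s.pole v0 hf0 Q'
      rw [redDivOf_apply] at this
      have hsum : (∑ i : Fin g, if v0 = v0 ∧ Q i = Q' then (1 : ℤ) else 0) = Anum Q' := by
        rw [hA]
        refine Finset.sum_congr rfl fun i _ => ?_
        simp only [true_and]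
      rwa [hsum] at this
    have hordh : ∀ Q', -(Anum Q') ≤ Q'.ord h := by
      intro Q'
      have h2 : -(Anum Q') ≤ Q'.ord (-(algebraMap k Ft c1)) := by
        rw [ffp_ord_neg, ffp_ord_algebraMap]
        have := hA0 Q'
        omega
      have := ffp_le_ord_add Q' (hpole Q') h2 (by rw [← sub_eq_add_neg]; exact hh0)
      rwa [← sub_eq_add_neg] at this
    have hbranch : ∀ e, Anum (𝔻.Qs e) = 0 ∧ Bnum (𝔻.Qs e) = 1 ∧ 1 ≤ (𝔻.Qs e).ord h := by
      intro e
      have hA1 : Anum (𝔻.Qs e) = 0 := by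
        refine Finset.sum_eq_zero fun i _ => ?_
        rw [if_neg]
        intro hi
        exact hQsm i (Or.inl ⟨e, tc.src e, hi.symm⟩)
      have hB1 : Bnum (𝔻.Qs e) = 1 := by
        rw [hB]
        show (∑ e' : E, if 𝔻.Qs e' = 𝔻.Qs e then (1 : ℤ) else 0) = 1
        rw [Finset.sum_eq_single e]
        · rw [if_pos rfl]
        · intro e' _ hne'
          rw [if_neg]
          intro hq
          exact hne' (𝔻.branch_s_inj e' e (by rw [tc.src e', tc.src e]) hq)
        · intro hn
          exact absurd (Finset.mem_univ e) hn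
      refine ⟨hA1, hB1, ?_⟩
      have hmem : s.f v0 ∈ (𝔻.Qs e).toValuationSubring :=
        ffp_mem_of_ord_nonneg _ (by have := hpole (𝔻.Qs e); rw [hA1] at this; simpa using this)
      have := ord_sub_valF_pos 𝔻.Hk (𝔻.Qs e) hmem (by rw [hmatch e]; exact hne)
      rw [hmatch e, ← hh] at this
      omega
    have hBle : ∀ Q', Bnum Q' ≠ 0 → ∃ e, 𝔻.Qs e = Q' := by
      intro Q' hne0
      by_contra hno
      apply hne0
      refine Finset.sum_eq_zero fun e _ => ?_
      rw [if_neg]
      intro he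
      exact hno ⟨e, he⟩
    -- the divisor
    set Δ : Divisor k Ft := ∑ i : Fin g, Finsupp.single (Q i) (1 : ℤ) -
      ∑ e : E, Finsupp.single (𝔻.Qs e) (1 : ℤ) with hΔ
    have hΔapply : ∀ Q', Δ Q' = Anum Q' - Bnum Q' := by
      intro Q'
      rw [hΔ, Finsupp.sub_apply, Finsupp.finsetSum_apply, Finsupp.finsetSum_apply]
      congr 1
      · refine Finset.sum_congr rfl fun i _ => ?_
        rw [Finsupp.single_apply]
      · refine Finset.sum_congr rfl fun e _ => ?_
        rw [Finsupp.single_apply]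
    have hpos : 0 ≤ divOf 𝔻.Hk hh0 + Δ := by
      intro Q'
      rw [Finsupp.add_apply, divOf_apply, hΔapply]
      simp only [Finsupp.coe_zero, Pi.zero_apply]
      by_cases hb : Bnum Q' = 0
      · have := hordh Q'
        omega
      · obtain ⟨e, rfl⟩ := hBle Q' hb
        obtain ⟨ha, hb1, ho⟩ := hbranch e
        omega
    have hdeg := degree_nonneg 𝔻.Hk hpos
    rw [map_add, degree_divOf, zero_add, hΔ, map_sub, map_sum, map_sum] at hdeg
    simp only [degree_single 𝔻.Hk, Finset.sum_const, Finset.card_univ, Fintype.card_fin,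
      nsmul_eq_mul, mul_one] at hdeg
    omega
  refine ⟨c1, fun v => ?_⟩
  rcases tc.all v with rfl | rfl
  · exact h0
  · exact hc1

variable [Finite ι] [Nonempty ι]

/-- **(L2)**: a two-component semistable datum has at most `gen + 1` nodes, `gen` a degree in which
Riemann's inequality holds. -/
theorem card_le_succ {v0 v1 : ι} (tc : TwoComp 𝔻 v0 v1) [Fintype E] [Infinite k] (gen : ℕ)
    (hRR : ∀ D : Divisor L F, Divisor.degree D = gen → ∃ f : F, f ≠ 0 ∧ ∀ P, -(D P) ≤ P.ord f) :
    Fintype.card E ≤ gen + 1 := by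
  classical
  by_contra hlt
  rw [not_le] at hlt
  have := infinite_place_of_lhyp 𝔻.Hk
  -- `gen + 2` distinct smooth points of `v0`
  have hinf : Infinite {Q : Place k Ft // 𝔻.IsSm v0 Q} :=
    (Set.infinite_coe_iff).mpr (finite_isBranch 𝔻 v0).infinite_compl
  obtain emb := Infinite.natEmbedding {Q : Place k Ft // 𝔻.IsSm v0 Q}
  set g : ℕ := gen + 1 with hg
  set Q : Fin g → Place k Ft := fun i => (emb i.1).1 with hQ
  have hQsm : ∀ i, 𝔻.IsSm v0 (Q i) := fun i => (emb i.1).2
  have hQinj : Function.Injective Q := by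
    intro i j hij
    exact Fin.ext (emb.injective (Subtype.ext hij))
  set Q0 : Place k Ft := (emb g).1 with hQ0
  have hQ0sm : 𝔻.IsSm v0 Q0 := (emb g).2
  have hQ0ne : ∀ i, Q i ≠ Q0 := by
    intro i hi
    have := emb.injective (Subtype.ext hi)
    have hi' := i.2
    omega
  choose P hP using fun i => 𝔻.exists_r_of_isSm (hQsm i)
  choose u hu using fun i => (𝔻.comp v0).exists_isGoodUnif ((𝔻.comp_r_eq_some_iff).mpr (hP i))
  let S : NSSystemN 𝔻 g :=
    { c := fun _ => v0
      Q := Q
      P := P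
      u := u
      good := hu
      inj := fun i j hij => hQinj (Prod.mk.inj hij).2
      ns := nonSpecial_of_lt_card 𝔻 tc Q hQsm hlt
      c0 := v0
      Q0 := Q0
      sm0 := hQ0sm
      hQ0 := fun i hi => hQ0ne i (Prod.mk.inj hi).2 }
  obtain ⟨Ps, hPs⟩ := 𝔻.exists_r_of_isSm hQ0sm
  have hD0Ps : S.D0 Ps = 0 := by
    rw [NSSystemN.D0, Finsupp.finsetSum_apply]
    refine Finset.sum_eq_zero fun i _ => ?_
    rw [Finsupp.single_apply, if_neg]
    intro hi
    have h1 := S.r_P i
    rw [hi, hPs] at h1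
    exact hQ0ne i (Prod.mk.inj (Sum.inl.inj h1)).2.symm
  set D : Divisor L F := S.D0 - Finsupp.single Ps (1 : ℤ) with hD
  have hdeg : Divisor.degree D = gen := by
    rw [hD, map_sub, S.degree_D0, degree_single 𝔻.HL, hg]
    push_cast
    ring
  obtain ⟨f, hf0, hf⟩ := hRR D hdeg
  have hfE : ∀ P' : Place L F, -(S.D0 P') ≤ P'.ord f := by
    intro P'
    have := hf P'
    rw [hD, Finsupp.sub_apply, Finsupp.single_apply] at this
    split_ifs at this <;> omega
  obtain ⟨c, hc⟩ := const_of_le S S.D0 S.D0_nonneg S.mapDomain_D0 hf0 hfE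
  have h1 := hf Ps
  rw [hD, Finsupp.sub_apply, hD0Ps, Finsupp.single_apply, if_pos rfl, hc, ffp_ord_algebraMap] at h1
  omega

end

end Fermat.Agent.MZ.LOCP.NodeBound6
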