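/-
Programme MZ, chapter LOCP (helper6): **(P¹) on a rational function field, a function whose divisor
is divisible by `n` is a constant times an `n`-th power.**

`Ft = κ(t)` (`κ⟮t⟯ = ⊤`), `κ` algebraically closed, and for every `c : κ` a place `Q` with
`ord_Q (t − c) = 1`.  If `n ∣ ord_Q ḡ` for every place `Q` then `ḡ = c • h̄ ^ n`.

* `ord_sub_const_eq_zero` : `ord_Q (t − b) = 0` at the zero `Q` of `t − a`, `b ≠ a`;
* `ord_aeval_eq_count` : `ord_Q P(t) = count a P.roots` at the zero `Q` of `t − a`;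
* **`exists_eq_smul_pow`**.
-/
import Mathlib
import Fermat.Agent.X0.FFDict

set_option autoImplicit false
set_option linter.unusedSectionVars false
set_option linter.style.longLine false

namespace Fermat.Agent.MZ.LOCP.RatPow6

open AlgebraicCurve Polynomial IntermediateField Fermat.Agent.X0.FF

noncomputable section

variable {κ Ft : Type*} [Field κ] [Field Ft] [Algebra κ Ft]

/-- at a zero of `t − a` the function `t − b`, `b ≠ a`, is a unit. -/
theorem ord_sub_const_eq_zero {t : Ft} {a b : κ} (hab : b ≠ a) {Q : Place κ Ft}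
    (hQ : 0 < Q.ord (t - algebraMap κ Ft a)) : Q.ord (t - algebraMap κ Ft b) = 0 := by
  have h1 : t - algebraMap κ Ft b = algebraMap κ Ft (a - b) + (t - algebraMap κ Ft a) := by
    rw [map_sub]; ring
  have hc : algebraMap κ Ft (a - b) ≠ 0 := by
    rw [Ne, map_eq_zero, sub_eq_zero]
    exact fun h => hab h.symm
  rw [h1, ord_add_eq_of_lt Q hc (by rw [ord_algebraMap]; exact hQ), ord_algebraMap]

/-- the order of `∏ (t − b)` over a multiset of constants, at the simple zero of `t − a`. -/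
theorem ord_multiset_prod {t : Ft} {a : κ} {Q : Place κ Ft}
    (hQ : Q.ord (t - algebraMap κ Ft a) = 1) (ht : ∀ b : κ, t - algebraMap κ Ft b ≠ 0)
    [DecidableEq κ] (s : Multiset κ) :
    (s.map fun b => t - algebraMap κ Ft b).prod ≠ 0 ∧
      Q.ord (s.map fun b => t - algebraMap κ Ft b).prod = s.count a := by
  induction s using Multiset.induction with
  | empty => simp
  | cons b s ih =>
    rw [Multiset.map_cons, Multiset.prod_cons]
    refine ⟨mul_ne_zero (ht b) ih.1, ?_⟩
    rw [Q.ord_mul (ht b) ih.1, ih.2, Multiset.count_cons]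
    by_cases hba : b = a
    · subst hba
      rw [hQ, if_pos rfl]
      push_cast
      ring
    · rw [ord_sub_const_eq_zero hba (by rw [hQ]; exact one_pos), if_neg (fun h => hba h.symm)]
      push_cast
      ring

variable [IsAlgClosed κ]

/-- the value at `t` of a nonzero polynomial, as a product of linear factors. -/
theorem aeval_eq_prod {t : Ft} {P : κ[X]} :
    aeval t P = algebraMap κ Ft P.leadingCoeff * (P.roots.map fun b => t - algebraMap κ Ft b).prod := by
  have h := (IsAlgClosed.splits P).eq_prod_roots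
  conv_lhs => rw [h]
  rw [map_mul, aeval_C, map_multiset_prod, Multiset.map_map]
  congr 2
  refine Multiset.map_congr rfl fun b _ => ?_
  simp [aeval_X, aeval_C]

/-- `ord_Q P(t) = count a P.roots` at the simple zero `Q` of `t − a`. -/
theorem ord_aeval_eq_count [DecidableEq κ] {t : Ft} {a : κ} {Q : Place κ Ft}
    (hQ : Q.ord (t - algebraMap κ Ft a) = 1) (ht : ∀ b : κ, t - algebraMap κ Ft b ≠ 0)
    {P : κ[X]} (hP : P ≠ 0) :
    aeval t P ≠ 0 ∧ Q.ord (aeval t P) = P.roots.count a := by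
  have hl : algebraMap κ Ft P.leadingCoeff ≠ 0 := by
    rw [Ne, map_eq_zero]; exact leadingCoeff_ne_zero.mpr hP
  obtain ⟨h1, h2⟩ := ord_multiset_prod hQ ht P.roots
  rw [aeval_eq_prod]
  refine ⟨mul_ne_zero hl h1, ?_⟩
  rw [Q.ord_mul hl h1, ord_algebraMap, zero_add, h2]

/-- **(P¹)**: on `κ(t)`, `κ` algebraically closed, a function whose divisor is divisible by `n` is a
constant times an `n`-th power. -/
theorem exists_eq_smul_pow {t : Ft} (htop : κ⟮t⟯ = ⊤)
    (hfib : ∀ c : κ, ∃ Q : Place κ Ft, Q.ord (t - algebraMap κ Ft c) = 1)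
    {n : ℕ} {g : Ft} (hg : g ≠ 0) (hdiv : ∀ Q : Place κ Ft, (n : ℤ) ∣ Q.ord g) :
    ∃ (c : κ) (h : Ft), c ≠ 0 ∧ h ≠ 0 ∧ g = c • h ^ n := by
  classical
  have ht : ∀ b : κ, t - algebraMap κ Ft b ≠ 0 := by
    intro b hb
    obtain ⟨Q, hQ⟩ := hfib b
    rw [hb, Place.ord_zero] at hQ
    exact zero_ne_one hQ
  have hmem : g ∈ κ⟮t⟯ := by rw [htop]; exact IntermediateField.mem_top
  obtain ⟨P, R, hgPR⟩ := (IntermediateField.mem_adjoin_simple_iff κ g).mp hmem
  have hR0 : R ≠ 0 := by
    intro h0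
    apply hg
    rw [hgPR, h0]; simp
  have hP0 : P ≠ 0 := by
    intro h0
    apply hg
    rw [hgPR, h0]; simp
  -- the exponents
  set cP : κ → ℕ := fun a => P.roots.count a with hcP
  set cR : κ → ℕ := fun a => R.roots.count a with hcR
  have hm : ∀ a : κ, (n : ℤ) ∣ (cP a : ℤ) - (cR a : ℤ) := by
    intro a
    obtain ⟨Q, hQ⟩ := hfib a
    obtain ⟨hP1, hP2⟩ := ord_aeval_eq_count hQ ht hP0
    obtain ⟨hR1, hR2⟩ := ord_aeval_eq_count hQ ht hR0
    have := hdiv Q
    rwa [hgPR, div_eq_mul_inv, Q.ord_mul hP1 (inv_ne_zero hR1), Q.ord_inv, hP2, hR2,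
      ← sub_eq_add_neg] at this
  set S : Finset κ := P.roots.toFinset ∪ R.roots.toFinset with hS
  have hprod : ∀ (T : κ[X]), T.roots.toFinset ⊆ S →
      (T.roots.map fun b => t - algebraMap κ Ft b).prod =
        ∏ a ∈ S, (t - algebraMap κ Ft a) ^ (T.roots.count a) := by
    intro T hT
    rw [Finset.prod_multiset_map_count]
    refine Finset.prod_subset hT fun a _ ha => ?_
    rw [Multiset.mem_toFinset] at ha
    rw [Multiset.count_eq_zero_of_notMem ha, pow_zero]
  set e : κ → ℤ := fun a => ((cP a : ℤ) - (cR a : ℤ)) / (n : ℤ) with he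
  have hen : ∀ a, e a * (n : ℤ) = (cP a : ℤ) - (cR a : ℤ) := fun a =>
    Int.ediv_mul_cancel (hm a)
  set h : Ft := ∏ a ∈ S, (t - algebraMap κ Ft a) ^ (e a) with hh
  have hh0 : h ≠ 0 := Finset.prod_ne_zero_iff.mpr fun a _ => zpow_ne_zero _ (ht a)
  have hlP : P.leadingCoeff ≠ 0 := leadingCoeff_ne_zero.mpr hP0
  have hlR : R.leadingCoeff ≠ 0 := leadingCoeff_ne_zero.mpr hR0
  refine ⟨P.leadingCoeff / R.leadingCoeff, h, div_ne_zero hlP hlR, hh0, ?_⟩
  rw [hgPR, aeval_eq_prod, aeval_eq_prod, hprod P Finset.subset_union_left,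
    hprod R Finset.subset_union_right, Algebra.smul_def, map_div₀, hh, ← Finset.prod_pow]
  have hterm : ∀ a ∈ S, ((t - algebraMap κ Ft a) ^ (e a)) ^ n =
      (t - algebraMap κ Ft a) ^ (P.roots.count a) / (t - algebraMap κ Ft a) ^ (R.roots.count a) := by
    intro a _
    rw [← zpow_natCast ((t - algebraMap κ Ft a) ^ (e a)) n, ← zpow_mul, hen a,
      zpow_sub₀ (ht a), zpow_natCast, zpow_natCast]
  rw [Finset.prod_congr rfl hterm, Finset.prod_div_distrib]
  have hR' : ∏ a ∈ S, (t - algebraMap κ Ft a) ^ (R.roots.count a) ≠ 0 :=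
    Finset.prod_ne_zero_iff.mpr fun a _ => pow_ne_zero _ (ht a)
  have hlR' : algebraMap κ Ft R.leadingCoeff ≠ 0 := by rwa [Ne, map_eq_zero]
  field_simp

end

end Fermat.Agent.MZ.LOCP.RatPow6
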