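/-
Programme MZ, chapter LOCP (helper6): **(P¹) on the special fibre of level `4`**: the residue function
field `Ft = k · F̃_4` of the components of `MainDatum6.datum` at `M' = 4` is the rational function
field `k(t̃)`, `t̃ = tRes 4 8 4` the reduction of the Hauptmodul of `X₀(4)`, of degree `1`; hence a
function whose divisor is divisible by `n` is a constant times an `n`-th power.

* `degT_four`, `adjoin_tRes_four` : `[F̃_4 : k(t̃)] = 1`, `k⟮t̃⟯ = ⊤`;
* `exists_ord_eq_one`, `exists_place_tRes_four` : every fibre of `t̃` is one simple point;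
* **`exists_eq_smul_pow_four`** : `ḡ ≠ 0`, `n ∣ ord_Q ḡ` for all `Q` ⟹ `ḡ = c • h̄ ^ n`;
* **`exists_pow_eq_four`** : the same in the shape `∃ h̄, h̄ ^ n = ḡ` (`n > 0`).
-/
import Mathlib
import Fermat.Agent.MZ.LOCP.RatPow6
import Fermat.Agent.ORD.IFACEN.CoordOne9

set_option autoImplicit false
set_option linter.unusedSectionVars false
set_option linter.style.longLine false
set_option synthInstance.maxHeartbeats 400000

open HahnSeries ModularCurve Polynomial IntermediateField AlgebraicCurve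

noncomputable section

namespace Fermat.Agent.MZ.LOCP.RatPowFour6

open Fermat.Agent.X0 Fermat.Agent.X0.FF
open Fermat.Agent.RED.Interface4 Fermat.Agent.RED.BASE Fermat.Agent.RED.BASE.Hauptmodul12
  Fermat.Agent.RED.BASE.EtaQuot12
  Fermat.Agent.ES.RED.ChartIntegralA1 Fermat.Agent.ES.RED.SpecialGen25 Fermat.Agent.ES.RED.SpecialInv25
  Fermat.Agent.ORD.IFACEN.CoordOne9

/-- fast instance (the canonical search costs seconds). -/
local instance (priority := 100000) algKF6r (A : ValuationSubring Qbar) (M : ℕ) [NeZero M] :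
    Algebra (kA A) ↥(modularFunctionFieldFullC (kA A) M) := inferInstance

/-- a function whose zeros have total multiplicity one has a simple zero. -/
theorem exists_ord_eq_one {κ Ft : Type*} [Field κ] [Field Ft] [Algebra κ Ft] {f : Ft}
    (hfin : {Q : Place κ Ft | 0 < Q.ord f}.Finite)
    (hsum : ∑ᶠ (Q : Place κ Ft) (_ : 0 < Q.ord f), Q.ord f = 1) :
    ∃ Q : Place κ Ft, Q.ord f = 1 := by
  replace hsum : ∑ᶠ (Q : Place κ Ft) (_ : Q ∈ {Q : Place κ Ft | 0 < Q.ord f}), Q.ord f = 1 := hsum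
  rw [finsum_mem_eq_finite_toFinset_sum _ hfin] at hsum
  have hne : hfin.toFinset.Nonempty := by
    rw [Finset.nonempty_iff_ne_empty]
    intro h0
    rw [h0, Finset.sum_empty] at hsum
    exact zero_ne_one hsum
  obtain ⟨Q, hQ⟩ := hne
  have hpos : ∀ Q' ∈ hfin.toFinset, 0 ≤ Q'.ord f := fun Q' hQ' =>
    le_of_lt ((Set.Finite.mem_toFinset hfin).mp hQ')
  have hle := Finset.single_le_sum hpos hQ
  rw [hsum] at hle
  have hQpos : 0 < Q.ord f := (Set.Finite.mem_toFinset hfin).mp hQ
  exact ⟨Q, by omega⟩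

variable (p : ℕ) [Fact p.Prime] (A : ValuationSubring Qbar) (hA : A.LiesOverPrime p)
  (hp4 : ¬ p ∣ 4)

/-- the reduction of the Hauptmodul of `X₀(4)` on the special fibre of level `4`. -/
abbrev tFour : ↥(modularFunctionFieldFullC (kA A) 4) :=
  tRes 4 8 4 p hp4 (tMem_good 4 (dvd_refl 4)) (tGenBase' baseHyp_four) A hA

theorem degT_four : degT 4 8 4 (tMem_good 4 (dvd_refl 4)) = 1 := by
  have h := (tGenBase' baseHyp_four).2
  unfold degT
  have h2 : (Qbar⟮Interface12.tF 4 (tMem_good 4 (dvd_refl 4))⟯ :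
      IntermediateField Qbar (X0.FF 4)) = ⊤ := h
  rw [h2]
  exact IntermediateField.finrank_top

theorem finrank_tFour :
    Module.finrank ↥((kA A)⟮tFour p A hA hp4⟯ :
        IntermediateField (kA A) ↥(modularFunctionFieldFullC (kA A) 4))
      ↥(modularFunctionFieldFullC (kA A) 4) = 1 := by
  rw [finrank_tRes_eq_degT, degT_four]

/-- **`F̃_4 = k(t̃)`.** -/
theorem adjoin_tFour :
    ((kA A)⟮tFour p A hA hp4⟯ :
      IntermediateField (kA A) ↥(modularFunctionFieldFullC (kA A) 4)) = ⊤ := by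
  have h := finrank_tFour p A hA hp4
  rw [eq_top_iff]
  intro x _
  obtain ⟨c, hc⟩ := (finrank_eq_one_iff_of_nonzero' (1 : ↥(modularFunctionFieldFullC (kA A) 4))
    one_ne_zero).mp h x
  rw [← hc]
  have : c • (1 : ↥(modularFunctionFieldFullC (kA A) 4)) =
      ((c : ↥(modularFunctionFieldFullC (kA A) 4))) := by
    rw [Algebra.smul_def, mul_one]; rfl
  rw [this]
  exact c.2

/-- every fibre of `t̃` is one simple point. -/
theorem exists_place_tFour (c : kA A) :
    ∃ Q : Place (kA A) ↥(modularFunctionFieldFullC (kA A) 4),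
      Q.ord (tFour p A hA hp4 - algebraMap (kA A) ↥(modularFunctionFieldFullC (kA A) 4) c) = 1 := by
  have hsum := sum_ord_fibre_tRes 4 8 4 p hp4 (tMem_good 4 (dvd_refl 4))
    (tGenBase' baseHyp_four) A hA c
  rw [degT_four] at hsum
  exact exists_ord_eq_one
    (finite_fibre_tRes 4 8 4 p hp4 (tMem_good 4 (dvd_refl 4)) (tGenBase' baseHyp_four) A hA c)
    (by exact_mod_cast hsum)

include hA hp4 in
/-- **(P¹) at level `4`.** -/
theorem exists_eq_smul_pow_four {n : ℕ} {g : ↥(modularFunctionFieldFullC (kA A) 4)} (hg : g ≠ 0)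
    (hdiv : ∀ Q : Place (kA A) ↥(modularFunctionFieldFullC (kA A) 4), (n : ℤ) ∣ Q.ord g) :
    ∃ (c : kA A) (h : ↥(modularFunctionFieldFullC (kA A) 4)), c ≠ 0 ∧ h ≠ 0 ∧ g = c • h ^ n := by
  have : IsAlgClosed (kA A) := isAlgClosed_kk A
  exact Fermat.Agent.MZ.LOCP.RatPow6.exists_eq_smul_pow (adjoin_tFour p A hA hp4)
    (exists_place_tFour p A hA hp4) hg hdiv

include hA hp4 in
/-- **(P¹) at level `4`**, in the shape `∃ h, h ^ n = g` (`n > 0`; the residue field is algebraically
closed). -/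
theorem exists_pow_eq_four {n : ℕ} (hn : 0 < n) {g : ↥(modularFunctionFieldFullC (kA A) 4)}
    (hg : g ≠ 0)
    (hdiv : ∀ Q : Place (kA A) ↥(modularFunctionFieldFullC (kA A) 4), (n : ℤ) ∣ Q.ord g) :
    ∃ h : ↥(modularFunctionFieldFullC (kA A) 4), h ^ n = g := by
  have : IsAlgClosed (kA A) := isAlgClosed_kk A
  obtain ⟨c, h, -, -, hgh⟩ := exists_eq_smul_pow_four p A hA hp4 hg hdiv
  obtain ⟨d, hd⟩ := IsAlgClosed.exists_pow_nat_eq c hn
  refine ⟨d • h, ?_⟩
  rw [_root_.smul_pow, hd, hgh]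

end Fermat.Agent.MZ.LOCP.RatPowFour6
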