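/-
Programme MZ (S15, Mazur), area LOCP (helper7): **the torus invariant** of divisors with zero fibre
sums on a two-component semistable datum (all nodes from `v0` to `v1`).

* `InZ 𝔻 Z` : `Z` has zero fibre sums at the smooth points, degree `0` and unit torus coordinate on
  every node annulus;  `tor 𝔻 Z e = res (annProd_e Z) ∈ kˣ`;
* `InZ.add/neg/sub/zsmul`, `tor_add/neg/sub/zsmul`; `inZ_of_offAnn` (representatives of `kerRed`);
* `mem_kerRed_of_inZ` **(C1)** : `Z ∈ 𝒵` with CONSTANT torus invariant has `[Z] ∈ kerRed 𝔻`;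
* `tor_divOf_const` **(C2)** : a principal divisor in `𝒵` has constant torus invariant (equal
  thickness at all nodes);
* `tor_pow_const` : if `n • Z` is principal, `Z ∈ 𝒵`, then `e ↦ (tor Z e)^n` is constant.
-/
import Mathlib
import Fermat.Agent.MP.T3.AnnAlg2
import Fermat.Agent.MP.T3.Jump2

set_option autoImplicit false
set_option linter.unusedSectionVars false
set_option linter.style.longLine false

namespace Fermat.Agent.MZ.LOCP.TorInv7

open AlgebraicCurve Fermat.Agent.X0.FF Fermat.Agent.RR.LSpace Fermat.Agent.MW.EMB.Value6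
open Fermat.Agent.ORD.ANN.Side3 Fermat.Agent.ORD.ANN.Node3 Fermat.Agent.ORD.ANN.SemiRed3
open Fermat.Agent.ORD.SEMIRED.SemiRedDatum9 Fermat.Agent.ORD.SEMIRED.ToSemiRed9
open Fermat.Agent.ORD.KERN.KerDefs9 Fermat.Agent.ORD.KERN.KerN9
open Fermat.Agent.MP.TAU.KumCrit3 Fermat.Agent.MP.T3.Config2 Fermat.Agent.MP.T3.AnnAlg2
open Fermat.Agent.MP.T3.Jump2

noncomputable section

variable {L F k Ft : Type*} [Field L] [Field F] [Algebra L F] [Field k] [Field Ft] [Algebra k Ft]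
variable {ι E : Type*} (𝔻 : SemiRedDatum L F k Ft ι E)

/-- **The class `𝒵`** : zero fibre sums at the smooth points, degree zero and unit torus coordinate on
every annulus. -/
structure InZ (Z : Divisor L F) : Prop where
  fib : ∀ v Q, 𝔻.IsSm v Q → Finsupp.mapDomain 𝔻.r Z (Sum.inl (v, Q)) = 0
  asum : ∀ e, (toSemiRed 𝔻).annSum Z e = 0
  aprod : ∀ e, 𝔻.B.IsU ((toSemiRed 𝔻).annProd Z e)

/-- the torus invariant at the node `e`. -/
def tor (Z : Divisor L F) (e : E) : k := 𝔻.B.resL ((toSemiRed 𝔻).annProd Z e)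

variable {𝔻}

theorem inZ_zero : InZ 𝔻 (0 : Divisor L F) where
  fib v Q _ := by rw [Finsupp.mapDomain_zero]; rfl
  asum e := annSum_zero 𝔻 e
  aprod e := by rw [annProd_zero]; exact Base.isU_one

theorem InZ.add {Z W : Divisor L F} (hZ : InZ 𝔻 Z) (hW : InZ 𝔻 W) : InZ 𝔻 (Z + W) where
  fib v Q h := by rw [Finsupp.mapDomain_add, Finsupp.add_apply, hZ.fib v Q h, hW.fib v Q h, add_zero]
  asum e := by rw [annSum_add, hZ.asum e, hW.asum e, add_zero]
  aprod e := by rw [annProd_add]; exact (hZ.aprod e).mul (hW.aprod e)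

theorem InZ.neg {Z : Divisor L F} (hZ : InZ 𝔻 Z) : InZ 𝔻 (-Z) where
  fib v Q h := by
    have h1 : Finsupp.mapDomain 𝔻.r (-Z) = -Finsupp.mapDomain 𝔻.r Z :=
      map_neg (Finsupp.mapDomain.addMonoidHom 𝔻.r) _
    rw [h1, Finsupp.neg_apply, hZ.fib v Q h, neg_zero]
  asum e := by rw [annSum_neg, hZ.asum e, neg_zero]
  aprod e := by rw [annProd_neg]; exact (hZ.aprod e).inv

theorem InZ.sub {Z W : Divisor L F} (hZ : InZ 𝔻 Z) (hW : InZ 𝔻 W) : InZ 𝔻 (Z - W) := by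
  rw [sub_eq_add_neg]; exact hZ.add hW.neg

theorem InZ.zsmul {Z : Divisor L F} (hZ : InZ 𝔻 Z) (n : ℤ) : InZ 𝔻 (n • Z) where
  fib v Q h := by
    have h1 : Finsupp.mapDomain 𝔻.r (n • Z) = n • Finsupp.mapDomain 𝔻.r Z :=
      map_zsmul (Finsupp.mapDomain.addMonoidHom 𝔻.r) _ _
    rw [h1, Finsupp.smul_apply, hZ.fib v Q h, smul_zero]
  asum e := by rw [annSum_zsmul, hZ.asum e, mul_zero]
  aprod e := by rw [annProd_zsmul]; exact (hZ.aprod e).zpow n

theorem tor_ne_zero {Z : Divisor L F} (hZ : InZ 𝔻 Z) (e : E) : tor 𝔻 Z e ≠ 0 :=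
  (hZ.aprod e).resL_ne_zero

theorem tor_add {Z W : Divisor L F} (hZ : InZ 𝔻 Z) (hW : InZ 𝔻 W) (e : E) :
    tor 𝔻 (Z + W) e = tor 𝔻 Z e * tor 𝔻 W e := by
  unfold tor
  rw [annProd_add, 𝔻.B.resL_mul (hZ.aprod e).mem (hW.aprod e).mem]

theorem tor_neg {Z : Divisor L F} (hZ : InZ 𝔻 Z) (e : E) : tor 𝔻 (-Z) e = (tor 𝔻 Z e)⁻¹ := by
  unfold tor
  rw [annProd_neg, (hZ.aprod e).resL_inv]

theorem tor_sub {Z W : Divisor L F} (hZ : InZ 𝔻 Z) (hW : InZ 𝔻 W) (e : E) :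
    tor 𝔻 (Z - W) e = tor 𝔻 Z e / tor 𝔻 W e := by
  rw [sub_eq_add_neg, tor_add hZ hW.neg, tor_neg hW, div_eq_mul_inv]

theorem tor_nsmul {Z : Divisor L F} (hZ : InZ 𝔻 Z) (n : ℕ) (e : E) :
    tor 𝔻 (n • Z) e = tor 𝔻 Z e ^ n := by
  unfold tor
  have : n • Z = (n : ℤ) • Z := (natCast_zsmul Z n).symm
  rw [this, annProd_zsmul, zpow_natCast, resL_pow (hZ.aprod e)]

/-- a divisor off the annuli with zero specialisation is in `𝒵`, with trivial torus invariant. -/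
theorem inZ_of_offAnn {Z : Divisor L F} (hoff : OffAnn 𝔻 Z) (hr : Finsupp.mapDomain 𝔻.r Z = 0) :
    InZ 𝔻 Z ∧ ∀ e, tor 𝔻 Z e = 1 := by
  have hne : ∀ e P, Z P ≠ 0 → 𝔻.r P ≠ Sum.inr e := fun e P hP h => hP (hoff P e h)
  refine ⟨⟨fun v Q _ => by rw [hr]; rfl, fun e => annSum_eq_zero_of 𝔻 Z e (hne e), fun e => ?_⟩,
    fun e => ?_⟩
  · rw [annProd_eq_one_of 𝔻 Z e (hne e)]; exact Base.isU_one
  · unfold tor
    rw [annProd_eq_one_of 𝔻 Z e (hne e), 𝔻.B.resL_one]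

/-- every class of the kernel of reduction is represented in `𝒵` with trivial torus invariant. -/
theorem exists_inZ_of_mem_kerRed {z : Pic0 L F} (hz : z ∈ kerRed 𝔻) :
    ∃ Z : Divisor.degZero (K := L) (F := F), InZ 𝔻 (Z : Divisor L F) ∧
      (∀ e, tor 𝔻 (Z : Divisor L F) e = 1) ∧ Pic0.mk Z = z := by
  obtain ⟨D', hoff, hr, rfl⟩ := hz
  exact ⟨D', (inZ_of_offAnn hoff hr).1, (inZ_of_offAnn hoff hr).2, rfl⟩

/-! ### (C1) -/

variable {v0 v1 : ι} {g : ℕ}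

/-- **(C1)** : a divisor of `𝒵` with constant torus invariant lies in the kernel of reduction. -/
theorem mem_kerRed_of_inZ [Finite ι] [Nonempty ι] (tc : TwoComp 𝔻 v0 v1) (S : NSSystemN 𝔻 g)
    (hRR : ∀ E' : Divisor L F, Divisor.degree E' = g → ∃ f : F, f ≠ 0 ∧ ∀ P, -(E' P) ≤ P.ord f)
    (Z : Divisor.degZero (K := L) (F := F)) (hZ : InZ 𝔻 (Z : Divisor L F)) (c : k)
    (hc : ∀ e, tor 𝔻 (Z : Divisor L F) e = c) [Nonempty E] :
    Pic0.mk Z ∈ kerRed 𝔻 := by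
  classical
  have hc0 : c ≠ 0 := by
    obtain ⟨e⟩ := (inferInstance : Nonempty E)
    rw [← hc e]; exact tor_ne_zero hZ e
  set h : ι → Ft := fun v => if v = v0 then 1 else algebraMap k Ft c with hh
  have h0 : h v0 = 1 := by rw [hh]; exact if_pos rfl
  have h1 : h v1 = algebraMap k Ft c := by rw [hh]; exact if_neg tc.ne.symm
  have hh0 : ∀ v, h v ≠ 0 := by
    intro v
    rcases tc.all v with rfl | rfl
    · rw [h0]; exact one_ne_zero
    · rw [h1]; exact (map_ne_zero _).mpr hc0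
  have hord : ∀ v (Q : Place k Ft), Q.ord (h v) = 0 := by
    intro v Q
    rcases tc.all v with rfl | rfl
    · rw [h0, Place.ord_one]
    · rw [h1, ffp_ord_algebraMap]
  refine mem_kerRed_of_twisted S hRR Z h hh0 (fun e => hord _ _) (fun e => hord _ _)
    (fun v Q hQ => by rw [hZ.fib v Q hQ, hord]) hZ.asum hZ.aprod (fun e => ?_)
  rw [tc.src e, tc.tgt e, h0, h1, valF_algebraMap, valF_one, mul_one]
  exact (hc e).symm

/-! ### (C2) -/

/-- a function of `Ft` without zeros and poles is a nonzero constant. -/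
theorem exists_const_of_ord_eq_zero (Hk : LHyp k Ft) {f : Ft} (hf : f ≠ 0)
    (h : ∀ Q : Place k Ft, Q.ord f = 0) :
    ∃ a : k, a ≠ 0 ∧ f = algebraMap k Ft a := by
  obtain ⟨a, ha⟩ := eq_algebraMap_of_forall_ord_nonneg Hk (fun Q => (h Q).ge)
  refine ⟨a, ?_, ha⟩
  rintro rfl
  rw [map_zero] at ha
  exact hf ha

/-- **(C2)** : a principal divisor of `𝒵` has constant torus invariant. -/
theorem tor_divOf_const [Nonempty E] (tc : TwoComp 𝔻 v0 v1)
    (hthick : ∀ e e', 𝔻.B.A.valuation (𝔻.node e).π = 𝔻.B.A.valuation (𝔻.node e').π)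
    {f : F} (hf : f ≠ 0) (hZ : InZ 𝔻 (divOf 𝔻.HL hf)) :
    ∃ c : k, c ≠ 0 ∧ ∀ e, tor 𝔻 (divOf 𝔻.HL hf) e = c := by
  classical
  obtain ⟨c0, hc0⟩ := (𝔻.side v0).exists_isNorm hf
  obtain ⟨c1, hc1⟩ := (𝔻.side v1).exists_isNorm hf
  -- transport to the nodes
  have hs : ∀ e, (𝔻.side (𝔻.src e)).IsNorm c0 f ∧
      (𝔻.side (𝔻.src e)).nred c0 f = (𝔻.side v0).nred c0 f := fun e => by
    have := tc.src e
    exact isNorm_src 𝔻 this hc0
  have ht : ∀ e, (𝔻.side (𝔻.tgt e)).IsNorm c1 f ∧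
      (𝔻.side (𝔻.tgt e)).nred c1 f = (𝔻.side v1).nred c1 f := fun e => by
    have := tc.tgt e
    exact isNorm_tgt 𝔻 this hc1
  set g0 := (𝔻.side v0).nred c0 f with hg0
  set g1 := (𝔻.side v1).nred c1 f with hg1
  have hg0ne : g0 ≠ 0 := hc0.nred_ne_zero
  have hg1ne : g1 ≠ 0 := hc1.nred_ne_zero
  -- (N1), (N2)
  have hN1 : ∀ e, (𝔻.Qs e).ord g0 + (𝔻.Qt e).ord g1 = 0 := fun e => by
    have := (𝔻.node e).slope_add hf (hs e).1 (ht e).1
    rw [(hs e).2, (ht e).2, ← annSum_divOf 𝔻 hf e, hZ.asum e] at this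
    exact this
  have hπ0 : ∀ e, 𝔻.B.A.valuation (𝔻.node e).π ≠ 0 := fun e =>
    (Valuation.ne_zero_iff _).mpr (𝔻.node e).π_ne
  have hvc0 : 𝔻.B.A.valuation c0 ≠ 0 := (Valuation.ne_zero_iff _).mpr hc0.c_ne_zero
  have hvc1 : 𝔻.B.A.valuation c1 ≠ 0 := (Valuation.ne_zero_iff _).mpr hc1.c_ne_zero
  have hN2 : ∀ e, 𝔻.B.A.valuation (c0 / c1) *
      𝔻.B.A.valuation (𝔻.node e).π ^ ((𝔻.Qt e).ord g1) = 1 := fun e => by
    have h2 := (Fermat.Agent.ORD.ANN.TwistedNSAdapt2.toInput (toSemiRed 𝔻)).n2 e f c0 c1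
      (divOf 𝔻.HL hf) (fun P => divOf_apply 𝔻.HL hf P)
      ((Fermat.Agent.ORD.ANN.TwistedNSAdapt2.isNormG_iff _ c0 f).mpr (hs e).1)
      ((Fermat.Agent.ORD.ANN.TwistedNSAdapt2.isNormG_iff _ c1 f).mpr (ht e).1)
    have h3 : 𝔻.B.A.valuation (c0 / c1) *
        𝔻.B.A.valuation (𝔻.node e).π ^ ((𝔻.node e).Q'.ord
          (Fermat.Agent.ORD.ANN.TwistedNS2.redOf (𝔻.side (𝔻.tgt e)).G (𝔻.side (𝔻.tgt e)).red
            (algebraMap L F c1 * f))) =
        𝔻.B.A.valuation ((Fermat.Agent.ORD.ANN.TwistedNSAdapt2.toInput (toSemiRed 𝔻)).annProd e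
          (divOf 𝔻.HL hf)) := h2
    rw [Fermat.Agent.ORD.ANN.TwistedNSAdapt2.redOf_eq_nred, (ht e).2, ← annProd_eq_I,
      hZ.aprod e] at h3
    exact h3
  -- all target slopes are equal
  obtain ⟨e0⟩ := (inferInstance : Nonempty E)
  have hslope : ∀ e, (𝔻.Qt e).ord g1 = (𝔻.Qt e0).ord g1 := by
    intro e
    have h1 := hN2 e
    have h2 := hN2 e0
    rw [hthick e e0] at h1
    have hcc : 𝔻.B.A.valuation (c0 / c1) ≠ 0 := by
      rw [map_div₀]; exact div_ne_zero hvc0 hvc1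
    have h3 : 𝔻.B.A.valuation (𝔻.node e0).π ^ ((𝔻.Qt e).ord g1) =
        𝔻.B.A.valuation (𝔻.node e0).π ^ ((𝔻.Qt e0).ord g1) :=
      mul_left_cancel₀ hcc (h1.trans h2.symm)
    exact zpow_right_injective₀ (zero_lt_iff.mpr (hπ0 e0)) ((𝔻.node e0).π_lt).ne h3
  set s' := (𝔻.Qt e0).ord g1 with hs'
  -- orders of `g1`: `0` at the smooth points, `s'` at the branches
  have hord1 : ∀ Q : Place k Ft, Q.ord g1 = 0 ∨ Q.ord g1 = s' := by
    intro Q
    by_cases hQ : 𝔻.IsSm v1 Q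
    · left
      rw [← mapDomain_divOf_of_isNorm 𝔻 hf hc1 hQ]
      exact hZ.fib v1 Q hQ
    · right
      unfold SemiRedDatum.IsSm at hQ
      rw [not_not] at hQ
      rcases hQ with ⟨e, he, rfl⟩ | ⟨e, -, rfl⟩
      · exact absurd ((tc.src e).symm.trans he) tc.ne
      · exact hslope e
  have hord0 : ∀ Q : Place k Ft, Q.ord g0 = 0 ∨ Q.ord g0 = -s' := by
    intro Q
    by_cases hQ : 𝔻.IsSm v0 Q
    · left
      rw [← mapDomain_divOf_of_isNorm 𝔻 hf hc0 hQ]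
      exact hZ.fib v0 Q hQ
    · right
      unfold SemiRedDatum.IsSm at hQ
      rw [not_not] at hQ
      rcases hQ with ⟨e, -, rfl⟩ | ⟨e, he, rfl⟩
      · have := hN1 e
        rw [hslope e] at this
        omega
      · exact absurd ((tc.tgt e).symm.trans he) tc.ne.symm
  -- `s' = 0`
  have hs0 : s' = 0 := by
    rcases le_total 0 s' with hpos | hneg
    · -- `g1` has no poles, hence is constant
      obtain ⟨a, ha⟩ := eq_algebraMap_of_forall_ord_nonneg 𝔻.Hk (f := g1) (fun Q => by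
        rcases hord1 Q with h | h <;> omega)
      have : (𝔻.Qt e0).ord g1 = 0 := by rw [ha, ffp_ord_algebraMap]
      exact this
    · -- `g1⁻¹` has no poles
      obtain ⟨a, ha⟩ := eq_algebraMap_of_forall_ord_nonneg 𝔻.Hk (f := g1⁻¹) (fun Q => by
        rw [Place.ord_inv]
        rcases hord1 Q with h | h <;> omega)
      have : (𝔻.Qt e0).ord g1⁻¹ = 0 := by rw [ha, ffp_ord_algebraMap]
      rw [Place.ord_inv] at this
      omega
  obtain ⟨a1, ha1, hga1⟩ := exists_const_of_ord_eq_zero 𝔻.Hk hg1ne (fun Q => by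
    rcases hord1 Q with h | h <;> omega)
  obtain ⟨a0, ha0, hga0⟩ := exists_const_of_ord_eq_zero 𝔻.Hk hg0ne (fun Q => by
    rcases hord0 Q with h | h <;> omega)
  -- `c1 / c0` is a unit
  have hU : 𝔻.B.IsU (c1 / c0) := by
    have := hN2 e0
    rw [← hs', hs0, zpow_zero, mul_one] at this
    have h2 : 𝔻.B.IsU (c0 / c1) := this
    have := h2.inv
    rwa [inv_div] at this
  -- (N3)
  refine ⟨a1 / (a0 * 𝔻.B.resL (c1 / c0)), div_ne_zero ha1 (mul_ne_zero ha0 hU.resL_ne_zero),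
    fun e => ?_⟩
  have hse : (𝔻.node e).Q.ord ((𝔻.side (𝔻.src e)).nred c0 f) = 0 := by
    rw [(hs e).2]
    have := hN1 e
    rw [hslope e, hs0, add_zero] at this
    exact this
  have hte : (𝔻.node e).Q'.ord ((𝔻.side (𝔻.tgt e)).nred c1 f) = 0 := by
    rw [(ht e).2]
    exact (hslope e).trans hs0
  obtain ⟨hU3, hval⟩ := (𝔻.node e).lead_jump hf (hs e).1 (ht e).1 hse hte
  rw [(hs e).2, (ht e).2, ← annProd_divOf 𝔻 hf e] at hval
  rw [hga0, hga1, valF_algebraMap, valF_algebraMap] at hval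
  rw [← annProd_divOf 𝔻 hf e] at hU3
  have hmul : 𝔻.B.resL (c1 / c0 * (toSemiRed 𝔻).annProd (divOf 𝔻.HL hf) e) =
      𝔻.B.resL (c1 / c0) * tor 𝔻 (divOf 𝔻.HL hf) e :=
    𝔻.B.resL_mul hU.mem (hZ.aprod e).mem
  rw [hmul] at hval
  rw [eq_div_iff (mul_ne_zero ha0 hU.resL_ne_zero), hval]
  ring

/-- if `n • Z` is principal and `Z ∈ 𝒵`, the `n`-th power of the torus invariant is constant. -/
theorem tor_pow_const [Nonempty E] (tc : TwoComp 𝔻 v0 v1)
    (hthick : ∀ e e', 𝔻.B.A.valuation (𝔻.node e).π = 𝔻.B.A.valuation (𝔻.node e').π)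
    {Z : Divisor L F} (hZ : InZ 𝔻 Z) (n : ℕ) {f : F} (hf : f ≠ 0)
    (hdiv : ∀ P : Place L F, P.ord f = n * Z P) :
    ∃ c : k, c ≠ 0 ∧ ∀ e, tor 𝔻 Z e ^ n = c := by
  have hD : divOf 𝔻.HL hf = n • Z := by
    ext P
    rw [divOf_apply, hdiv P, Finsupp.smul_apply, nsmul_eq_mul]
  have hnZ : InZ 𝔻 (n • Z) := by
    have : n • Z = (n : ℤ) • Z := (natCast_zsmul Z n).symm
    rw [this]; exact hZ.zsmul n
  obtain ⟨c, hc0, hc⟩ := tor_divOf_const tc hthick hf (by rw [hD]; exact hnZ)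
  refine ⟨c, hc0, fun e => ?_⟩
  rw [← tor_nsmul hZ, ← hD]
  exact hc e

end

end Fermat.Agent.MZ.LOCP.TorInv7
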