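/-
Programme MZ (S15, Mazur), area LOCP (helper7): **the Galois setting of the descent** (interface for
the concrete instance, helper6's WP6) and its first consequences.

`LocpSetting 𝔻 Γ gen` : an inertia-type group `Γ` acting on the two-component semistable datum `𝔻`
(modelled on `MP/T3/Iface2.T3Setting`, without the `ζ_p`-specific fields): the action `ρ`, inertial and
trivial on the specialisation; a `Γ`-fixed uniformiser `unif` (`= p`) generating the value group of the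
`Γ`-fixed elements (`fixedVal`); the exact thickness (TH) `|π_e| = |unif|`; `Γ`-fixed node functions
`Φ e` (R1'); ONE non-special system with Riemann's inequality in degree `gen`; ONE `Γ`-fixed place.

Consequences:
* `val_base`, `resL_base` (inertia acts trivially on residues), `isU_ratio`, `resL_ratio_of_isU`;
* `chi γ b = res (γ b / b)` : **the tame symbol**; `chi_mul`, `chi_inv`, `chi_zpow`, `chi_of_isU`,
  `chi_eq_of_absv_eq`;
* `valF_Phi_smul`, `acoord_smul` : `a(γ P) = ε · γ(a(P))` with `ε` a unit of residue `1`;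
* `mapDomain_smul`, `annSum_smul`, `annProd_smul` : the specialisation data of `γ • Z`;
* `inZ_smul_sub`, `tor_smul_sub` : `γ • Z − Z ∈ 𝒵` with `tor_e = chi γ (annProd_e Z)`.
-/
import Mathlib
import Fermat.Agent.MZ.LOCP.TorInv7
import Fermat.Agent.MP.T3.AnnPlace2
import Fermat.Agent.MW.EMB.GalVal1

set_option autoImplicit false
set_option linter.unusedSectionVars false
set_option linter.style.longLine false

namespace Fermat.Agent.MZ.LOCP.Setting7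

open AlgebraicCurve Fermat.Agent.X0.FF Fermat.Agent.RR.LSpace Fermat.Agent.MW.EMB.Value6
open Fermat.Agent.ORD.ANN.Side3 Fermat.Agent.ORD.ANN.Node3 Fermat.Agent.ORD.ANN.Inertial3
open Fermat.Agent.ORD.SEMIRED.SemiRedDatum9 Fermat.Agent.ORD.SEMIRED.ToSemiRed9
open Fermat.Agent.ORD.KERN.KerDefs9 Fermat.Agent.ORD.KERN.KerN9
open Fermat.Agent.MP.T3.Config2 Fermat.Agent.MP.T3.AnnAlg2
open Fermat.Agent.MZ.LOCP.TorInv7

noncomputable section

variable {L F k Ft : Type*} [Field L] [Field F] [Algebra L F] [Field k] [Field Ft] [Algebra k Ft]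
variable {ι E : Type*}

/-- **The Galois setting of the descent.** -/
structure LocpSetting (𝔻 : SemiRedDatum L F k Ft ι E) (Γ : Type*) [Group Γ] (gen : ℕ) where
  ρ : Γ →* SemilinearAut L F
  inert : ∀ γ, Inertial (toSemiRed 𝔻) (ρ γ)
  triv : ∀ (γ : Γ) (P : Place L F), 𝔻.r (ρ γ • P) = 𝔻.r P
  /-- the uniformiser (`= p`) of the fixed field -/
  unif : L
  unif_ne : unif ≠ 0
  unif_lt : absv 𝔻 unif < 1
  unif_fix : ∀ γ, SemilinearAut.baseAut (ρ γ) unif = unif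
  /-- the fixed field has value group `|unif|^ℤ` -/
  fixedVal : ∀ c : L, c ≠ 0 → (∀ γ, SemilinearAut.baseAut (ρ γ) c = c) →
    ∃ j : ℤ, absv 𝔻 c = absv 𝔻 unif ^ j
  /-- (TH) exact thickness -/
  thick : ∀ e, absv 𝔻 (𝔻.π e) = absv 𝔻 unif
  /-- (R1') `Γ`-fixed node functions -/
  Φ : E → F
  Φ_fix : ∀ γ e, ρ γ • Φ e = Φ e
  Φ_ann : ∀ e (P : Place L F), 𝔻.r P = Sum.inr e → P.ord (Φ e) = 0
  Φ_mem : ∀ e, Φ e ∈ 𝔻.G (𝔻.src e)
  Φ_ord : ∀ e, (𝔻.Qs e).ord (𝔻.red (𝔻.src e) ⟨Φ e, Φ_mem e⟩) = 1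
  /-- a non-special system (no Galois condition) -/
  NS : NSSystemN 𝔻 gen
  /-- Riemann's inequality in degree `gen` -/
  hRR : ∀ D : Divisor L F, Divisor.degree D = gen → ∃ f : F, f ≠ 0 ∧ ∀ P, -(D P) ≤ P.ord f
  /-- a `Γ`-fixed place -/
  Pinf : Place L F
  Pinf_fix : ∀ γ, ρ γ • Pinf = Pinf

namespace LocpSetting

variable {𝔻 : SemiRedDatum L F k Ft ι E} {Γ : Type*} [Group Γ] {gen : ℕ}
  (G : LocpSetting 𝔻 Γ gen)

/-- the base automorphism of `γ`. -/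
abbrev bs (γ : Γ) : L ≃+* L := SemilinearAut.baseAut (G.ρ γ)

theorem val_base (γ : Γ) (z : L) : absv 𝔻 (G.bs γ z) = absv 𝔻 z := (G.inert γ).val_base z

theorem mem_base (γ : Γ) {z : L} (hz : z ∈ 𝔻.B.A) : G.bs γ z ∈ 𝔻.B.A := by
  rw [← 𝔻.B.A.valuation_le_one_iff] at hz ⊢
  exact (G.val_base γ z).le.trans hz

theorem isU_base (γ : Γ) {z : L} (hz : 𝔻.B.IsU z) : 𝔻.B.IsU (G.bs γ z) :=
  (G.val_base γ z).trans hz

/-- **inertia acts trivially on the residues.** -/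
theorem resL_base [Nonempty ι] (γ : Γ) {z : L} (hz : z ∈ 𝔻.B.A) :
    𝔻.B.resL (G.bs γ z) = 𝔻.B.resL z := by
  obtain ⟨v⟩ := (inferInstance : Nonempty ι)
  have hz' := G.mem_base γ hz
  rw [𝔻.B.resL_of_mem hz, 𝔻.B.resL_of_mem hz']
  have h1 := (G.inert γ).red_smul v (algebraMap L F z) ((𝔻.side v).const_mem ⟨z, hz⟩)
  have e1 : (⟨G.ρ γ • algebraMap L F z,
      (G.inert γ).map_G v _ ((𝔻.side v).const_mem ⟨z, hz⟩)⟩ : (𝔻.side v).G) =
      (𝔻.side v).const ⟨G.bs γ z, hz'⟩ :=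
    Subtype.ext (SemilinearAut.smul_algebraMap _ _)
  have e2 : (⟨algebraMap L F z, (𝔻.side v).const_mem ⟨z, hz⟩⟩ : (𝔻.side v).G) =
      (𝔻.side v).const ⟨z, hz⟩ := rfl
  have h2 : (𝔻.side v).red ((𝔻.side v).const ⟨G.bs γ z, hz'⟩) =
      (𝔻.side v).red ((𝔻.side v).const ⟨z, hz⟩) := by
    rw [← e1, ← e2]; exact h1
  rw [(𝔻.side v).red_const', (𝔻.side v).red_const'] at h2
  exact (algebraMap k Ft).injective h2

/-- `γ z / z` is a unit. -/
theorem isU_ratio (γ : Γ) {z : L} (hz : z ≠ 0) : 𝔻.B.IsU (G.bs γ z / z) := by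
  rw [Base.IsU, map_div₀]
  have := G.val_base γ z
  unfold absv at this
  rw [this]
  exact div_self ((Valuation.ne_zero_iff _).mpr hz)

/-- `γ w / w` has residue `1` for a unit `w`. -/
theorem resL_ratio_of_isU [Nonempty ι] (γ : Γ) {w : L} (hw : 𝔻.B.IsU w) :
    𝔻.B.resL (G.bs γ w / w) = 1 := by
  rw [div_eq_mul_inv, 𝔻.B.resL_mul (G.isU_base γ hw).mem hw.inv.mem, hw.resL_inv,
    G.resL_base γ hw.mem]
  exact mul_inv_cancel₀ hw.resL_ne_zero

/-! ### the tame symbol -/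

/-- **the tame symbol** `χ_γ(b) = res (γ b / b)`. -/
def chi (γ : Γ) (b : L) : k := 𝔻.B.resL (G.bs γ b / b)

theorem chi_ne_zero (γ : Γ) {b : L} (hb : b ≠ 0) : G.chi γ b ≠ 0 :=
  (G.isU_ratio γ hb).resL_ne_zero

theorem chi_mul (γ : Γ) {b c : L} (hb : b ≠ 0) (hc : c ≠ 0) :
    G.chi γ (b * c) = G.chi γ b * G.chi γ c := by
  unfold chi
  rw [map_mul, mul_div_mul_comm,
    𝔻.B.resL_mul (G.isU_ratio γ hb).mem (G.isU_ratio γ hc).mem]

theorem chi_one (γ : Γ) : G.chi γ 1 = 1 := by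
  unfold chi
  rw [map_one, div_one, 𝔻.B.resL_one]

theorem chi_inv (γ : Γ) {b : L} (hb : b ≠ 0) : G.chi γ b⁻¹ = (G.chi γ b)⁻¹ := by
  unfold chi
  rw [map_inv₀, inv_div_inv, ← inv_div, (G.isU_ratio γ hb).resL_inv]

theorem chi_div (γ : Γ) {b c : L} (hb : b ≠ 0) (hc : c ≠ 0) :
    G.chi γ (b / c) = G.chi γ b / G.chi γ c := by
  rw [div_eq_mul_inv, G.chi_mul γ hb (inv_ne_zero hc), G.chi_inv γ hc, div_eq_mul_inv]

theorem chi_pow (γ : Γ) {b : L} (hb : b ≠ 0) (n : ℕ) : G.chi γ (b ^ n) = G.chi γ b ^ n := by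
  induction n with
  | zero => rw [pow_zero, pow_zero, chi_one]
  | succ n ih => rw [pow_succ, pow_succ, G.chi_mul γ (pow_ne_zero n hb) hb, ih]

theorem chi_zpow (γ : Γ) {b : L} (hb : b ≠ 0) (n : ℤ) : G.chi γ (b ^ n) = G.chi γ b ^ n := by
  cases n with
  | ofNat n => rw [Int.ofNat_eq_natCast, zpow_natCast, zpow_natCast, G.chi_pow γ hb]
  | negSucc n =>
    rw [zpow_negSucc, zpow_negSucc, G.chi_inv γ (pow_ne_zero _ hb), G.chi_pow γ hb]

theorem chi_of_isU [Nonempty ι] (γ : Γ) {w : L} (hw : 𝔻.B.IsU w) : G.chi γ w = 1 :=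
  G.resL_ratio_of_isU γ hw

/-- the tame symbol only depends on the absolute value. -/
theorem chi_eq_of_absv_eq [Nonempty ι] (γ : Γ) {b c : L} (hb : b ≠ 0) (hc : c ≠ 0)
    (h : absv 𝔻 b = absv 𝔻 c) : G.chi γ b = G.chi γ c := by
  have hU : 𝔻.B.IsU (b / c) := by
    rw [Base.IsU, map_div₀]
    unfold absv at h
    rw [h]
    exact div_self ((Valuation.ne_zero_iff _).mpr hc)
  have h1 : b = b / c * c := (div_mul_cancel₀ b hc).symm
  rw [h1, G.chi_mul γ (div_ne_zero hb hc) hc, G.chi_of_isU γ hU, one_mul]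

/-- a unit multiple of residue `1`. -/
theorem chi_fixed (γ : Γ) {b : L} (hb : b ≠ 0) (hfix : G.bs γ b = b) : G.chi γ b = 1 := by
  unfold chi
  rw [hfix, div_self hb, 𝔻.B.resL_one]

/-! ### node coordinates of `γ • P` -/

theorem Phi_ne_zero (e : E) : G.Φ e ≠ 0 := by
  intro h
  have h1 := G.Φ_ord e
  have e1 : (⟨G.Φ e, G.Φ_mem e⟩ : 𝔻.G (𝔻.src e)) = 0 := Subtype.ext h
  rw [e1, map_zero, Place.ord_zero] at h1
  exact zero_ne_one h1

/-- the value of a node function at `γ • P`. -/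
theorem valF_Phi_smul (γ : Γ) (e : E) (P : Place L F) :
    valF 𝔻.HL (G.ρ γ • P) (G.Φ e) = G.bs γ (valF 𝔻.HL P (G.Φ e)) := by
  have h := Fermat.Agent.MW.EMB.GalVal1.valF_smul 𝔻.HL (G.ρ γ) P (G.Φ e)
  rwa [G.Φ_fix] at h

/-- **the annulus coordinate of `γ • P`** is `γ` of the coordinate of `P`, up to a unit of residue
`1`. -/
theorem acoord_smul [Nonempty ι] (γ : Γ) (e : E) {P : Place L F} (hP : 𝔻.r P = Sum.inr e) :
    ∃ ε : L, 𝔻.B.IsU ε ∧ 𝔻.B.resL ε = 1 ∧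
      acoord 𝔻 e (G.ρ γ • P) = ε * G.bs γ (acoord 𝔻 e P) := by
  obtain ⟨w, hw⟩ := Fermat.Agent.MP.T3.AnnPlace2.exists_ratio_residue (𝔻.node e) (G.Φ e)
    (G.Phi_ne_zero e) (fun P hP => G.Φ_ann e P ((𝔻.r_ann e P).mp hP)) (G.Φ_mem e) (G.Φ_ord e)
  have hP' : 𝔻.r (G.ρ γ • P) = Sum.inr e := by rw [G.triv]; exact hP
  obtain ⟨ω, hωU, hωr, hω⟩ := hw P ((𝔻.r_ann e P).mpr hP)
  obtain ⟨ω', hω'U, hω'r, hω'⟩ := hw (G.ρ γ • P) ((𝔻.r_ann e _).mpr hP')
  have h1 := G.valF_Phi_smul γ e P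
  rw [hω, hω', map_mul] at h1
  refine ⟨G.bs γ ω / ω', (G.isU_base γ hωU).div hω'U, ?_, ?_⟩
  · rw [div_eq_mul_inv, 𝔻.B.resL_mul (G.isU_base γ hωU).mem hω'U.inv.mem, hω'U.resL_inv,
      G.resL_base γ hωU.mem, hωr, hω'r]
    have hw0 : w ≠ 0 := by rw [← hωr]; exact hωU.resL_ne_zero
    exact mul_inv_cancel₀ hw0
  · show (𝔻.node e).a (G.ρ γ • P) = _ * G.bs γ ((𝔻.node e).a P)
    rw [div_mul_eq_mul_div, eq_div_iff hω'U.ne_zero, mul_comm]
    exact h1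

/-! ### the specialisation data of `γ • Z` -/

theorem mapDomain_smul (γ : Γ) (Z : Divisor L F) :
    Finsupp.mapDomain 𝔻.r (G.ρ γ • Z) = Finsupp.mapDomain 𝔻.r Z := by
  rw [SemilinearAut.divisor_smul_def, ← Finsupp.mapDomain_comp]
  congr 1
  funext P
  exact G.triv γ P

theorem annSum_smul (γ : Γ) (Z : Divisor L F) (e : E) :
    (toSemiRed 𝔻).annSum (G.ρ γ • Z) e = (toSemiRed 𝔻).annSum Z e := by
  rw [← mapDomain_r_inr, ← mapDomain_r_inr, G.mapDomain_smul]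

theorem resL_zpow_of_one {ε : L} (hU : 𝔻.B.IsU ε) (h1 : 𝔻.B.resL ε = 1) (m : ℤ) :
    𝔻.B.resL (ε ^ m) = 1 := by
  cases m with
  | ofNat m =>
    rw [Int.ofNat_eq_natCast, zpow_natCast, Fermat.Agent.MP.TAU.KumCrit3.resL_pow hU, h1, one_pow]
  | negSucc m =>
    rw [zpow_negSucc]
    have hU' : 𝔻.B.IsU (ε ^ (m + 1)) := by
      have := hU.zpow ((m + 1 : ℕ) : ℤ)
      rwa [zpow_natCast] at this
    rw [hU'.resL_inv, Fermat.Agent.MP.TAU.KumCrit3.resL_pow hU, h1, one_pow, inv_one]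

/-- **the torus coordinate of `γ • Z`** is `γ` of the torus coordinate of `Z`, up to a unit of residue
`1`. -/
theorem annProd_smul [Nonempty ι] (γ : Γ) (Z : Divisor L F) (e : E) :
    ∃ ε : L, 𝔻.B.IsU ε ∧ 𝔻.B.resL ε = 1 ∧
      (toSemiRed 𝔻).annProd (G.ρ γ • Z) e = ε * G.bs γ ((toSemiRed 𝔻).annProd Z e) := by
  classical
  induction Z using Finsupp.induction_linear with
  | zero =>
    refine ⟨1, Base.isU_one, 𝔻.B.resL_one, ?_⟩
    rw [smul_zero, annProd_zero, map_one, mul_one]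
  | add Z W hZ hW =>
    obtain ⟨ε1, h1U, h1r, h1⟩ := hZ
    obtain ⟨ε2, h2U, h2r, h2⟩ := hW
    refine ⟨ε1 * ε2, h1U.mul h2U, ?_, ?_⟩
    · rw [𝔻.B.resL_mul h1U.mem h2U.mem, h1r, h2r, one_mul]
    · rw [smul_add, annProd_add, annProd_add, h1, h2, map_mul]
      ring
  | single P m =>
    rw [SemilinearAut.smul_single]
    by_cases hP : 𝔻.r P = Sum.inr e
    · have hP' : 𝔻.r (G.ρ γ • P) = Sum.inr e := by rw [G.triv]; exact hP
      obtain ⟨ε, hU, hr, hε⟩ := G.acoord_smul γ e hP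
      refine ⟨ε ^ m, hU.zpow m, resL_zpow_of_one hU hr m, ?_⟩
      rw [annProd_single_of_mem 𝔻 hP', annProd_single_of_mem 𝔻 hP, hε, mul_zpow, map_zpow₀]
    · have hP' : 𝔻.r (G.ρ γ • P) ≠ Sum.inr e := by rw [G.triv]; exact hP
      refine ⟨1, Base.isU_one, 𝔻.B.resL_one, ?_⟩
      rw [annProd_single_of_ne 𝔻 hP', annProd_single_of_ne 𝔻 hP, map_one, mul_one]

/-- `γ • Z − Z` lies in `𝒵`. -/
theorem inZ_smul_sub [Nonempty ι] (γ : Γ) (Z : Divisor L F) : InZ 𝔻 (G.ρ γ • Z - Z) where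
  fib v Q _ := by
    have h1 : Finsupp.mapDomain 𝔻.r (G.ρ γ • Z - Z) =
        Finsupp.mapDomain 𝔻.r (G.ρ γ • Z) - Finsupp.mapDomain 𝔻.r Z :=
      map_sub (Finsupp.mapDomain.addMonoidHom 𝔻.r) _ _
    rw [h1, G.mapDomain_smul, sub_self]
    rfl
  asum e := by rw [annSum_sub, G.annSum_smul, sub_self]
  aprod e := by
    obtain ⟨ε, hU, -, hε⟩ := G.annProd_smul γ Z e
    rw [annProd_sub, hε, mul_div_assoc]
    exact hU.mul (G.isU_ratio γ (annProd_ne_zero 𝔻 Z e))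

/-- **the torus invariant of `γ • Z − Z`** is the tame symbol of the torus coordinate of `Z`. -/
theorem tor_smul_sub [Nonempty ι] (γ : Γ) (Z : Divisor L F) (e : E) :
    tor 𝔻 (G.ρ γ • Z - Z) e = G.chi γ ((toSemiRed 𝔻).annProd Z e) := by
  obtain ⟨ε, hU, hr, hε⟩ := G.annProd_smul γ Z e
  unfold tor chi
  rw [annProd_sub, hε, mul_div_assoc,
    𝔻.B.resL_mul hU.mem (G.isU_ratio γ (annProd_ne_zero 𝔻 Z e)).mem, hr, one_mul]

end LocpSetting

end

end Fermat.Agent.MZ.LOCP.Setting7
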