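/-
Programme MZ, chapter LOCP (helper6): **WP6, the concrete `Setting7.LocpSetting`** — the full inertia
group `I_p = Iv p` acting on a semistable datum of `X₀(N)` along `padicPlace p` with the working facts
`DatumFacts` of programme ORD, the exact thickness (TH) and the `I_p`-fixed node functions (R1') as
inputs (on `MainDatum6.datum` they are `MP/TH/Reg7.reg_datum`).

* `exists_zpow_of_fixed` : the value group of the `I_p`-fixed elements of `ℚ̄` is `|p|^ℤ`;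
* **`locpSetting h hTH Φ …  : LocpSetting 𝔻 ↥(Iv p) (gen N)`** with `ρ = rhoI p N`, `unif = p`;
* `locpSetting_ρ`, `locpSetting_unif` (`rfl`).
-/
import Mathlib
import Fermat.Agent.MZ.LOCP.Setting7
import Fermat.Agent.MP.T3.T3Datum6

set_option autoImplicit false
set_option linter.unusedSectionVars false
set_option linter.style.longLine false
set_option linter.style.haveILetI false

namespace Fermat.Agent.MZ.LOCP.SettingDatum6

open AlgebraicCurve ModularCurve Fermat.Agent.X0.FF Fermat.Agent.RR.LSpace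
open Fermat.Agent.ORD.ANN.Side3 Fermat.Agent.ORD.ANN.Inertial3
open Fermat.Agent.ORD.SEMIRED.SemiRedDatum9 Fermat.Agent.ORD.SEMIRED.ToSemiRed9
open Fermat.Agent.ORD.KERN.KerDefs9 Fermat.Agent.ORD.KERN.KerN9 Fermat.Agent.ORD.KERN.KerGalN9
open Fermat.Agent.FF.BASE.Place2 Fermat.Agent.FF.FINAL.Final0 GaloisRep
open Fermat.Agent.TW.FLAT.FlatModule6
open Fermat.Agent.MP.FINAL.DatumFacts6
open Fermat.Agent.MP.T3.Config2 Fermat.Agent.MP.T3.Bridge6 Fermat.Agent.MP.T3.T3Datum6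
open Fermat.Agent.MZ.LOCP.Setting7

noncomputable section

variable {p : ℕ} [Fact p.Prime]

/-- **the value group of the `I_p`-fixed elements of `ℚ̄` is `|p|^ℤ`.** -/
theorem exists_zpow_of_fixed {c : Qb} (hc0 : c ≠ 0) (hc : ∀ σ ∈ Iv p, σ c = c) :
    ∃ j : ℤ, nrm p c = nrm p ((p : ℕ) : Qb) ^ j := by
  have key : ∀ x : Qb, x ≠ 0 → (∀ σ ∈ Iv p, σ x = x) → nrm p x ≤ 1 →
      ∃ n : ℕ, nrm p x = nrm p ((p : ℕ) : Qb) ^ n := by
    intro x hx0 hx hle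
    have hW : x ∈ Wur p := mem_Wur_iff.mpr ⟨hle, hx⟩
    obtain ⟨n, u, hu, hu', hxu⟩ := Wur.exists_eq_pow_mul hW hx0
    have hu0 : u ≠ 0 := by
      rintro rfl
      rw [mul_zero] at hxu
      exact hx0 hxu
    have hu1 : nrm p u = 1 := by
      have h1 := (mem_Wur_iff.1 hu).1
      have h2 := (mem_Wur_iff.1 hu').1
      rw [nrm_inv] at h2
      exact le_antisymm h1 ((inv_le_one₀ (nrm_pos hu0)).1 h2)
    exact ⟨n, by rw [hxu, nrm_mul, nrm_pow, hu1, mul_one]⟩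
  rcases le_total (nrm p c) 1 with hle | hge
  · obtain ⟨n, hn⟩ := key c hc0 hc hle
    exact ⟨n, by rw [hn, zpow_natCast]⟩
  · have hinv : nrm p c⁻¹ ≤ 1 := by
      rw [nrm_inv]
      exact inv_le_one_of_one_le₀ hge
    obtain ⟨n, hn⟩ := key c⁻¹ (inv_ne_zero hc0) (fun σ hσ => by rw [map_inv₀, hc σ hσ]) hinv
    refine ⟨-(n : ℤ), ?_⟩
    rw [nrm_inv] at hn
    rw [zpow_neg, zpow_natCast, ← hn, inv_inv]

variable {N : ℕ} [NeZero N]
  {κ Ft : Type} [Field κ] [Field Ft] [Algebra κ Ft] {ι E : Type}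
  {𝔻 : SemiRedDatum Qb (X0.FF N) κ Ft ι E}

theorem baseAut_rhoI (γ : ↥(Iv p)) (a : Qb) :
    SemilinearAut.baseAut (rhoI p N γ) a = γ.1 a := rfl

/-- an NS system with `gen N` centres whose auxiliary point is off `bad0`. -/
theorem exists_ns_aux [Finite ι] [Nonempty ι] [Finite E] [Infinite κ] (h : DatumFacts p N 𝔻) :
    ∃ S : NSSystemN 𝔻 (gen N), (S.c0, S.Q0) ∉ bad0 h := by
  obtain ⟨S, -, h0⟩ := h.exists_nsSystem (bad0 h) (bad0_finite h)
  exact ⟨S, h0⟩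

/-- **the concrete setting of the descent** : `Γ = I_p` acting on a semistable datum of `X₀(N)` along
`padicPlace p`, with (TH) and (R1') as hypotheses. -/
def locpSetting [Finite ι] [Nonempty ι] [Finite E] [Infinite κ]
    (h : DatumFacts p N 𝔻)
    (hTH : ∀ e, absv 𝔻 (𝔻.π e) = absv 𝔻 ((p : ℕ) : Qb))
    (Φ : E → X0.FF N)
    (Φ_fix : ∀ γ ∈ Iv p, ∀ e,
      arithmeticGalois (modularFunctionFieldFull N) γ • Φ e = Φ e)
    (Φ_ann : ∀ e (P : Place Qb (X0.FF N)), 𝔻.r P = Sum.inr e → P.ord (Φ e) = 0)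
    (Φ_mem : ∀ e, Φ e ∈ 𝔻.G (𝔻.src e))
    (Φ_ord : ∀ e, (𝔻.Qs e).ord (𝔻.red (𝔻.src e) ⟨Φ e, Φ_mem e⟩) = 1) :
    LocpSetting 𝔻 ↥(Iv p) (gen N) where
  ρ := rhoI p N
  inert γ := h.hinert γ.1 γ.2
  triv γ P := h.triv γ.1 γ.2 P
  unif := ((p : ℕ) : Qb)
  unif_ne := Nat.cast_ne_zero.mpr (Fact.out : p.Prime).ne_zero
  unif_lt := by
    rw [absv_lt_one_iff h.hA, nrm_natCast_self]
    have hp1 : (1 : ℝ) < (p : ℝ) := by exact_mod_cast (Fact.out : p.Prime).one_lt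
    exact inv_lt_one_of_one_lt₀ hp1
  unif_fix γ := by
    rw [baseAut_rhoI, map_natCast]
  fixedVal c hc0 hc := by
    obtain ⟨j, hj⟩ := exists_zpow_of_fixed (p := p) hc0 (fun σ hσ => hc ⟨σ, hσ⟩)
    refine ⟨j, ?_⟩
    have h2 : absv 𝔻 ((p : ℕ) : Qb) ^ j = absv 𝔻 (((p : ℕ) : Qb) ^ j) := (map_zpow₀ _ _ _).symm
    rw [h2, absv_eq_iff h.hA, nrm_zpow]
    exact hj
  thick := hTH
  Φ := Φ
  Φ_fix γ e := Φ_fix γ.1 γ.2 e
  Φ_ann := Φ_ann
  Φ_mem := Φ_mem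
  Φ_ord := Φ_ord
  NS := (exists_ns_aux h).choose
  hRR := h.hRR
  Pinf := (exists_fixedPlace h _ _ (exists_ns_aux h).choose.sm0 (exists_ns_aux h).choose_spec).choose
  Pinf_fix γ :=
    (exists_fixedPlace h _ _ (exists_ns_aux h).choose.sm0
      (exists_ns_aux h).choose_spec).choose_spec.2 γ

section

variable [Finite ι] [Nonempty ι] [Finite E] [Infinite κ]
    (h : DatumFacts p N 𝔻)
    (hTH : ∀ e, absv 𝔻 (𝔻.π e) = absv 𝔻 ((p : ℕ) : Qb))
    (Φ : E → X0.FF N)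
    (Φ_fix : ∀ γ ∈ Iv p, ∀ e,
      arithmeticGalois (modularFunctionFieldFull N) γ • Φ e = Φ e)
    (Φ_ann : ∀ e (P : Place Qb (X0.FF N)), 𝔻.r P = Sum.inr e → P.ord (Φ e) = 0)
    (Φ_mem : ∀ e, Φ e ∈ 𝔻.G (𝔻.src e))
    (Φ_ord : ∀ e, (𝔻.Qs e).ord (𝔻.red (𝔻.src e) ⟨Φ e, Φ_mem e⟩) = 1)

@[simp] theorem locpSetting_ρ :
    (locpSetting h hTH Φ Φ_fix Φ_ann Φ_mem Φ_ord).ρ = rhoI p N := rfl

@[simp] theorem locpSetting_unif :
    (locpSetting h hTH Φ Φ_fix Φ_ann Φ_mem Φ_ord).unif = ((p : ℕ) : Qb) := rfl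

/-- the action of the setting on `J₀(N)` is the Galois action. -/
theorem locpSetting_smul (γ : ↥(Iv p)) (x : JZero N) :
    (locpSetting h hTH Φ Φ_fix Φ_ann Φ_mem Φ_ord).ρ γ • x = γ.1 • x := rfl

end

end

end Fermat.Agent.MZ.LOCP.SettingDatum6
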