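/-
Programme MZ (S15), chapter LOCP (helper9), **WP5 (A1-lower)**: `(ℓ^k)^(2g) ≤ #J₀(N)[ℓ^k]`,
`g` the genus of `X₀(N)`.

`J₀(N)[ℓ^k] ≅ {χ ∈ Xpar(Γ₀(N)) | χ^(ℓ^k) = 1}` (`KummerSystemFinal18.kummerSystemJ`), and `Γ₀(N)` has
`2 · dim S₂ = 2g` linearly independent parabolic additive characters (Eichler–Shimura injectivity, S21; S20,
S24), so `TorsCountAbs9.exists_injective_char` produces `(ℓ^k)^(2g)` Kummer characters.
-/
import Mathlib
import Fermat.Agent.MZ.LOCP.TorsCountAbs9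
import Fermat.Agent.ES.J.KummerSystemFinal18
import Fermat.Agent.ES.KUM.KumFin23
import Fermat.Agent.ES.KUM.FiniteTorsion15
import Fermat.Agent.S20
import Fermat.Agent.S24

set_option autoImplicit false
set_option linter.unusedSectionVars false
set_option linter.style.longLine false
set_option linter.style.haveILetI false

open scoped MatrixGroups
open CongruenceSubgroup AlgebraicCurve ModularCurve ModularCurve.Period

noncomputable section

namespace Fermat.Agent.MZ.LOCP.TorsCount9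

open Fermat.Agent.ES.J.TateChar11 Fermat.Agent.ES.J.KummerSystemFinal18
open Fermat.Agent.MZ.LOCP.TorsCountAbs9

variable (N : ℕ) [NeZero N]

/-- a parabolic additive character kills every `γ` with `|tr γ| ≤ 2`. -/
theorem parabolic_kills {φ : Additive ↥(Gamma0 N) →+ ℂ} (hφ : φ ∈ parabolicHoms ℂ (Gamma0 N) ℂ)
    (γ : ↥(Gamma0 N))
    (hγ : |((γ : SL(2, ℤ)) : Matrix (Fin 2) (Fin 2) ℤ).trace| ≤ 2) : φ (Additive.ofMul γ) = 0 := by
  rw [mem_parabolicHoms_iff] at hφ
  set t := ((γ : SL(2, ℤ)) : Matrix (Fin 2) (Fin 2) ℤ).trace with ht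
  by_cases h1 : |t| ≤ 1
  · have h12 := pow_twelve_eq_one γ h1
    have h2 : (12 : ℕ) • φ (Additive.ofMul γ) = 0 := by
      rw [← map_nsmul, ← ofMul_pow, h12]
      exact map_zero φ
    rw [nsmul_eq_mul] at h2
    rcases mul_eq_zero.mp h2 with h3 | h3
    · norm_num at h3
    · exact h3
  · refine hφ γ ?_
    have h2 : |t| = 2 := by
      have h3 : 0 ≤ |t| := abs_nonneg t
      omega
    have h4 : t ^ 2 = |t| ^ 2 := (sq_abs t).symm
    rw [← ht, h4, h2]
    norm_num

/-- **(A1-lower)**: `(ℓ^k)^(2g) ≤ #J₀(N)[ℓ^k]`. -/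
theorem card_torsion_ge
    [HasCanonicalDivisor (K := AlgebraicClosure ℚ) (F := ↥(modularFunctionFieldBar N))]
    (ℓ : ℕ) [Fact ℓ.Prime] (k : ℕ) :
    (ℓ ^ k) ^ (2 * genus (AlgebraicClosure ℚ) ↥(modularFunctionFieldBar N)) ≤
      Nat.card {y : JZero N // ℓ ^ k • y = 0} := by
  classical
  have hℓ : ℓ.Prime := Fact.out
  haveI : NeZero (ℓ ^ k) := ⟨pow_ne_zero k hℓ.ne_zero⟩
  haveI : Group.FG ↥(Gamma0 N) := Fermat.Agent.ES.KUM.KumFin23.fg_Gamma0 N
  -- the dimension count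
  have hgenus : Module.finrank ℂ (CuspForm (Gamma0 N) 2) =
      genus (AlgebraicClosure ℚ) ↥(modularFunctionFieldBar N) := by
    have h1 := Fermat.Agent.S20.result N
    have h2 := Fermat.Agent.S24.result N
    have h3 : (Module.finrank ℂ (CuspForm (Gamma0 N) 2) : ℚ) =
        (genus (AlgebraicClosure ℚ) ↥(modularFunctionFieldBar N) : ℚ) := by rw [h1, h2]
    exact_mod_cast h3
  set d := Module.finrank ℂ (CuspForm (Gamma0 N) 2 × CuspForm (Gamma0 N) 2) with hd
  have hd2 : d = 2 * genus (AlgebraicClosure ℚ) ↥(modularFunctionFieldBar N) := by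
    rw [hd, Module.finrank_prod, hgenus]
    ring
  -- `2g` independent parabolic characters
  let b : Module.Basis (Fin d) ℂ (CuspForm (Gamma0 N) 2 × CuspForm (Gamma0 N) 2) :=
    Module.finBasis ℂ _
  have hES := Fermat.Agent.S21.Assembly.eichlerShimura_of_le N
    (Fermat.Agent.S20.LowerBound.genusFormula_le_finrank N)
  let φ : Fin d → (Additive ↥(Gamma0 N) →+ ℂ) := fun j => periodHomPair N (b j)
  have hφ : LinearIndependent ℂ φ :=
    b.linearIndependent.map' (periodHomPair N) (LinearMap.ker_eq_bot.mpr hES.1)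
  have hφpar : ∀ j, φ j ∈ parabolicHoms ℂ (Gamma0 N) ℂ := fun j => by
    rw [← hES.2]
    exact ⟨b j, rfl⟩
  obtain ⟨f, hf, hfprop⟩ := exists_injective_char
    (T := {γ : ↥(Gamma0 N) | |((γ : SL(2, ℤ)) : Matrix (Fin 2) (Fin 2) ℤ).trace| ≤ 2})
    (ℓ ^ k) φ hφ (fun j γ hγ => parabolic_kills N (hφpar j) γ hγ)
  -- back to `J[ℓ^k]`
  let KS := kummerSystemJ ℓ N
  have hmem : ∀ a : Fin d → ZMod (ℓ ^ k), (Additive.ofMul (f a) : X (Gamma0 N)) ∈ Set.range (KS.κ k) := by
    intro a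
    rw [KS.range_eq k]
    refine ⟨fun γ hγ => (hfprop a).1 γ hγ, ?_⟩
    show ℓ ^ k • Additive.ofMul (f a) = 0
    rw [← ofMul_pow, (hfprop a).2]
    rfl
  choose y hy using hmem
  have hyinj : Function.Injective y := by
    intro a a' haa'
    apply hf
    have h1 : (Additive.ofMul (f a) : X (Gamma0 N)) = Additive.ofMul (f a') := by
      rw [← hy a, ← hy a', haa']
    exact Additive.ofMul.injective h1
  let g : (Fin d → ZMod (ℓ ^ k)) → {y : JZero N // ℓ ^ k • y = 0} := fun a =>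
    ⟨((y a : ↥(tors (JZero N) (ℓ ^ k))) : JZero N), mem_tors.mp (y a).2⟩
  have hginj : Function.Injective g := by
    intro a a' haa'
    apply hyinj
    exact Subtype.ext (congrArg Subtype.val haa')
  haveI : Finite {y : JZero N // ℓ ^ k • y = 0} :=
    (Fermat.Agent.ES.KUM.FiniteTorsion15.finite_setOf_nsmul_eq_zero N (ℓ ^ k)).to_subtype
  have hcard := Nat.card_le_card_of_injective g hginj
  rw [Nat.card_eq_fintype_card, Fintype.card_fun, ZMod.card, Fintype.card_fin] at hcard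
  rw [← hd2]
  exact hcard

end Fermat.Agent.MZ.LOCP.TorsCount9
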