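/-
Programme MZ, chapter LOCP (helper6): **the level-`4p` core of (P1)** : `InertDiv p ℓ (4 * p)`
(`PushDown7.InertDiv`), from helper7's abstract descent theorem (`Descent7.exists_fixed_root`, taken
here in the shape `DescentShape`) instantiated at the concrete datum `MainDatum6.datum` with `M' = 4`:

* (K3) `KerTorsDatum6.eq_zero_of_mem_kerRed_datum`;  (P¹) `RatPowFour6.exists_pow_eq_four`;
* (L2) `NodeBound6.card_le_succ`;  (A1) `TorsCount9.card_torsion_ge`;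
* the setting `SettingDatum6.locpSetting` with (TH), (R1') from `MP/TH/Reg7.reg_datum`;
* divisibility `MW/A/NSGlue2.jzero_divisible`.

`m₁ = #nodes` (the number of supersingular points of `X₀(4)` in characteristic `p`).
-/
import Mathlib
import Fermat.Agent.MZ.LOCP.SettingDatum6
import Fermat.Agent.MZ.LOCP.KerTorsDatum6
import Fermat.Agent.MZ.LOCP.RatPowFour6
import Fermat.Agent.MZ.LOCP.NodeBound6
import Fermat.Agent.MZ.LOCP.TorsCount9
import Fermat.Agent.MZ.LOCP.PushDown7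
import Fermat.Agent.MP.T3.T3Main6
import Fermat.Agent.MP.TH.THOut6
import Fermat.Agent.MW.A.NSGlue2

set_option autoImplicit false
set_option linter.unusedSectionVars false
set_option linter.style.longLine false
set_option linter.style.haveILetI false
set_option synthInstance.maxHeartbeats 400000
set_option maxHeartbeats 1000000

namespace Fermat.Agent.MZ.LOCP.Core6

open AlgebraicCurve ModularCurve Fermat.Agent.X0.FF Fermat.Agent.RR.LSpace
open Fermat.Agent.ORD.ANN.Side3 Fermat.Agent.ORD.ANN.Inertial3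
open Fermat.Agent.ORD.SEMIRED.SemiRedDatum9 Fermat.Agent.ORD.SEMIRED.ToSemiRed9
open Fermat.Agent.ORD.KERN.KerDefs9 Fermat.Agent.ORD.KERN.KerN9
open Fermat.Agent.FF.BASE.Place2 Fermat.Agent.FF.FINAL.Final0 GaloisRep
open Fermat.Agent.TW.FLAT.FlatModule6
open Fermat.Agent.MP.FINAL.MainDatum6 Fermat.Agent.MP.FINAL.DatumFacts6
open Fermat.Agent.MP.T3.Config2 Fermat.Agent.MP.T3.T3Datum6 Fermat.Agent.MP.T3.T3Main6
open Fermat.Agent.ES.RED.ChartIntegralA1
open Fermat.Agent.MZ.LOCP.Setting7 Fermat.Agent.MZ.LOCP.SettingDatum6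
open Fermat.Agent.MZ.LOCP.PushDown7

noncomputable section

local instance (priority := 100000) algKF6c (A : ValuationSubring Qb) (M : ℕ) [NeZero M] :
    Algebra (kA A) ↥(modularFunctionFieldFullC (kA A) M) := inferInstance

/-- **the shape of helper7's `Descent7.exists_fixed_root`** on a datum. -/
def DescentShape {L F k Ft ι E : Type} [Field L] [Field F] [Algebra L F] [Field k] [Field Ft]
    [Algebra k Ft] (𝔻 : SemiRedDatum L F k Ft ι E) (Γ : Type) [Group Γ] (gen : ℕ) : Prop :=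
  ∀ {v0 v1 : ι} (_ : TwoComp 𝔻 v0 v1) [Fintype E] [Nonempty E] (G : LocpSetting 𝔻 Γ gen)
    (n : ℕ) (_ : 0 < n)
    (_ : ∀ (c : L) (m : ℕ), 0 < m → ∃ b : L, b ^ m = c)
    (_ : ∀ c : k, ∃ a : k, a ^ n = c)
    (_ : ∀ g : Ft, g ≠ 0 → (∀ Q : Place k Ft, (n : ℤ) ∣ Q.ord g) → ∃ h : Ft, h ^ n = g)
    (_ : ∀ z ∈ kerRed 𝔻, n • z = 0 → z = 0)
    (_ : n ^ (2 * gen) ≤ Nat.card {y : Pic0 L F // n • y = 0})
    (_ : Fintype.card E ≤ gen + 1)
    (_ : ∀ x : Pic0 L F, ∃ y, n • y = x)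
    (x : Pic0 L F) (_ : ∀ γ, G.ρ γ • x = x),
    ∃ y : Pic0 L F, n • y = Fintype.card E • x ∧ ∀ γ, G.ρ γ • y = y

variable {p : ℕ} [Fact p.Prime]

theorem not_dvd_four (hp2 : p ≠ 2) : ¬ p ∣ 4 := by
  intro h
  have hp : p.Prime := Fact.out
  have h2 : p ∣ 2 ^ 2 := by norm_num; exact h
  exact hp2 ((Nat.prime_dvd_prime_iff_eq hp Nat.prime_two).mp (hp.dvd_of_dvd_pow h2))

/-- **the level-`4p` core of (P1)** from the abstract descent. -/
theorem inertDiv_of_descent (hp2 : p ≠ 2) {ℓ : ℕ} (hℓ : ℓ.Prime) (hℓp : ℓ ≠ p)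
    (hdesc : DescentShape (datum (not_dvd_four hp2) (dvd_refl 4) hp2) ↥(Iv p) (gen (4 * p))) :
    InertDiv p ℓ (4 * p) := by
  classical
  have hp : p.Prime := Fact.out
  set hpM := not_dvd_four hp2 with hhpM
  have h4 : (4 : ℕ) ∣ 4 := dvd_refl 4
  haveI : IsAlgClosed (kA (padicPlace p)) := isAlgClosed_kA
  haveI : Infinite (kA (padicPlace p)) := inferInstance
  haveI : Nonempty (Nodes hpM h4 hp2) :=
    Fermat.Agent.ORD.IFACEN.GlueTwoN9.nonempty_edges (assembly hpM h4 hp2)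
  haveI : Fintype (Nodes hpM h4 hp2) := Fintype.ofFinite _
  haveI := Fermat.Agent.X0.HasCanDivInst.hasCanonicalDivisor (4 * p)
  have hfacts := datumFacts_datum hpM h4 hp2
  have tc := twoComp_datum hpM h4 hp2
  obtain ⟨hTH, Φ, Φ_fix, Φ_ann, Φ_mem, Φ_ord⟩ :=
    Fermat.Agent.MP.TH.Reg7.reg_datum hpM h4 hp2
      (fun e => Fermat.Agent.MP.TH.Cusp2.h0 hpM h4 hp2 e)
      (fun e => Fermat.Agent.MP.TH.Cusp2.h1 hpM h4 hp2 e _)
  set G := locpSetting hfacts hTH Φ Φ_fix Φ_ann Φ_mem Φ_ord with hG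
  have hm₁ : 0 < Fintype.card (Nodes hpM h4 hp2) := Fintype.card_pos
  refine ⟨Fintype.card (Nodes hpM h4 hp2), hm₁, fun r x hx => ?_⟩
  have hn : 0 < ℓ ^ r := pow_pos hℓ.pos r
  have hpn : ¬ p ∣ ℓ ^ r := by
    intro h
    exact hℓp ((Nat.prime_dvd_prime_iff_eq hp hℓ).mp (hp.dvd_of_dvd_pow h)).symm
  haveI : Fact ℓ.Prime := ⟨hℓ⟩
  obtain ⟨y, hy, hyfix⟩ := hdesc tc G (ℓ ^ r) hn
    (fun c m hm => IsAlgClosed.exists_pow_nat_eq c hm)
    (fun c => IsAlgClosed.exists_pow_nat_eq c hn)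
    (fun g hg hdiv => Fermat.Agent.MZ.LOCP.RatPowFour6.exists_pow_eq_four p (padicPlace p)
      (liesOverPrime p) hpM hn hg hdiv)
    (fun z hz hnz => Fermat.Agent.MZ.LOCP.KerTorsDatum6.eq_zero_of_mem_kerRed_datum hpM h4 hp2
      hpn hz hnz)
    (Fermat.Agent.MZ.LOCP.TorsCount9.card_torsion_ge (4 * p) ℓ r)
    (Fermat.Agent.MZ.LOCP.NodeBound6.card_le_succ _ tc (gen (4 * p)) hfacts.hRR)
    (fun x => Fermat.Agent.MW.A.NSGlue2.jzero_divisible (4 * p) (ℓ ^ r) hn x)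
    x (fun γ => hx γ.1 γ.2)
  exact ⟨y, hy, fun τ hτ => hyfix ⟨τ, hτ⟩⟩

end

end Fermat.Agent.MZ.LOCP.Core6
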