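/-
Programme MZ (S15, Mazur), area LOCP (helper7): **the `n`-torsion classes represented in `𝒵` are at most
`n ^ (#E − 1)`.**

* `exists_div_of_nsmul_eq_zero` : if `n • [Z] = 0` then `n • Z = div f`;
* `IsZClass 𝔻 x` : the class `x` has a representative in `𝒵`; `isZClass_zero/add/neg/sub`,
  `isZClass_of_mem_kerRed`;
* `BZ 𝔻 n` : the subgroup of the classes of `𝒵` killed by `n`;
* `card_BZ_le` : `#BZ ≤ n ^ (#E − 1)` (and `BZ` is finite): the torus invariant modulo constants is an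
  injection `BZ → μ_n(k)^(E ∖ e₀)`, by (C1), (C2) and (K3) `kerRed ∩ J[n] = 0`.
-/
import Mathlib
import Fermat.Agent.MZ.LOCP.TorInv7

set_option autoImplicit false
set_option linter.unusedSectionVars false
set_option linter.style.longLine false

namespace Fermat.Agent.MZ.LOCP.TorBound7

open AlgebraicCurve Fermat.Agent.X0.FF Fermat.Agent.RR.LSpace Fermat.Agent.MW.EMB.Value6
open Fermat.Agent.ORD.ANN.Side3 Fermat.Agent.ORD.ANN.Node3
open Fermat.Agent.ORD.SEMIRED.SemiRedDatum9 Fermat.Agent.ORD.SEMIRED.ToSemiRed9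
open Fermat.Agent.ORD.KERN.KerDefs9 Fermat.Agent.ORD.KERN.KerN9
open Fermat.Agent.MP.T3.Config2 Fermat.Agent.MP.T3.AnnAlg2
open Fermat.Agent.MZ.LOCP.TorInv7

noncomputable section

variable {L F k Ft : Type*} [Field L] [Field F] [Algebra L F] [Field k] [Field Ft] [Algebra k Ft]
variable {ι E : Type*}

/-- if `n • [Z] = 0` then `n • Z` is principal. -/
theorem exists_div_of_nsmul_eq_zero (Z : Divisor.degZero (K := L) (F := F)) (n : ℕ)
    (h : n • Pic0.mk Z = 0) : ∃ f : F, f ≠ 0 ∧ ∀ P : Place L F, P.ord f = n * (Z : Divisor L F) P := by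
  have hmD : n • (Z : Divisor L F) ∈ Divisor.principal (K := L) (F := F) := by
    have h1 : Pic0.mk (n • Z) = 0 := by
      rw [← h]; rfl
    have h2 := (QuotientAddGroup.eq_zero_iff _).mp h1
    rw [AddSubgroup.mem_addSubgroupOf] at h2
    simpa using h2
  obtain ⟨f, hf0, hfD⟩ := hmD
  exact ⟨f, hf0, fun P => by rw [← hfD P]; simp⟩

variable (𝔻 : SemiRedDatum L F k Ft ι E)

/-- the class `x` has a representative in `𝒵`. -/
def IsZClass (x : Pic0 L F) : Prop :=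
  ∃ Z : Divisor.degZero (K := L) (F := F), InZ 𝔻 (Z : Divisor L F) ∧ Pic0.mk Z = x

variable {𝔻}

theorem isZClass_zero : IsZClass 𝔻 (0 : Pic0 L F) := ⟨0, inZ_zero, rfl⟩

theorem IsZClass.add {x y : Pic0 L F} (hx : IsZClass 𝔻 x) (hy : IsZClass 𝔻 y) :
    IsZClass 𝔻 (x + y) := by
  obtain ⟨Z, hZ, rfl⟩ := hx
  obtain ⟨W, hW, rfl⟩ := hy
  exact ⟨Z + W, hZ.add hW, rfl⟩

theorem IsZClass.neg {x : Pic0 L F} (hx : IsZClass 𝔻 x) : IsZClass 𝔻 (-x) := by
  obtain ⟨Z, hZ, rfl⟩ := hx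
  exact ⟨-Z, hZ.neg, rfl⟩

theorem IsZClass.sub {x y : Pic0 L F} (hx : IsZClass 𝔻 x) (hy : IsZClass 𝔻 y) :
    IsZClass 𝔻 (x - y) := by
  rw [sub_eq_add_neg]; exact hx.add hy.neg

theorem isZClass_of_mem_kerRed {z : Pic0 L F} (hz : z ∈ kerRed 𝔻) : IsZClass 𝔻 z := by
  obtain ⟨Z, hZ, -, rfl⟩ := exists_inZ_of_mem_kerRed hz
  exact ⟨Z, hZ, rfl⟩

variable (𝔻)

/-- **the classes of `𝒵` killed by `n`.** -/
def BZ (n : ℕ) : AddSubgroup (Pic0 L F) where
  carrier := {x | n • x = 0 ∧ IsZClass 𝔻 x}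
  zero_mem' := ⟨smul_zero n, isZClass_zero⟩
  add_mem' {x y} hx hy := ⟨by rw [nsmul_add, hx.1, hy.1, add_zero], hx.2.add hy.2⟩
  neg_mem' {x} hx := ⟨by rw [neg_nsmul, hx.1, neg_zero], hx.2.neg⟩

variable {𝔻}

theorem mem_BZ {n : ℕ} {x : Pic0 L F} : x ∈ BZ 𝔻 n ↔ n • x = 0 ∧ IsZClass 𝔻 x := Iff.rfl

variable {v0 v1 : ι} {g : ℕ}

/-- **the bound.** -/
theorem card_BZ_le [Finite ι] [Nonempty ι] [Fintype E] [Nonempty E] (tc : TwoComp 𝔻 v0 v1)
    (S : NSSystemN 𝔻 g)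
    (hRR : ∀ E' : Divisor L F, Divisor.degree E' = g → ∃ f : F, f ≠ 0 ∧ ∀ P, -(E' P) ≤ P.ord f)
    (hthick : ∀ e e', 𝔻.B.A.valuation (𝔻.node e).π = 𝔻.B.A.valuation (𝔻.node e').π)
    (n : ℕ) (hn : 0 < n) (hK3 : ∀ z ∈ kerRed 𝔻, n • z = 0 → z = 0) :
    Finite (BZ 𝔻 n) ∧ Nat.card (BZ 𝔻 n) ≤ n ^ (Fintype.card E - 1) := by
  classical
  obtain ⟨e0⟩ := (inferInstance : Nonempty E)
  -- representatives
  have hrep : ∀ x : BZ 𝔻 n, ∃ Z : Divisor.degZero (K := L) (F := F),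
      InZ 𝔻 (Z : Divisor L F) ∧ Pic0.mk Z = (x : Pic0 L F) := fun x => x.2.2
  choose Zr hZr hZx using hrep
  -- the torus invariant modulo constants
  set θ : BZ 𝔻 n → E → k := fun x e =>
    tor 𝔻 (Zr x : Divisor L F) e / tor 𝔻 (Zr x : Divisor L F) e0 with hθ
  have hθ0 : ∀ x, θ x e0 = 1 := fun x => div_self (tor_ne_zero (hZr x) e0)
  have hθn : ∀ x e, θ x e ^ n = 1 := by
    intro x e
    have hx : n • Pic0.mk (Zr x) = 0 := by rw [hZx x]; exact x.2.1
    obtain ⟨f, hf0, hf⟩ := exists_div_of_nsmul_eq_zero (Zr x) n hx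
    obtain ⟨c, hc0, hc⟩ := tor_pow_const tc hthick (hZr x) n hf0 hf
    rw [hθ]
    show (tor 𝔻 (Zr x : Divisor L F) e / tor 𝔻 (Zr x : Divisor L F) e0) ^ n = 1
    rw [div_pow, hc e, hc e0, div_self hc0]
  -- injectivity
  have hinj : ∀ x y : BZ 𝔻 n, (∀ e, θ x e = θ y e) → x = y := by
    intro x y hxy
    have hW : InZ 𝔻 ((Zr x - Zr y : Divisor.degZero (K := L) (F := F)) : Divisor L F) := by
      have := (hZr x).sub (hZr y)
      exact this
    have hconst : ∀ e, tor 𝔻 ((Zr x - Zr y : Divisor.degZero (K := L) (F := F)) : Divisor L F) e =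
        tor 𝔻 (Zr x : Divisor L F) e0 / tor 𝔻 (Zr y : Divisor L F) e0 := by
      intro e
      have h1 : tor 𝔻 ((Zr x - Zr y : Divisor.degZero (K := L) (F := F)) : Divisor L F) e =
          tor 𝔻 (Zr x : Divisor L F) e / tor 𝔻 (Zr y : Divisor L F) e := tor_sub (hZr x) (hZr y) e
      rw [h1]
      have h2 := hxy e
      rw [hθ] at h2
      have hx0 := tor_ne_zero (hZr x) e0
      have hy0 := tor_ne_zero (hZr y) e0
      have hye := tor_ne_zero (hZr y) e
      have h3 : tor 𝔻 (Zr x : Divisor L F) e / tor 𝔻 (Zr x : Divisor L F) e0 =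
          tor 𝔻 (Zr y : Divisor L F) e / tor 𝔻 (Zr y : Divisor L F) e0 := h2
      rw [div_eq_div_iff hx0 hy0] at h3
      rw [div_eq_div_iff hye hy0]
      linear_combination h3
    have hker := mem_kerRed_of_inZ tc S hRR (Zr x - Zr y) hW _ hconst
    have hmk : Pic0.mk (Zr x - Zr y) = (x : Pic0 L F) - (y : Pic0 L F) := by
      rw [← hZx x, ← hZx y]; rfl
    have h0 := hK3 _ hker (by rw [hmk, nsmul_sub, x.2.1, y.2.1, sub_self])
    rw [hmk, sub_eq_zero] at h0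
    exact Subtype.ext h0
  -- the target
  set R : Finset k := Polynomial.nthRootsFinset n (1 : k) with hR
  have hRcard : R.card ≤ n := by
    rw [hR, Polynomial.nthRootsFinset]
    exact (Multiset.toFinset_card_le _).trans (Polynomial.card_nthRoots n 1)
  set ψ : BZ 𝔻 n → ({e : E // e ≠ e0} → R) := fun x e =>
    ⟨θ x e.1, (Polynomial.mem_nthRootsFinset hn 1).mpr (hθn x e.1)⟩ with hψ
  have hψinj : Function.Injective ψ := by
    intro x y hxy
    refine hinj x y fun e => ?_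
    by_cases he : e = e0
    · rw [he, hθ0, hθ0]
    · have := congrFun hxy ⟨e, he⟩
      exact congrArg Subtype.val this
  have hfin : Finite (BZ 𝔻 n) := Finite.of_injective ψ hψinj
  refine ⟨hfin, ?_⟩
  calc Nat.card (BZ 𝔻 n) ≤ Nat.card ({e : E // e ≠ e0} → R) :=
        Nat.card_le_card_of_injective ψ hψinj
    _ = R.card ^ (Fintype.card E - 1) := by
        rw [Nat.card_eq_fintype_card, Fintype.card_fun, Fintype.card_coe,
          Fintype.card_subtype_compl, Fintype.card_subtype_eq]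
    _ ≤ n ^ (Fintype.card E - 1) := Nat.pow_le_pow_left hRcard _

end

end Fermat.Agent.MZ.LOCP.TorBound7
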