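/-
Programme MZ (S15, Mazur), area LOCP (helper7): **(X'') the kernel of the slope map `τ` on `J[n]` consists
of classes of `𝒵`** (`n` prime to the residue characteristic is NOT used here: only roots).

* `exists_correction` : for every `ζ : E → kˣ` there is a divisor `C` of degree `0`, supported on the
  annuli with `r_* C = 0`, whose torus coordinate at `e` is a unit of residue `ζ e`;
* `edge_root_data` : the relations (N1), (N2), (N3) for the `n`-th roots `h_v` of the normalised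
  reductions of a Kummer function (`div f = n • D`), up to an `n`-th root of unity `ζ_e` at each node;
* `isZClass_of_tau_eq_zero` **(X'')** : if `n • y = 0` and `τ(y) = 0` then `y` has a representative in
  `𝒵`.  Hypotheses: `n`-th roots in `L`, elements of intermediate absolute value `|π_e| < |b| < 1`, and
  (P¹) `n ∣ div g ⟹ g = hⁿ` on the components.
-/
import Mathlib
import Fermat.Agent.MZ.LOCP.TorBound7
import Fermat.Agent.MZ.LOCP.SlopeCrit7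
import Fermat.Agent.MP.T3.AnnPlace2
import Fermat.Agent.MP.TAU.TauDefs3

set_option autoImplicit false
set_option linter.unusedSectionVars false
set_option linter.style.longLine false

namespace Fermat.Agent.MZ.LOCP.KerTau7

open AlgebraicCurve Fermat.Agent.X0.FF Fermat.Agent.RR.LSpace Fermat.Agent.MW.EMB.Value6
open Fermat.Agent.ORD.ANN.Side3 Fermat.Agent.ORD.ANN.Node3
open Fermat.Agent.ORD.SEMIRED.SemiRedDatum9 Fermat.Agent.ORD.SEMIRED.ToSemiRed9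
open Fermat.Agent.ORD.KERN.KerDefs9 Fermat.Agent.ORD.KERN.KerN9
open Fermat.Agent.MP.T3.Config2 Fermat.Agent.MP.T3.AnnAlg2
open Fermat.Agent.MP.TAU.TauDefs3 Fermat.Agent.MP.TAU.KumCrit3
open Fermat.Agent.MZ.LOCP.TorInv7 Fermat.Agent.MZ.LOCP.TorBound7

noncomputable section

variable {L F k Ft : Type*} [Field L] [Field F] [Algebra L F] [Field k] [Field Ft] [Algebra k Ft]
variable {ι E : Type*} {𝔻 : SemiRedDatum L F k Ft ι E}

/-! ### corrections on the annuli -/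

/-- a pair of places of the annulus `e` whose coordinates differ by a unit of residue `ζ`. -/
theorem exists_pair (e : E) (hmid : ∃ b : L, b ≠ 0 ∧ 𝔻.B.IsM b ∧ 𝔻.B.IsM (𝔻.π e / b))
    {ζ : k} (hζ : ζ ≠ 0) :
    ∃ (P P' : Place L F) (ω : L), 𝔻.r P = Sum.inr e ∧ 𝔻.r P' = Sum.inr e ∧ 𝔻.B.IsU ω ∧
      𝔻.B.resL ω = ζ ∧ acoord 𝔻 e P = ω * acoord 𝔻 e P' := by
  obtain ⟨b, hb0, hb, hq⟩ := hmid
  obtain ⟨ω, hω⟩ := 𝔻.B.res_surj ζ
  have hωunit : IsUnit ω := by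
    by_contra h
    exact hζ (by rw [← hω]; exact (𝔻.B.res_eq_zero_iff ω).mpr h)
  have hωU : 𝔻.B.IsU (ω : L) := (𝔻.B.A.valuation_eq_one_iff ω).mp hωunit
  have hωb0 : (ω : L) * b ≠ 0 := mul_ne_zero hωU.ne_zero hb0
  have hωb : 𝔻.B.IsM ((ω : L) * b) := by
    rw [Base.IsM, map_mul, (hωU : 𝔻.B.A.valuation (ω : L) = 1), one_mul]; exact hb
  have hωq : 𝔻.B.IsM (𝔻.π e / ((ω : L) * b)) := by
    rw [Base.IsM, map_div₀, map_mul, (hωU : 𝔻.B.A.valuation (ω : L) = 1), one_mul, ← map_div₀]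
    exact hq
  obtain ⟨P', hP', haP'⟩ := Fermat.Agent.MP.T3.AnnPlace2.exists_place_a_eq (𝔻.node e) hb0 hb hq
  obtain ⟨P, hP, haP⟩ := Fermat.Agent.MP.T3.AnnPlace2.exists_place_a_eq (𝔻.node e) hωb0 hωb hωq
  refine ⟨P, P', ω, (𝔻.r_ann e P).mp hP, (𝔻.r_ann e P').mp hP', hωU, 𝔻.B.resL_coe ω ▸ hω, ?_⟩
  show (𝔻.node e).a P = (ω : L) * (𝔻.node e).a P'
  rw [haP, haP']

/-- **corrections** : a divisor of degree `0` on the annuli, invisible to `r`, with prescribed residues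
of the torus coordinates. -/
theorem exists_correction [Fintype E]
    (hmid : ∀ e, ∃ b : L, b ≠ 0 ∧ 𝔻.B.IsM b ∧ 𝔻.B.IsM (𝔻.π e / b))
    (ζ : E → k) (hζ : ∀ e, ζ e ≠ 0) :
    ∃ C : Divisor L F, Divisor.degree C = 0 ∧ Finsupp.mapDomain 𝔻.r C = 0 ∧
      ∀ e, 𝔻.B.IsU ((toSemiRed 𝔻).annProd C e) ∧ 𝔻.B.resL ((toSemiRed 𝔻).annProd C e) = ζ e := by
  classical
  choose P P' ω hP hP' hωU hωr ha using fun e => exists_pair (𝔻 := 𝔻) e (hmid e) (hζ e)
  set Ce : E → Divisor L F := fun e => Finsupp.single (P e) 1 - Finsupp.single (P' e) 1 with hCe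
  refine ⟨∑ e, Ce e, ?_, ?_, fun e => ?_⟩
  · rw [map_sum]
    refine Finset.sum_eq_zero fun e _ => ?_
    rw [hCe]
    show Divisor.degree (Finsupp.single (P e) 1 - Finsupp.single (P' e) 1) = 0
    rw [map_sub, degree_single 𝔻.HL, degree_single 𝔻.HL, sub_self]
  · have h1 : Finsupp.mapDomain 𝔻.r (∑ e, Ce e) = ∑ e, Finsupp.mapDomain 𝔻.r (Ce e) :=
      map_sum (Finsupp.mapDomain.addMonoidHom 𝔻.r) _ _
    rw [h1]
    refine Finset.sum_eq_zero fun e _ => ?_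
    have h2 : Finsupp.mapDomain 𝔻.r (Ce e) = Finsupp.mapDomain 𝔻.r (Finsupp.single (P e) 1) -
        Finsupp.mapDomain 𝔻.r (Finsupp.single (P' e) 1) :=
      map_sub (Finsupp.mapDomain.addMonoidHom 𝔻.r) _ _
    rw [h2, Finsupp.mapDomain_single, Finsupp.mapDomain_single, hP e, hP' e, sub_self]
  · have h1 : (toSemiRed 𝔻).annProd (∑ e, Ce e) e = ω e := by
      rw [annProd_finsetSum, Finset.prod_eq_single e]
      · show (toSemiRed 𝔻).annProd (Finsupp.single (P e) 1 - Finsupp.single (P' e) 1) e = ω e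
        rw [annProd_sub, annProd_single_of_mem 𝔻 (hP e), annProd_single_of_mem 𝔻 (hP' e),
          zpow_one, zpow_one, ha e]
        have h0 : acoord 𝔻 e (P' e) ≠ 0 :=
          (𝔻.node e).a_ne (P' e) ((𝔻.r_ann e _).mpr (hP' e))
        exact mul_div_cancel_right₀ _ h0
      · intro e' _ he'
        show (toSemiRed 𝔻).annProd (Finsupp.single (P e') 1 - Finsupp.single (P' e') 1) e = 1
        have h1 : 𝔻.r (P e') ≠ Sum.inr e := by
          rw [hP e']; exact fun h => he' (Sum.inr.inj h)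
        have h2 : 𝔻.r (P' e') ≠ Sum.inr e := by
          rw [hP' e']; exact fun h => he' (Sum.inr.inj h)
        rw [annProd_sub, annProd_single_of_ne 𝔻 h1, annProd_single_of_ne 𝔻 h2, div_one]
      · intro h; exact absurd (Finset.mem_univ e) h
    rw [h1]
    exact ⟨hωU e, hωr e⟩

/-! ### the relations (N1), (N2) for the roots -/

/-- (N2) in the language of `annProd`. -/
theorem val_jump_annProd (e : E) {f : F} (hf : f ≠ 0) {cs ct : L}
    (hcs : (𝔻.side (𝔻.src e)).IsNorm cs f) (hct : (𝔻.side (𝔻.tgt e)).IsNorm ct f) :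
    𝔻.B.A.valuation (cs / ct) *
        𝔻.B.A.valuation (𝔻.node e).π ^ ((𝔻.Qt e).ord ((𝔻.side (𝔻.tgt e)).nred ct f)) =
      𝔻.B.A.valuation ((toSemiRed 𝔻).annProd (divOf 𝔻.HL hf) e) := by
  have h2 := (Fermat.Agent.ORD.ANN.TwistedNSAdapt2.toInput (toSemiRed 𝔻)).n2 e f cs ct
    (divOf 𝔻.HL hf) (fun P => divOf_apply 𝔻.HL hf P)
    ((Fermat.Agent.ORD.ANN.TwistedNSAdapt2.isNormG_iff _ cs f).mpr hcs)
    ((Fermat.Agent.ORD.ANN.TwistedNSAdapt2.isNormG_iff _ ct f).mpr hct)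
  have h3 : 𝔻.B.A.valuation (cs / ct) *
      𝔻.B.A.valuation (𝔻.node e).π ^ ((𝔻.node e).Q'.ord
        (Fermat.Agent.ORD.ANN.TwistedNS2.redOf (𝔻.side (𝔻.tgt e)).G (𝔻.side (𝔻.tgt e)).red
          (algebraMap L F ct * f))) =
      𝔻.B.A.valuation ((Fermat.Agent.ORD.ANN.TwistedNSAdapt2.toInput (toSemiRed 𝔻)).annProd e
        (divOf 𝔻.HL hf)) := h2
  rw [Fermat.Agent.ORD.ANN.TwistedNSAdapt2.redOf_eq_nred, ← annProd_eq_I] at h3
  exact h3

/-- injectivity of `x ↦ x ^ n` on the value group. -/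
theorem val_pow_inj {Γ₀ : Type*} [LinearOrderedCommGroupWithZero Γ₀] {a b : Γ₀} {n : ℕ} (hn : 0 < n)
    (hb : b ≠ 0) (h : a ^ n = b ^ n) : a = b := by
  have h1 : (a / b) ^ n = 1 := by rw [div_pow, h, div_self (pow_ne_zero n hb)]
  have h2 : a / b = 1 := by
    rcases lt_trichotomy (a / b) 1 with h3 | h3 | h3
    · exact absurd h1 (ne_of_lt (pow_lt_one₀ zero_le' h3 hn.ne'))
    · exact h3
    · exact absurd h1 (ne_of_gt (one_lt_pow₀ h3 hn.ne'))
  exact (div_eq_one_iff_eq hb).mp h2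

/-- **(N1), (N2) for the `n`-th roots** of the normalised reductions of a Kummer function. -/
theorem edge_root_data (e : E) {n : ℕ} (hn : 0 < n) {f : F} (hf : f ≠ 0) {D : Divisor L F}
    (hD : divOf 𝔻.HL hf = (n : ℤ) • D) {cs ct : L}
    (hcs : (𝔻.side (𝔻.src e)).IsNorm cs f) (hct : (𝔻.side (𝔻.tgt e)).IsNorm ct f)
    {hs ht : Ft} (hhs : hs ^ n = (𝔻.side (𝔻.src e)).nred cs f)
    (hht : ht ^ n = (𝔻.side (𝔻.tgt e)).nred ct f)
    {γs γt : L} (hγs : γs ^ n = cs) (hγt : γt ^ n = ct) :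
    (toSemiRed 𝔻).annSum D e = (𝔻.Qs e).ord hs + (𝔻.Qt e).ord ht ∧
      𝔻.B.A.valuation (γs / γt) * 𝔻.B.A.valuation (𝔻.node e).π ^ ((𝔻.Qt e).ord ht) =
        𝔻.B.A.valuation ((toSemiRed 𝔻).annProd D e) := by
  have hn0 : (n : ℤ) ≠ 0 := by exact_mod_cast hn.ne'
  constructor
  · have h1 := (𝔻.node e).slope_add hf hcs hct
    rw [← annSum_divOf 𝔻 hf e, hD, annSum_zsmul, ← hhs, ← hht, ord_pow, ord_pow, ← mul_add] at h1
    exact (mul_left_cancel₀ hn0 h1).symm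
  · have h2 := val_jump_annProd e hf hcs hct
    have e1 : 𝔻.B.A.valuation (𝔻.node e).π ^ ((n : ℤ) * (𝔻.Qt e).ord ht) =
        (𝔻.B.A.valuation (𝔻.node e).π ^ ((𝔻.Qt e).ord ht)) ^ n := by
      rw [mul_comm, zpow_mul, zpow_natCast]
    rw [hD, annProd_zsmul, zpow_natCast, ← hht, ord_pow, ← hγs, ← hγt, ← div_pow, map_pow,
      map_pow, e1, ← mul_pow] at h2
    have hne : 𝔻.B.A.valuation ((toSemiRed 𝔻).annProd D e) ≠ 0 :=
      (Valuation.ne_zero_iff _).mpr (annProd_ne_zero 𝔻 D e)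
    exact val_pow_inj hn hne h2

/-! ### (X'') -/

variable {g : ℕ}

/-- **(X'')** : a class killed by `n` with trivial slope vector has a representative in `𝒵`. -/
theorem isZClass_of_tau_eq_zero [Finite ι] [Nonempty ι] [Fintype E] (S : NSSystemN 𝔻 g)
    (hRR : ∀ E' : Divisor L F, Divisor.degree E' = g → ∃ f : F, f ≠ 0 ∧ ∀ P, -(E' P) ≤ P.ord f)
    {n : ℕ} [NeZero n] (hrootL : ∀ c : L, ∃ b : L, b ^ n = c)
    (hmid : ∀ e, ∃ b : L, b ≠ 0 ∧ 𝔻.B.IsM b ∧ 𝔻.B.IsM (𝔻.π e / b))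
    (hPn : ∀ g : Ft, g ≠ 0 → (∀ Q : Place k Ft, (n : ℤ) ∣ Q.ord g) → ∃ h : Ft, h ^ n = g)
    {y : Pic0 L F} (hy : n • y = 0) (hτ : tau 𝔻 n y = 0) : IsZClass 𝔻 y := by
  classical
  have hn : 0 < n := Nat.pos_of_ne_zero (NeZero.ne n)
  have hn0 : (n : ℤ) ≠ 0 := by exact_mod_cast hn.ne'
  obtain ⟨K⟩ := exists_kum hy
  have hD : divOf 𝔻.HL K.f_ne = (n : ℤ) • (K.D : Divisor L F) := by
    ext P
    rw [divOf_apply, Finsupp.smul_apply, smul_eq_mul, K.div_eq P]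
  choose c hc using fun v => (𝔻.side v).exists_isNorm K.f_ne
  choose h hh using fun v => hPn ((𝔻.side v).nred (c v) K.f) (hc v).nred_ne_zero
    (fun Q => dvd_ord_nred 𝔻 K hτ (hc v) Q)
  have hh0 : ∀ v, h v ≠ 0 := fun v hv =>
    (hc v).nred_ne_zero (by rw [← hh v, hv, zero_pow hn.ne'])
  choose γ hγ using fun v => hrootL (c v)
  have hγ0 : ∀ v, γ v ≠ 0 := fun v hv =>
    (hc v).c_ne_zero (by rw [← hγ v, hv, zero_pow hn.ne'])
  have hedge := fun e => edge_root_data e hn K.f_ne hD (hc (𝔻.src e)) (hc (𝔻.tgt e))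
    (hh (𝔻.src e)) (hh (𝔻.tgt e)) (hγ (𝔻.src e)) (hγ (𝔻.tgt e))
  -- the units `u e`
  set u : E → L := fun e => γ (𝔻.tgt e) / γ (𝔻.src e) *
      (toSemiRed 𝔻).annProd (K.D : Divisor L F) e *
      (𝔻.node e).π ^ (-((𝔻.Qt e).ord (h (𝔻.tgt e)))) *
      (-1) ^ ((toSemiRed 𝔻).annSum (K.D : Divisor L F) e) with hu
  have huU : ∀ e, 𝔻.B.IsU (u e) := by
    intro e
    have e1 : 𝔻.B.A.valuation (γ (𝔻.tgt e) / γ (𝔻.src e)) *
        𝔻.B.A.valuation (γ (𝔻.src e) / γ (𝔻.tgt e)) = 1 := by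
      rw [← map_mul, div_mul_div_comm, mul_comm (γ (𝔻.tgt e)),
        div_self (mul_ne_zero (hγ0 _) (hγ0 _)), map_one]
    have hπ0 : 𝔻.B.A.valuation (𝔻.node e).π ^ ((𝔻.Qt e).ord (h (𝔻.tgt e))) ≠ 0 :=
      zpow_ne_zero _ ((Valuation.ne_zero_iff _).mpr (𝔻.node e).π_ne)
    have e2 : 𝔻.B.A.valuation ((-1 : L) ^ ((toSemiRed 𝔻).annSum (K.D : Divisor L F) e)) = 1 := by
      rw [map_zpow₀, Valuation.map_neg, map_one, one_zpow]
    show 𝔻.B.A.valuation (u e) = 1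
    rw [hu]
    simp only []
    rw [map_mul, map_mul, map_mul, e2, mul_one, ← (hedge e).2, map_zpow₀, zpow_neg,
      ← mul_assoc, e1, one_mul, mul_inv_cancel₀ hπ0]
  -- the branch values
  set A0 : E → k := fun e => valF 𝔻.Hk (𝔻.Qs e)
    (h (𝔻.src e) * (𝔻.node e).xb ^ (-((𝔻.Qs e).ord (h (𝔻.src e))))) with hA0
  set A1 : E → k := fun e => valF 𝔻.Hk (𝔻.Qt e)
    (h (𝔻.tgt e) * (𝔻.node e).yb ^ (-((𝔻.Qt e).ord (h (𝔻.tgt e))))) with hA1
  have hA0ne : ∀ e, A0 e ≠ 0 := by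
    intro e
    refine valF_ne_zero_of_ord_eq_zero 𝔻.Hk _
      (mul_ne_zero (hh0 _) (zpow_ne_zero _ (𝔻.node e).xb_ne_zero)) ?_
    rw [Place.ord_mul _ (hh0 _) (zpow_ne_zero _ (𝔻.node e).xb_ne_zero), Place.ord_zpow]
    have := (𝔻.node e).ord_xb
    show (𝔻.node e).Q.ord (h (𝔻.src e)) + -((𝔻.node e).Q.ord (h (𝔻.src e))) *
      (𝔻.node e).Q.ord (𝔻.node e).xb = 0
    rw [this]; ring
  have hA1ne : ∀ e, A1 e ≠ 0 := by
    intro e
    refine valF_ne_zero_of_ord_eq_zero 𝔻.Hk _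
      (mul_ne_zero (hh0 _) (zpow_ne_zero _ (𝔻.node e).yb_ne_zero)) ?_
    rw [Place.ord_mul _ (hh0 _) (zpow_ne_zero _ (𝔻.node e).yb_ne_zero), Place.ord_zpow]
    have := (𝔻.node e).ord_yb
    show (𝔻.node e).Q'.ord (h (𝔻.tgt e)) + -((𝔻.node e).Q'.ord (h (𝔻.tgt e))) *
      (𝔻.node e).Q'.ord (𝔻.node e).yb = 0
    rw [this]; ring
  -- the corrections
  set ζ : E → k := fun e => A1 e / (𝔻.B.resL (u e) * A0 e) with hζ
  have hζ0 : ∀ e, ζ e ≠ 0 := fun e =>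
    div_ne_zero (hA1ne e) (mul_ne_zero (huU e).resL_ne_zero (hA0ne e))
  obtain ⟨C, hCdeg, hCr, hCw⟩ := exists_correction hmid ζ hζ0
  have hCsum : ∀ e, (toSemiRed 𝔻).annSum C e = 0 := fun e => by
    rw [← mapDomain_r_inr, hCr]; rfl
  have hCZ : InZ 𝔻 C := ⟨fun v Q _ => by rw [hCr]; rfl, hCsum, fun e => (hCw e).1⟩
  set C' : Divisor.degZero (K := L) (F := F) := ⟨C, Divisor.mem_degZero.mpr hCdeg⟩ with hC'
  set Z' : Divisor.degZero (K := L) (F := F) := K.D + C' with hZ'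
  have hZ'coe : (Z' : Divisor L F) = (K.D : Divisor L F) + C := rfl
  -- the criterion
  have hker : Pic0.mk Z' ∈ kerRed 𝔻 := by
    refine Fermat.Agent.MZ.LOCP.SlopeCrit7.mem_kerRed_of_twisted_slopes S hRR Z' h hh0 γ hγ0
      ?_ ?_ ?_ ?_
    · intro v Q hQ
      have h1 := mapDomain_divOf_of_isNorm 𝔻 K.f_ne (hc v) hQ
      have h2 : Finsupp.mapDomain 𝔻.r ((n : ℤ) • (K.D : Divisor L F)) =
          (n : ℤ) • Finsupp.mapDomain 𝔻.r (K.D : Divisor L F) :=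
        map_zsmul (Finsupp.mapDomain.addMonoidHom 𝔻.r) (n : ℤ) _
      rw [hD, h2, Finsupp.smul_apply, smul_eq_mul, ← hh v, ord_pow] at h1
      rw [hZ'coe, Finsupp.mapDomain_add, Finsupp.add_apply, hCr]
      show _ + (0 : ℤ) = _
      rw [add_zero]
      exact mul_left_cancel₀ hn0 h1
    · intro e
      rw [hZ'coe, annSum_add, hCsum, add_zero]
      exact (hedge e).1
    · intro e
      rw [hZ'coe, annProd_add, map_mul, ((hCw e).1 : 𝔻.B.A.valuation _ = 1), mul_one]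
      exact (hedge e).2
    · intro e
      have e1 : γ (𝔻.tgt e) / γ (𝔻.src e) * (toSemiRed 𝔻).annProd (Z' : Divisor L F) e *
          (𝔻.node e).π ^ (-((𝔻.Qt e).ord (h (𝔻.tgt e)))) *
          (-1) ^ ((toSemiRed 𝔻).annSum (Z' : Divisor L F) e) =
          u e * (toSemiRed 𝔻).annProd C e := by
        rw [hZ'coe, annProd_add, annSum_add, hCsum, add_zero, hu]
        ring
      rw [e1]
      refine ⟨(huU e).mul (hCw e).1, ?_⟩
      rw [𝔻.B.resL_mul (huU e).mem (hCw e).1.mem, (hCw e).2]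
      show A1 e = 𝔻.B.resL (u e) * ζ e * A0 e
      rw [hζ]
      have h1 := (huU e).resL_ne_zero
      have h2 := hA0ne e
      field_simp
  -- conclusion
  have h1 : IsZClass 𝔻 (Pic0.mk Z') := isZClass_of_mem_kerRed hker
  have h2 : IsZClass 𝔻 (Pic0.mk C') := ⟨C', hCZ, rfl⟩
  have h3 : y = Pic0.mk Z' - Pic0.mk C' := by
    rw [← K.mk_eq, hZ', Pic0.mk_add, add_sub_cancel_right]
  rw [h3]
  exact h1.sub h2

end

end Fermat.Agent.MZ.LOCP.KerTau7
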