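/-
Programme MZ (S15, Mazur), area LOCP (helper7): **the slope map `τ : J[n] → (ℤ/n)^E` is onto the
sum-zero vectors** (two-component datum, components `ℙ¹`, `#E ≤ g + 1`, `#J[n] ≥ n^(2g)`).

* `sum_tau_eq_zero` : `∑_e τ(y)_e = 0` (the divisor of the normalised reduction on `v0` has degree `0`
  and is divisible by `n` at the smooth points);
* `Sig0 E n` : the sum-zero vectors; `card_Sig0_le`;
* `tau_surj` : every sum-zero vector is `τ(t)` for some `t ∈ J[n]`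
  [`#J[n] = #im τ · #ker τ`, `ker τ ⊆ BZ` by (X''), `#BZ ≤ n^(#E−1)` by `TorBound7`].
-/
import Mathlib
import Fermat.Agent.MZ.LOCP.KerTau7
import Fermat.Agent.MP.T3.Jump2

set_option autoImplicit false
set_option linter.unusedSectionVars false
set_option linter.style.longLine false

namespace Fermat.Agent.MZ.LOCP.Count7

open AlgebraicCurve Fermat.Agent.X0.FF Fermat.Agent.RR.LSpace Fermat.Agent.MW.EMB.Value6
open Fermat.Agent.ORD.ANN.Side3 Fermat.Agent.ORD.ANN.Node3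
open Fermat.Agent.ORD.SEMIRED.SemiRedDatum9 Fermat.Agent.ORD.SEMIRED.ToSemiRed9
open Fermat.Agent.ORD.KERN.KerDefs9 Fermat.Agent.ORD.KERN.KerN9
open Fermat.Agent.MP.T3.Config2 Fermat.Agent.MP.T3.AnnAlg2 Fermat.Agent.MP.T3.Jump2
open Fermat.Agent.MP.TAU.TauDefs3 Fermat.Agent.MP.TAU.KumCrit3
open Fermat.Agent.MZ.LOCP.TorInv7 Fermat.Agent.MZ.LOCP.TorBound7 Fermat.Agent.MZ.LOCP.KerTau7

noncomputable section

variable {L F k Ft : Type*} [Field L] [Field F] [Algebra L F] [Field k] [Field Ft] [Algebra k Ft]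
variable {ι E : Type*} {𝔻 : SemiRedDatum L F k Ft ι E} {v0 v1 : ι}

/-! ### the slopes sum to zero -/

/-- **the slope vector has sum zero.** -/
theorem sum_tau_eq_zero [Fintype E] (tc : TwoComp 𝔻 v0 v1) {n : ℕ} {y : Pic0 L F}
    (hy : n • y = 0) : ∑ e, tau 𝔻 n y e = 0 := by
  classical
  obtain ⟨K⟩ := exists_kum hy
  obtain ⟨c0, hc0⟩ := (𝔻.side v0).exists_isNorm K.f_ne
  set g0 := (𝔻.side v0).nred c0 K.f with hg0
  have hg0ne : g0 ≠ 0 := hc0.nred_ne_zero
  have hD : divOf 𝔻.HL K.f_ne = (n : ℤ) • (K.D : Divisor L F) := by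
    ext P
    rw [divOf_apply, Finsupp.smul_apply, smul_eq_mul, K.div_eq P]
  -- `τ(y)_e` is the order of `g0` at `Qs e`
  have hτ : ∀ e, tau 𝔻 n y e = (((𝔻.Qs e).ord g0 : ℤ) : ZMod n) := by
    intro e
    have h1 := isNorm_src 𝔻 (tc.src e) hc0
    rw [tau_eq 𝔻 K, slS_eq 𝔻 h1.1, h1.2]
  -- the branch points of `v0`
  have hinj : Set.InjOn (fun e => 𝔻.Qs e) (↑(Finset.univ : Finset E)) := by
    intro e _ e' _ hee'
    exact 𝔻.branch_s_inj e e' ((tc.src e).trans (tc.src e').symm) hee'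
  set Br : Finset (Place k Ft) := Finset.univ.image (fun e => 𝔻.Qs e) with hBr
  -- smooth points
  have hsm : ∀ Q, Q ∉ Br → (n : ℤ) ∣ Q.ord g0 := by
    intro Q hQ
    have hQsm : 𝔻.IsSm v0 Q := by
      rintro (⟨e, -, rfl⟩ | ⟨e, he, -⟩)
      · exact hQ (Finset.mem_image.mpr ⟨e, Finset.mem_univ e, rfl⟩)
      · exact tc.ne.symm ((tc.tgt e).symm.trans he)
    rw [← mapDomain_divOf_of_isNorm 𝔻 K.f_ne hc0 hQsm, hD]
    have h1 : Finsupp.mapDomain 𝔻.r ((n : ℤ) • (K.D : Divisor L F)) =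
        (n : ℤ) • Finsupp.mapDomain 𝔻.r (K.D : Divisor L F) :=
      map_zsmul (Finsupp.mapDomain.addMonoidHom 𝔻.r) (n : ℤ) _
    rw [h1, Finsupp.smul_apply, smul_eq_mul]
    exact dvd_mul_right _ _
  -- the degree of `div g0`
  have hdeg := degree_divOf 𝔻.Hk hg0ne
  rw [degree_eq_sum 𝔻.Hk] at hdeg
  set s := (divOf 𝔻.Hk hg0ne).support with hs
  have hsum : ∑ Q ∈ s ∪ Br, Q.ord g0 = 0 := by
    have h1 : ∑ Q ∈ s, (divOf 𝔻.Hk hg0ne) Q = ∑ Q ∈ s ∪ Br, (divOf 𝔻.Hk hg0ne) Q :=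
      Finset.sum_subset Finset.subset_union_left fun Q _ hQ => Finsupp.notMem_support_iff.mp hQ
    rw [h1] at hdeg
    rw [← hdeg]
    exact Finset.sum_congr rfl fun Q _ => (divOf_apply _ _ _).symm
  have hsplit := Finset.sum_sdiff (f := fun Q : Place k Ft => Q.ord g0)
    (Finset.subset_union_right (s₁ := s) (s₂ := Br))
  rw [hsum] at hsplit
  have hBrsum : ∑ Q ∈ Br, Q.ord g0 = ∑ e, (𝔻.Qs e).ord g0 := by
    rw [hBr, Finset.sum_image hinj]
  have hdvd : (n : ℤ) ∣ ∑ Q ∈ (s ∪ Br) \ Br, Q.ord g0 :=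
    Finset.dvd_sum fun Q hQ => hsm Q (Finset.mem_sdiff.mp hQ).2
  have hdvd2 : (n : ℤ) ∣ ∑ e, (𝔻.Qs e).ord g0 := by
    rw [← hBrsum]
    have : ∑ Q ∈ Br, Q.ord g0 = -∑ Q ∈ (s ∪ Br) \ Br, Q.ord g0 := by omega
    rw [this]
    exact (dvd_neg).mpr hdvd
  calc ∑ e, tau 𝔻 n y e = ∑ e, (((𝔻.Qs e).ord g0 : ℤ) : ZMod n) :=
        Finset.sum_congr rfl fun e _ => hτ e
    _ = ((∑ e, (𝔻.Qs e).ord g0 : ℤ) : ZMod n) := by push_cast; rfl
    _ = 0 := (ZMod.intCast_zmod_eq_zero_iff_dvd _ n).mpr hdvd2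

/-! ### the sum-zero vectors -/

/-- **the sum-zero vectors.** -/
def Sig0 (E : Type*) [Fintype E] (n : ℕ) : AddSubgroup (E → ZMod n) where
  carrier := {σ | ∑ e, σ e = 0}
  zero_mem' := by
    show ∑ e, (0 : E → ZMod n) e = 0
    exact Finset.sum_eq_zero fun e _ => rfl
  add_mem' {a b} ha hb := by
    show ∑ e, (a + b) e = 0
    have ha' : ∑ e, a e = 0 := ha
    have hb' : ∑ e, b e = 0 := hb
    simp only [Pi.add_apply, Finset.sum_add_distrib, ha', hb', add_zero]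
  neg_mem' {a} ha := by
    show ∑ e, (-a) e = 0
    have ha' : ∑ e, a e = 0 := ha
    simp only [Pi.neg_apply, Finset.sum_neg_distrib, ha', neg_zero]

theorem mem_Sig0 {E : Type*} [Fintype E] {n : ℕ} {σ : E → ZMod n} :
    σ ∈ Sig0 E n ↔ ∑ e, σ e = 0 := Iff.rfl

theorem card_Sig0_le (E : Type*) [Fintype E] [Nonempty E] (n : ℕ) [NeZero n] :
    Nat.card (Sig0 E n) ≤ n ^ (Fintype.card E - 1) := by
  classical
  obtain ⟨e0⟩ := (inferInstance : Nonempty E)
  set ψ : Sig0 E n → ({e : E // e ≠ e0} → ZMod n) := fun σ e => (σ : E → ZMod n) e.1 with hψ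
  have hψinj : Function.Injective ψ := by
    intro σ σ' h
    have hoff : ∀ e, e ≠ e0 → (σ : E → ZMod n) e = (σ' : E → ZMod n) e := fun e he =>
      congrFun h ⟨e, he⟩
    have h1 := Finset.add_sum_erase Finset.univ (σ : E → ZMod n) (Finset.mem_univ e0)
    have h2 := Finset.add_sum_erase Finset.univ (σ' : E → ZMod n) (Finset.mem_univ e0)
    have h3 : ∑ e ∈ Finset.univ.erase e0, (σ : E → ZMod n) e =
        ∑ e ∈ Finset.univ.erase e0, (σ' : E → ZMod n) e :=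
      Finset.sum_congr rfl fun e he => hoff e (Finset.ne_of_mem_erase he)
    have hσ : ∑ e, (σ : E → ZMod n) e = 0 := σ.2
    have hσ' : ∑ e, (σ' : E → ZMod n) e = 0 := σ'.2
    have h0 : (σ : E → ZMod n) e0 = (σ' : E → ZMod n) e0 := by
      rw [hσ] at h1
      rw [hσ', ← h3] at h2
      exact add_right_cancel (h1.trans h2.symm)
    apply Subtype.ext
    funext e
    by_cases he : e = e0
    · rw [he]; exact h0
    · exact hoff e he
  calc Nat.card (Sig0 E n) ≤ Nat.card ({e : E // e ≠ e0} → ZMod n) :=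
        Nat.card_le_card_of_injective ψ hψinj
    _ = n ^ (Fintype.card E - 1) := by
        rw [Nat.card_eq_fintype_card, Fintype.card_fun, ZMod.card, Fintype.card_subtype_compl,
          Fintype.card_subtype_eq]

/-! ### surjectivity -/

variable {g : ℕ}

/-- **the slope map is onto the sum-zero vectors.** -/
theorem tau_surj [Finite ι] [Nonempty ι] [Fintype E] [Nonempty E] (tc : TwoComp 𝔻 v0 v1)
    (S : NSSystemN 𝔻 g)
    (hRR : ∀ E' : Divisor L F, Divisor.degree E' = g → ∃ f : F, f ≠ 0 ∧ ∀ P, -(E' P) ≤ P.ord f)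
    (hthick : ∀ e e', 𝔻.B.A.valuation (𝔻.node e).π = 𝔻.B.A.valuation (𝔻.node e').π)
    {n : ℕ} [NeZero n] (hrootL : ∀ c : L, ∃ b : L, b ^ n = c)
    (hmid : ∀ e, ∃ b : L, b ≠ 0 ∧ 𝔻.B.IsM b ∧ 𝔻.B.IsM (𝔻.π e / b))
    (hPn : ∀ g : Ft, g ≠ 0 → (∀ Q : Place k Ft, (n : ℤ) ∣ Q.ord g) → ∃ h : Ft, h ^ n = g)
    (hK3 : ∀ z ∈ kerRed 𝔻, n • z = 0 → z = 0)
    (hA1 : n ^ (2 * g) ≤ Nat.card (Pic0.torsion L F n))
    (hL2 : Fintype.card E ≤ g + 1)
    (σ : E → ZMod n) (hσ : ∑ e, σ e = 0) :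
    ∃ t : Pic0 L F, n • t = 0 ∧ tau 𝔻 n t = σ := by
  classical
  have hn : 0 < n := Nat.pos_of_ne_zero (NeZero.ne n)
  set T := tauHom 𝔻 n with hT
  have htors : ∀ y : Pic0.torsion L F n, n • (y : Pic0 L F) = 0 := fun y => by
    have := Pic0.mem_torsion.mp y.2
    rwa [natCast_zsmul] at this
  -- `J[n]` is finite
  have hVpos : Nat.card (Pic0.torsion L F n) ≠ 0 := by
    have : 0 < n ^ (2 * g) := pow_pos hn _
    omega
  have hVfin : Finite (Pic0.torsion L F n) := Nat.finite_of_card_ne_zero hVpos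
  -- the range lies in `Sig0`
  have hrange : T.range ≤ Sig0 E n := by
    rintro _ ⟨y, rfl⟩
    exact sum_tau_eq_zero tc (htors y)
  -- the kernel injects into `BZ`
  obtain ⟨hBfin, hBcard⟩ := card_BZ_le tc S hRR hthick n hn hK3
  have hker : Nat.card T.ker ≤ n ^ (Fintype.card E - 1) := by
    have hmem : ∀ y : T.ker, ((y : Pic0.torsion L F n) : Pic0 L F) ∈ BZ 𝔻 n := fun y =>
      ⟨htors y.1, isZClass_of_tau_eq_zero S hRR hrootL hmid hPn (htors y.1) y.2⟩
    set φ : T.ker → BZ 𝔻 n := fun y => ⟨_, hmem y⟩ with hφ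
    have hφinj : Function.Injective φ := fun y y' h => by
      have h1 : ((φ y : BZ 𝔻 n) : Pic0 L F) = ((φ y' : BZ 𝔻 n) : Pic0 L F) := congrArg Subtype.val h
      exact Subtype.ext (Subtype.ext h1)
    exact (Nat.card_le_card_of_injective φ hφinj).trans hBcard
  -- counting
  have hcount : Nat.card T.ker * Nat.card T.range = Nat.card (Pic0.torsion L F n) := by
    rw [← AddSubgroup.index_ker]
    exact AddSubgroup.card_mul_index _
  have hEg : Fintype.card E - 1 ≤ g := by omega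
  have hrangecard : n ^ (Fintype.card E - 1) ≤ Nat.card T.range := by
    set m := Fintype.card E - 1 with hm
    have h1 : n ^ m * n ^ m ≤ Nat.card T.ker * Nat.card T.range := by
      rw [hcount, ← pow_add]
      refine le_trans (Nat.pow_le_pow_right hn ?_) hA1
      omega
    have h2 : Nat.card T.ker * Nat.card T.range ≤ n ^ m * Nat.card T.range :=
      Nat.mul_le_mul_right _ hker
    exact Nat.le_of_mul_le_mul_left (h1.trans h2) (pow_pos hn m)
  have hSfin : Finite (Sig0 E n) := inferInstance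
  have heq : T.range = Sig0 E n :=
    AddSubgroup.eq_of_le_of_card_ge hrange ((card_Sig0_le E n).trans hrangecard)
  have hσmem : σ ∈ T.range := by rw [heq]; exact hσ
  obtain ⟨y, hy⟩ := hσmem
  exact ⟨(y : Pic0 L F), htors y, hy⟩

end

end Fermat.Agent.MZ.LOCP.Count7
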