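/-
Programme MZ (S15, Mazur), area LOCP (helper7): **a class fixed by a group `Γ` of semilinear automorphisms
having a fixed place is represented by a `Γ`-fixed divisor.**

`X` a divisor of degree `0` in the class, `k` minimal with `L(X + k·P∞) ≠ 0`; then `L(X + k·P∞)` is a
line (`LSpace.exists_sub_smul_mem`), so `|X + k·P∞|` has exactly one effective divisor `D⁺`, which is
therefore `Γ`-fixed, and `D⁺ − k·P∞` represents the class.
-/
import Mathlib
import Fermat.Agent.RR.LSpace
import Fermat.Agent.FF.KER.Ker0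
import Fermat.Prelude.Def_AlgebraicCurve_BaseChangeGalois

set_option autoImplicit false
set_option linter.unusedSectionVars false
set_option linter.style.longLine false

namespace Fermat.Agent.MZ.LOCP.FixedDiv7

open AlgebraicCurve Fermat.Agent.X0.FF Fermat.Agent.RR.LSpace

noncomputable section

variable {L F : Type*} [Field L] [Field F] [Algebra L F]

/-- the order of `σ f` at `P`. -/
theorem ord_smul' (σ : SemilinearAut L F) (P : Place L F) (f : F) :
    P.ord (σ • f) = (σ⁻¹ • P).ord f := by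
  have := SemilinearAut.ord_smul σ (σ⁻¹ • P) f
  rwa [smul_inv_smul] at this

/-- **`Γ`-fixed divisor representatives.** -/
theorem exists_fixed_div (HL : LHyp L F) {Γ : Type*} [Group Γ] (ρ : Γ →* SemilinearAut L F)
    (Pinf : Place L F) (hPinf : ∀ γ, ρ γ • Pinf = Pinf) (gen : ℕ)
    (hRR : ∀ D : Divisor L F, Divisor.degree D = gen → ∃ f : F, f ≠ 0 ∧ ∀ P, -(D P) ≤ P.ord f)
    (x : Pic0 L F) (hx : ∀ γ, ρ γ • x = x) :
    ∃ D : Divisor.degZero (K := L) (F := F), Pic0.mk D = x ∧
      ∀ γ, ρ γ • (D : Divisor L F) = (D : Divisor L F) := by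
  classical
  obtain ⟨X, rfl⟩ := Pic0.mk_surjective x
  have hXdeg : Divisor.degree (X : Divisor L F) = 0 := Divisor.mem_degZero.mp X.2
  -- the minimal `k`
  have hex : ∃ k : ℕ, ∃ f : F, f ≠ 0 ∧
      f ∈ riemannRochSpace ((X : Divisor L F) + Finsupp.single Pinf (k : ℤ)) := by
    obtain ⟨f, hf0, hf⟩ := hRR ((X : Divisor L F) + Finsupp.single Pinf (gen : ℤ))
      (by rw [map_add, hXdeg, degree_single HL, zero_add])
    exact ⟨gen, f, hf0, (mem_L_iff hf0).mpr hf⟩
  set k := Nat.find hex with hk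
  obtain ⟨φ, hφ0, hφ⟩ := Nat.find_spec hex
  rw [← hk] at hφ
  -- the space below is trivial
  set D0 : Divisor L F := (X : Divisor L F) + Finsupp.single Pinf ((k : ℤ) - 1) with hD0
  have hD0k : D0 + Finsupp.single Pinf 1 = (X : Divisor L F) + Finsupp.single Pinf (k : ℤ) := by
    rw [hD0, add_assoc, ← Finsupp.single_add, sub_add_cancel]
  have hbot : ∀ f : F, f ∈ riemannRochSpace D0 → f = 0 := by
    intro f hf
    by_contra hf0
    rcases Nat.eq_zero_or_pos k with hk0 | hkpos
    · have hdeg : Divisor.degree D0 < 0 := by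
        rw [hD0, map_add, hXdeg, degree_single HL, hk0]
        norm_num
      rw [L_eq_bot_of_degree_neg HL hdeg, Submodule.mem_bot] at hf
      exact hf0 hf
    · have hlt : k - 1 < k := by omega
      apply Nat.find_min hex hlt
      refine ⟨f, hf0, ?_⟩
      have e : ((k - 1 : ℕ) : ℤ) = (k : ℤ) - 1 := by omega
      rw [e]
      exact hf
  have hφ' : φ ∈ riemannRochSpace (D0 + Finsupp.single Pinf 1) := by rw [hD0k]; exact hφ
  have hφ0' : φ ∉ riemannRochSpace D0 := fun h => hφ0 (hbot φ h)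
  -- uniqueness of the effective divisor
  have huniq : ∀ ψ : F, ψ ≠ 0 →
      ψ ∈ riemannRochSpace ((X : Divisor L F) + Finsupp.single Pinf (k : ℤ)) →
      ∀ P : Place L F, P.ord ψ = P.ord φ := by
    intro ψ hψ0 hψ P
    rw [← hD0k] at hψ
    obtain ⟨c, hc⟩ := exists_sub_smul_mem HL D0 Pinf hψ hφ' hφ0'
    have h1 : ψ = c • φ := sub_eq_zero.mp (hbot _ hc)
    have hc0 : c ≠ 0 := by
      rintro rfl
      rw [zero_smul] at h1
      exact hψ0 h1
    rw [h1, Algebra.smul_def, P.ord_mul ((map_ne_zero _).mpr hc0) hφ0, ffp_ord_algebraMap, zero_add]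
  -- the representative
  set D' : Divisor L F := (X : Divisor L F) + divOf HL hφ0 with hD'
  have hD'deg : Divisor.degree D' = 0 := by rw [hD', map_add, hXdeg, degree_divOf, add_zero]
  refine ⟨⟨D', Divisor.mem_degZero.mpr hD'deg⟩, ?_, fun γ => ?_⟩
  · symm
    rw [Fermat.Agent.FF.KER.Ker0.NSSystem.mk_eq_mk_iff]
    refine ⟨φ, hφ0, fun P => ?_⟩
    show (D' - (X : Divisor L F)) P = P.ord φ
    rw [hD', add_sub_cancel_left, divOf_apply]
  · show ρ γ • D' = D'
    -- the class is fixed
    have hcl := hx γ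
    rw [SemilinearAut.pic0_smul_mk, Fermat.Agent.FF.KER.Ker0.NSSystem.mk_eq_mk_iff] at hcl
    obtain ⟨η, hη0, hη⟩ := hcl
    have hη' : ∀ P : Place L F, P.ord η = (X : Divisor L F) P - (ρ γ • (X : Divisor L F)) P := by
      intro P
      rw [← hη P]
      rfl
    -- `ψ = η⁻¹ * γ φ`
    set ψ : F := η⁻¹ * (ρ γ • φ) with hψ
    have hγφ0 : ρ γ • φ ≠ 0 := by
      rw [SemilinearAut.smul_def]
      exact (map_ne_zero _).mpr hφ0
    have hψ0 : ψ ≠ 0 := mul_ne_zero (inv_ne_zero hη0) hγφ0
    have hψord : ∀ P : Place L F, P.ord ψ =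
        (ρ γ • (X : Divisor L F)) P - (X : Divisor L F) P + ((ρ γ)⁻¹ • P).ord φ := by
      intro P
      rw [hψ, P.ord_mul (inv_ne_zero hη0) hγφ0, Place.ord_inv, hη' P, ord_smul']
      ring
    have hsingle : ∀ P : Place L F, (Finsupp.single Pinf (k : ℤ)) ((ρ γ)⁻¹ • P) =
        (Finsupp.single Pinf (k : ℤ)) P := by
      intro P
      have h1 : (ρ γ)⁻¹ • P = Pinf ↔ P = Pinf := by
        constructor
        · intro h
          have := congrArg (fun Q => ρ γ • Q) h
          simp only [smul_inv_smul] at this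
          rw [this, hPinf]
        · intro h
          rw [h, inv_smul_eq_iff, hPinf]
      by_cases hP : P = Pinf
      · rw [Finsupp.single_apply, Finsupp.single_apply, if_pos (h1.mpr hP).symm, if_pos hP.symm]
      · rw [Finsupp.single_apply, Finsupp.single_apply, if_neg (fun h => hP (h1.mp h.symm)),
          if_neg (fun h => hP h.symm)]
    have hψmem : ψ ∈ riemannRochSpace ((X : Divisor L F) + Finsupp.single Pinf (k : ℤ)) := by
      rw [mem_L_iff hψ0]
      intro P
      have h1 := (mem_L_iff hφ0).mp hφ ((ρ γ)⁻¹ • P)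
      rw [Finsupp.add_apply, hsingle P] at h1
      rw [hψord P, Finsupp.add_apply, SemilinearAut.divisor_smul_apply]
      omega
    have hfin := huniq ψ hψ0 hψmem
    ext P
    rw [SemilinearAut.divisor_smul_apply, hD', Finsupp.add_apply, Finsupp.add_apply, divOf_apply,
      divOf_apply, ← hfin P, hψord P, SemilinearAut.divisor_smul_apply]
    ring

end

end Fermat.Agent.MZ.LOCP.FixedDiv7
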