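/-
Programme MZ (S15, Mazur), area LOCP (helper7): **the descent** : on a two-component semistable datum
with an inertia-type group `Γ` (`Setting7.LocpSetting`), every `Γ`-fixed class `x` has
`#E • x = n • y` with `y` a `Γ`-FIXED class (`n` with (K3) `kerRed ∩ J[n] = 0`, `#J[n] ≥ n^(2g)`,
`#E ≤ g + 1`, components `ℙ¹`).

* `phiProd`, `absv_phiProd`, `base_phiProd`, `exists_fixedVal_annProd` : the torus coordinates of a
  `Γ`-fixed divisor have absolute values in `|unif|^ℤ`;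
* `absv_annProd_kummer` : if `div f = n • Z − D'` then
  `|annProd_e Z| = |C · ϖ ^ (j_e + n·annSum_e Z − annSum_e D' − slS_e f)|`
  (`Cⁿ = c0 / c1` the normalisers of `f`, `ϖⁿ = unif`, `|annProd_e D'| = |unif|^{j_e}`);
* **`exists_fixed_root`** : the descent.
-/
import Mathlib
import Fermat.Agent.MZ.LOCP.Setting7
import Fermat.Agent.MZ.LOCP.Count7
import Fermat.Agent.MZ.LOCP.FixedDiv7

set_option autoImplicit false
set_option linter.unusedSectionVars false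
set_option linter.style.longLine false

namespace Fermat.Agent.MZ.LOCP.Descent7

open AlgebraicCurve Fermat.Agent.X0.FF Fermat.Agent.RR.LSpace Fermat.Agent.MW.EMB.Value6
open Fermat.Agent.ORD.ANN.Side3 Fermat.Agent.ORD.ANN.Node3 Fermat.Agent.ORD.ANN.Inertial3
open Fermat.Agent.ORD.SEMIRED.SemiRedDatum9 Fermat.Agent.ORD.SEMIRED.ToSemiRed9
open Fermat.Agent.ORD.KERN.KerDefs9 Fermat.Agent.ORD.KERN.KerN9
open Fermat.Agent.MP.T3.Config2 Fermat.Agent.MP.T3.AnnAlg2 Fermat.Agent.MP.T3.Jump2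
open Fermat.Agent.MP.TAU.TauDefs3 Fermat.Agent.MP.TAU.KumCrit3
open Fermat.Agent.MZ.LOCP.TorInv7 Fermat.Agent.MZ.LOCP.TorBound7 Fermat.Agent.MZ.LOCP.KerTau7
open Fermat.Agent.MZ.LOCP.Count7 Fermat.Agent.MZ.LOCP.Setting7 Fermat.Agent.MZ.LOCP.FixedDiv7

noncomputable section

variable {L F k Ft : Type*} [Field L] [Field F] [Algebra L F] [Field k] [Field Ft] [Algebra k Ft]
variable {ι E : Type*} {𝔻 : SemiRedDatum L F k Ft ι E} {Γ : Type*} [Group Γ] {gen : ℕ}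
  (G : LocpSetting 𝔻 Γ gen)

/-! ### the `Φ`-product -/

open Classical in
/-- the product of the values of the node function `Φ e` over the part of `Z` in the annulus of `e`. -/
def phiProd (Z : Divisor L F) (e : E) : L :=
  Z.prod fun P m => if 𝔻.r P = Sum.inr e then valF 𝔻.HL P (G.Φ e) ^ m else 1

theorem valF_Phi_ne_zero {e : E} {P : Place L F} (hP : 𝔻.r P = Sum.inr e) :
    valF 𝔻.HL P (G.Φ e) ≠ 0 :=
  valF_ne_zero_of_ord_eq_zero 𝔻.HL P (G.Phi_ne_zero e) (G.Φ_ann e P hP)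

theorem phiProd_zero (e : E) : phiProd G (0 : Divisor L F) e = 1 := Finsupp.prod_zero_index

theorem phiProd_add (Z W : Divisor L F) (e : E) :
    phiProd G (Z + W) e = phiProd G Z e * phiProd G W e := by
  classical
  unfold phiProd
  refine Finsupp.prod_add_index' (fun P => ?_) (fun P m m' => ?_)
  · split_ifs <;> simp
  · split_ifs with hP
    · exact zpow_add₀ (valF_Phi_ne_zero G hP) m m'
    · rw [one_mul]

theorem phiProd_single_of_mem {P : Place L F} {e : E} (hP : 𝔻.r P = Sum.inr e) (m : ℤ) :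
    phiProd G (Finsupp.single P m) e = valF 𝔻.HL P (G.Φ e) ^ m := by
  classical
  unfold phiProd
  rw [Finsupp.prod_single_index (by split_ifs <;> simp), if_pos hP]

theorem phiProd_single_of_ne {P : Place L F} {e : E} (hP : 𝔻.r P ≠ Sum.inr e) (m : ℤ) :
    phiProd G (Finsupp.single P m) e = 1 := by
  classical
  unfold phiProd
  rw [Finsupp.prod_single_index (by split_ifs <;> simp), if_neg hP]

/-- the `Φ`-product has the absolute value of the torus coordinate. -/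
theorem absv_phiProd (Z : Divisor L F) (e : E) :
    absv 𝔻 (phiProd G Z e) = absv 𝔻 ((toSemiRed 𝔻).annProd Z e) := by
  classical
  unfold absv
  induction Z using Finsupp.induction_linear with
  | zero => rw [phiProd_zero, annProd_zero]
  | add Z W hZ hW => rw [phiProd_add, annProd_add, map_mul, map_mul, hZ, hW]
  | single P m =>
    by_cases hP : 𝔻.r P = Sum.inr e
    · rw [phiProd_single_of_mem G hP, annProd_single_of_mem 𝔻 hP]
      obtain ⟨w, hw⟩ := Fermat.Agent.MP.T3.AnnPlace2.exists_ratio_residue (𝔻.node e) (G.Φ e)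
        (G.Phi_ne_zero e) (fun P hP => G.Φ_ann e P ((𝔻.r_ann e P).mp hP)) (G.Φ_mem e) (G.Φ_ord e)
      obtain ⟨ω, hωU, -, hω⟩ := hw P ((𝔻.r_ann e P).mpr hP)
      rw [hω, map_zpow₀, map_zpow₀, map_mul, (hωU : 𝔻.B.A.valuation ω = 1), one_mul]
    · rw [phiProd_single_of_ne G hP, annProd_single_of_ne 𝔻 hP]

/-- `Γ`-equivariance of the `Φ`-product. -/
theorem base_phiProd (γ : Γ) (Z : Divisor L F) (e : E) :
    G.bs γ (phiProd G Z e) = phiProd G (G.ρ γ • Z) e := by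
  classical
  induction Z using Finsupp.induction_linear with
  | zero => rw [smul_zero, phiProd_zero, map_one]
  | add Z W hZ hW => rw [smul_add, phiProd_add, phiProd_add, map_mul, hZ, hW]
  | single P m =>
    rw [SemilinearAut.smul_single]
    by_cases hP : 𝔻.r P = Sum.inr e
    · have hP' : 𝔻.r (G.ρ γ • P) = Sum.inr e := by rw [G.triv]; exact hP
      rw [phiProd_single_of_mem G hP, phiProd_single_of_mem G hP', map_zpow₀, G.valF_Phi_smul]
    · have hP' : 𝔻.r (G.ρ γ • P) ≠ Sum.inr e := by rw [G.triv]; exact hP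
      rw [phiProd_single_of_ne G hP, phiProd_single_of_ne G hP', map_one]

/-- **the torus coordinates of a `Γ`-fixed divisor have absolute values in `|unif|^ℤ`.** -/
theorem exists_fixedVal_annProd {Z : Divisor L F} (hfix : ∀ γ, G.ρ γ • Z = Z) (e : E) :
    ∃ j : ℤ, absv 𝔻 ((toSemiRed 𝔻).annProd Z e) = absv 𝔻 G.unif ^ j := by
  have hne : phiProd G Z e ≠ 0 := by
    intro h
    have h1 := absv_phiProd G Z e
    unfold absv at h1
    rw [h, map_zero] at h1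
    exact (Valuation.ne_zero_iff _).mpr (annProd_ne_zero 𝔻 Z e) h1.symm
  obtain ⟨j, hj⟩ := G.fixedVal (phiProd G Z e) hne (fun γ => by
    show G.bs γ (phiProd G Z e) = _
    rw [base_phiProd, hfix γ])
  exact ⟨j, by rw [← absv_phiProd G Z e, hj]⟩

/-! ### the absolute value of the torus coordinate of a Kummer divisor -/

variable {v0 v1 : ι}

/-- **the torus coordinate of a Kummer divisor** : if `div f = n • Z − D'` then
`|annProd_e Z| = |C · ϖ ^ (j_e + n·annSum_e Z − annSum_e D' − slS_e f)|`. -/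
theorem absv_annProd_kummer (tc : TwoComp 𝔻 v0 v1) {n : ℕ} (hn : 0 < n) {Z D' : Divisor L F}
    {f : F} (hf : f ≠ 0) (hdiv : ∀ P : Place L F, P.ord f = n * Z P - D' P) (e : E) {j : ℤ}
    (hj : absv 𝔻 ((toSemiRed 𝔻).annProd D' e) = absv 𝔻 G.unif ^ j)
    {c0 c1 : L} (hc0 : (𝔻.side v0).IsNorm c0 f) (hc1 : (𝔻.side v1).IsNorm c1 f)
    {C ϖ : L} (hC : C ^ n = c0 / c1) (hϖ : ϖ ^ n = G.unif) :
    absv 𝔻 ((toSemiRed 𝔻).annProd Z e) =
      absv 𝔻 (C * ϖ ^ (j + ((n : ℤ) * (toSemiRed 𝔻).annSum Z e - (toSemiRed 𝔻).annSum D' e -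
        slS 𝔻 e f))) := by
  have hD : divOf 𝔻.HL hf = (n : ℤ) • Z - D' := by
    ext P
    rw [divOf_apply, hdiv P, Finsupp.sub_apply, Finsupp.smul_apply, smul_eq_mul]
  have hs := isNorm_src 𝔻 (tc.src e) hc0
  have ht := isNorm_tgt 𝔻 (tc.tgt e) hc1
  set s' := (𝔻.Qt e).ord ((𝔻.side (𝔻.tgt e)).nred c1 f) with hs'def
  have h1 := (𝔻.node e).slope_add hf hs.1 ht.1
  rw [← annSum_divOf 𝔻 hf e, hD, annSum_sub, annSum_zsmul, ← slS_eq 𝔻 hs.1] at h1
  have hs' : (n : ℤ) * (toSemiRed 𝔻).annSum Z e - (toSemiRed 𝔻).annSum D' e - slS 𝔻 e f = s' := by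
    have : slS 𝔻 e f + s' = (n : ℤ) * (toSemiRed 𝔻).annSum Z e - (toSemiRed 𝔻).annSum D' e := h1
    omega
  rw [hs']
  have h2 := val_jump_annProd e hf hs.1 ht.1
  rw [hD, annProd_sub, annProd_zsmul, zpow_natCast] at h2
  have h2' : 𝔻.B.A.valuation (c0 / c1) * 𝔻.B.A.valuation (𝔻.node e).π ^ s' =
      𝔻.B.A.valuation ((toSemiRed 𝔻).annProd Z e) ^ n /
        𝔻.B.A.valuation ((toSemiRed 𝔻).annProd D' e) := by
    rw [h2, map_div₀, map_pow]
  have hvD : 𝔻.B.A.valuation ((toSemiRed 𝔻).annProd D' e) ≠ 0 :=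
    (Valuation.ne_zero_iff _).mpr (annProd_ne_zero 𝔻 D' e)
  have hvu : 𝔻.B.A.valuation G.unif ≠ 0 := (Valuation.ne_zero_iff _).mpr G.unif_ne
  have hπ : 𝔻.B.A.valuation (𝔻.node e).π = 𝔻.B.A.valuation G.unif := G.thick e
  have hj' : 𝔻.B.A.valuation ((toSemiRed 𝔻).annProd D' e) = 𝔻.B.A.valuation G.unif ^ j := hj
  have h3 : 𝔻.B.A.valuation ((toSemiRed 𝔻).annProd Z e) ^ n =
      𝔻.B.A.valuation C ^ n * 𝔻.B.A.valuation G.unif ^ s' * 𝔻.B.A.valuation G.unif ^ j := by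
    have e0 : 𝔻.B.A.valuation C ^ n = 𝔻.B.A.valuation (c0 / c1) := by rw [← map_pow, hC]
    rw [e0, ← hj', ← hπ, h2', div_mul_cancel₀ _ hvD]
  have hC0 : C ≠ 0 := by
    intro h
    have h4 : c0 / c1 = 0 := by rw [← hC, h, zero_pow hn.ne']
    exact div_ne_zero hc0.c_ne_zero hc1.c_ne_zero h4
  have hϖ0 : ϖ ≠ 0 := by
    intro h
    exact G.unif_ne (by rw [← hϖ, h, zero_pow hn.ne'])
  unfold absv
  refine val_pow_inj hn ((Valuation.ne_zero_iff _).mpr (mul_ne_zero hC0 (zpow_ne_zero _ hϖ0))) ?_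
  have e1 : (𝔻.B.A.valuation ϖ ^ (j + s')) ^ n = 𝔻.B.A.valuation G.unif ^ (j + s') := by
    rw [← zpow_natCast (𝔻.B.A.valuation ϖ ^ (j + s')) n, ← zpow_mul, mul_comm, zpow_mul,
      zpow_natCast, ← map_pow, hϖ]
  rw [h3, map_mul, map_zpow₀, mul_pow, e1, zpow_add₀ hvu, mul_assoc,
    mul_comm (𝔻.B.A.valuation G.unif ^ s')]

/-! ### the descent -/

theorem zpow_eq_of_dvd {K : Type*} [Field K] {χ : K} (hχ0 : χ ≠ 0) {n : ℕ} (hχ : χ ^ n = 1)
    {a b : ℤ} (h : (n : ℤ) ∣ a - b) : χ ^ a = χ ^ b := by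
  obtain ⟨q, hq⟩ := h
  have e : a = b + (n : ℤ) * q := by omega
  rw [e, zpow_add₀ hχ0, zpow_mul, zpow_natCast, hχ, one_zpow, mul_one]

theorem smul_nsmul' (σ : SemilinearAut L F) (m : ℕ) (x : Pic0 L F) : σ • (m • x) = m • (σ • x) :=
  map_nsmul (DistribSMul.toAddMonoidHom (Pic0 L F) σ) m x

/-- **The descent.** -/
theorem exists_fixed_root [Fintype E] [Nonempty E] (tc : TwoComp 𝔻 v0 v1) {n : ℕ} [NeZero n]
    (hrootL : ∀ (c : L) (m : ℕ), 0 < m → ∃ b : L, b ^ m = c)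
    (hPn : ∀ g : Ft, g ≠ 0 → (∀ Q : Place k Ft, (n : ℤ) ∣ Q.ord g) → ∃ h : Ft, h ^ n = g)
    (hK3 : ∀ z ∈ kerRed 𝔻, n • z = 0 → z = 0)
    (hA1 : n ^ (2 * gen) ≤ Nat.card (Pic0.torsion L F n))
    (hL2 : Fintype.card E ≤ gen + 1)
    (hdivis : ∀ x : Pic0 L F, ∃ y : Pic0 L F, n • y = x)
    (x : Pic0 L F) (hx : ∀ γ, G.ρ γ • x = x) :
    ∃ y : Pic0 L F, n • y = Fintype.card E • x ∧ ∀ γ, G.ρ γ • y = y := by
  classical
  have hn : 0 < n := Nat.pos_of_ne_zero (NeZero.ne n)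
  haveI : Nonempty ι := ⟨v0⟩
  haveI : Finite ι := by
    refine Finite.of_surjective (fun b : Bool => if b then v0 else v1) fun v => ?_
    rcases tc.all v with rfl | rfl
    · exact ⟨true, by simp⟩
    · exact ⟨false, by simp⟩
  have hthick : ∀ e e', 𝔻.B.A.valuation (𝔻.node e).π = 𝔻.B.A.valuation (𝔻.node e').π :=
    fun e e' => (G.thick e).trans (G.thick e').symm
  have hmid : ∀ e, ∃ b : L, b ≠ 0 ∧ 𝔻.B.IsM b ∧ 𝔻.B.IsM (𝔻.π e / b) := by
    intro e
    obtain ⟨b, hb⟩ := hrootL (𝔻.π e) 2 (by norm_num)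
    have hπ0 : 𝔻.π e ≠ 0 := (𝔻.node e).π_ne
    have hb0 : b ≠ 0 := by
      rintro rfl
      rw [zero_pow two_ne_zero] at hb
      exact hπ0 hb.symm
    have hbM : 𝔻.B.IsM b := by
      have h1 : 𝔻.B.A.valuation b ^ 2 < 1 := by
        rw [← map_pow, hb]; exact (𝔻.node e).π_lt
      by_contra h
      rw [Base.IsM, not_lt] at h
      exact absurd h1 (not_lt.mpr (one_le_pow₀ h))
    refine ⟨b, hb0, hbM, ?_⟩
    have : 𝔻.π e / b = b := by rw [← hb, pow_two, mul_div_cancel_right₀ _ hb0]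
    rw [this]; exact hbM
  -- a fixed divisor in the class `x`, an `n`-th root `[E']` of `x`
  obtain ⟨D', hD'x, hD'fix⟩ := exists_fixed_div 𝔻.HL G.ρ G.Pinf G.Pinf_fix gen G.hRR x hx
  obtain ⟨y0, hy0⟩ := hdivis x
  obtain ⟨E', rfl⟩ := Pic0.mk_surjective y0
  have hcl : Pic0.mk D' = Pic0.mk (n • E') := by rw [hD'x, ← hy0]; rfl
  rw [Fermat.Agent.FF.KER.Ker0.NSSystem.mk_eq_mk_iff] at hcl
  obtain ⟨f, hf0, hf⟩ := hcl
  have hdiv : ∀ P : Place L F, P.ord f = n * (E' : Divisor L F) P - (D' : Divisor L F) P := by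
    intro P
    have := hf P
    rw [AddSubgroup.coe_nsmul, Finsupp.sub_apply, Finsupp.smul_apply, nsmul_eq_mul] at this
    exact this.symm
  obtain ⟨c0, hc0⟩ := (𝔻.side v0).exists_isNorm hf0
  obtain ⟨c1, hc1⟩ := (𝔻.side v1).exists_isNorm hf0
  choose j hj using fun e => exists_fixedVal_annProd G hD'fix e
  obtain ⟨C, hC⟩ := hrootL (c0 / c1) n hn
  obtain ⟨ϖ, hϖ⟩ := hrootL G.unif n hn
  have hϖ0 : ϖ ≠ 0 := by
    intro h
    exact G.unif_ne (by rw [← hϖ, h, zero_pow hn.ne'])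
  have hC0 : C ≠ 0 := by
    intro h
    have h4 : c0 / c1 = 0 := by rw [← hC, h, zero_pow hn.ne']
    exact div_ne_zero hc0.c_ne_zero hc1.c_ne_zero h4
  set M : E → ℤ := fun e => j e + ((n : ℤ) * (toSemiRed 𝔻).annSum (E' : Divisor L F) e -
    (toSemiRed 𝔻).annSum (D' : Divisor L F) e - slS 𝔻 e f) with hMdef
  have hM : ∀ e, absv 𝔻 ((toSemiRed 𝔻).annProd (E' : Divisor L F) e) = absv 𝔻 (C * ϖ ^ M e) :=
    fun e => absv_annProd_kummer G tc hn hf0 hdiv e (hj e) hc0 hc1 hC hϖ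
  -- the target slope vector
  set tot : ℤ := ∑ e, M e with htot
  set σ : E → ZMod n := fun e => ((tot - (Fintype.card E : ℤ) * M e : ℤ) : ZMod n) with hσdef
  have hσ : ∑ e, σ e = 0 := by
    have h1 : ∑ e, (tot - (Fintype.card E : ℤ) * M e) = 0 := by
      rw [Finset.sum_sub_distrib, Finset.sum_const, ← Finset.mul_sum, Finset.card_univ,
        nsmul_eq_mul, ← htot]
      ring
    rw [hσdef]
    show ∑ e, ((tot - (Fintype.card E : ℤ) * M e : ℤ) : ZMod n) = 0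
    rw [← Int.cast_sum, h1, Int.cast_zero]
  obtain ⟨t, ht, hτt⟩ := tau_surj tc G.NS G.hRR hthick (fun c => hrootL c n hn) hmid hPn hK3 hA1
    hL2 σ hσ
  obtain ⟨Kt⟩ := exists_kum ht
  obtain ⟨d0, hd0⟩ := (𝔻.side v0).exists_isNorm Kt.f_ne
  obtain ⟨d1, hd1⟩ := (𝔻.side v1).exists_isNorm Kt.f_ne
  obtain ⟨Ct, hCt⟩ := hrootL (d0 / d1) n hn
  have hCt0 : Ct ≠ 0 := by
    intro h
    have h4 : d0 / d1 = 0 := by rw [← hCt, h, zero_pow hn.ne']
    exact div_ne_zero hd0.c_ne_zero hd1.c_ne_zero h4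
  set Mt : E → ℤ := fun e => (0 : ℤ) + ((n : ℤ) * (toSemiRed 𝔻).annSum (Kt.D : Divisor L F) e -
    (toSemiRed 𝔻).annSum (0 : Divisor L F) e - slS 𝔻 e Kt.f) with hMtdef
  have hMt : ∀ e, absv 𝔻 ((toSemiRed 𝔻).annProd (Kt.D : Divisor L F) e) =
      absv 𝔻 (Ct * ϖ ^ Mt e) := fun e =>
    absv_annProd_kummer G tc hn Kt.f_ne (D' := 0)
      (fun P => by rw [← Kt.div_eq P, Finsupp.coe_zero, Pi.zero_apply, sub_zero]) e (j := 0)
      (by rw [annProd_zero, zpow_zero]; exact map_one _) hd0 hd1 hCt hϖ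
  have hcong : ∀ e, (n : ℤ) ∣ ((Fintype.card E : ℤ) * M e - Mt e) - tot := by
    intro e
    have h1 : tau 𝔻 n t e = ((slS 𝔻 e Kt.f : ℤ) : ZMod n) := tau_eq 𝔻 Kt e
    have h2 : ((slS 𝔻 e Kt.f : ℤ) : ZMod n) =
        ((tot - (Fintype.card E : ℤ) * M e : ℤ) : ZMod n) := by rw [← h1, hτt]
    rw [ZMod.intCast_eq_intCast_iff_dvd_sub] at h2
    have h3 : (toSemiRed 𝔻).annSum (0 : Divisor L F) e = 0 := annSum_zero 𝔻 e
    obtain ⟨q, hq⟩ := h2
    refine ⟨-q - (toSemiRed 𝔻).annSum (Kt.D : Divisor L F) e, ?_⟩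
    rw [hMtdef]
    simp only []
    linear_combination (-1 : ℤ) * hq + h3
  -- the candidate
  set Y : Divisor.degZero (K := L) (F := F) := Fintype.card E • E' - Kt.D with hY
  have hYmk : Pic0.mk Y = Fintype.card E • Pic0.mk E' - t := by rw [← Kt.mk_eq]; rfl
  have hnY : n • Pic0.mk Y = Fintype.card E • x := by
    rw [hYmk, nsmul_sub, ht, sub_zero, ← hy0, nsmul_left_comm]
  refine ⟨Pic0.mk Y, hnY, fun γ => ?_⟩
  set W : Divisor.degZero (K := L) (F := F) := SemilinearAut.degZeroSMulHom (G.ρ γ) Y - Y with hW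
  have hWcoe : (W : Divisor L F) = G.ρ γ • (Y : Divisor L F) - (Y : Divisor L F) := rfl
  have hWZ : InZ 𝔻 (W : Divisor L F) := by rw [hWcoe]; exact G.inZ_smul_sub γ _
  have hYcoe : (Y : Divisor L F) =
      ((Fintype.card E : ℕ) : ℤ) • (E' : Divisor L F) - (Kt.D : Divisor L F) := by
    show ((Fintype.card E • E' : Divisor.degZero (K := L) (F := F)) : Divisor L F) - _ = _
    rw [AddSubgroup.coe_nsmul, natCast_zsmul]
  set χ := G.chi γ ϖ with hχ
  have hχ0 : χ ≠ 0 := G.chi_ne_zero γ hϖ0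
  have hχn : χ ^ n = 1 := by
    rw [hχ, ← G.chi_pow γ hϖ0, hϖ]
    exact G.chi_fixed γ G.unif_ne (G.unif_fix γ)
  have htor : ∀ e, tor 𝔻 (W : Divisor L F) e =
      G.chi γ C ^ Fintype.card E / G.chi γ Ct * χ ^ tot := by
    intro e
    rw [hWcoe, G.tor_smul_sub γ]
    have hne1 : (C * ϖ ^ M e) ^ Fintype.card E / (Ct * ϖ ^ Mt e) ≠ 0 :=
      div_ne_zero (pow_ne_zero _ (mul_ne_zero hC0 (zpow_ne_zero _ hϖ0)))
        (mul_ne_zero hCt0 (zpow_ne_zero _ hϖ0))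
    have habs : absv 𝔻 ((toSemiRed 𝔻).annProd (Y : Divisor L F) e) =
        absv 𝔻 ((C * ϖ ^ M e) ^ Fintype.card E / (Ct * ϖ ^ Mt e)) := by
      have h1 := hM e
      have h2 := hMt e
      unfold absv at h1 h2 ⊢
      rw [hYcoe, annProd_sub, annProd_zsmul, zpow_natCast, map_div₀, map_pow, map_div₀, map_pow,
        h1, h2]
    rw [G.chi_eq_of_absv_eq γ (annProd_ne_zero 𝔻 _ e) hne1 habs,
      G.chi_div γ (pow_ne_zero _ (mul_ne_zero hC0 (zpow_ne_zero _ hϖ0)))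
        (mul_ne_zero hCt0 (zpow_ne_zero _ hϖ0)),
      G.chi_pow γ (mul_ne_zero hC0 (zpow_ne_zero _ hϖ0)),
      G.chi_mul γ hC0 (zpow_ne_zero _ hϖ0), G.chi_zpow γ hϖ0,
      G.chi_mul γ hCt0 (zpow_ne_zero _ hϖ0), G.chi_zpow γ hϖ0, ← hχ]
    rw [mul_pow, ← zpow_natCast (χ ^ M e), ← zpow_mul, mul_div_mul_comm, ← zpow_sub₀ hχ0]
    congr 1
    refine zpow_eq_of_dvd hχ0 hχn ?_
    have := hcong e
    have e1 : M e * ((Fintype.card E : ℕ) : ℤ) - Mt e - tot =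
        (Fintype.card E : ℤ) * M e - Mt e - tot := by ring
    rw [e1]
    exact this
  have hker := mem_kerRed_of_inZ tc G.NS G.hRR W hWZ _ htor
  have hWmk : Pic0.mk W = G.ρ γ • Pic0.mk Y - Pic0.mk Y := by
    rw [SemilinearAut.pic0_smul_mk]; rfl
  have hnW : n • Pic0.mk W = 0 := by
    rw [hWmk, nsmul_sub, ← smul_nsmul', hnY, smul_nsmul', hx γ, sub_self]
  have h0 := hK3 _ hker hnW
  rw [hWmk, sub_eq_zero] at h0
  exact h0

end

end Fermat.Agent.MZ.LOCP.Descent7
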