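/-
Programme MZ (S15, Mazur), area LOCP (helper7): **(P1) LOCP-GEO, final wiring.**

* `descentShape` : `Descent7.exists_fixed_root` in the shape `Core6.DescentShape` consumed by helper6's
  `Core6.inertDiv_of_descent`;
* `inertDiv_four_mul` : `InertDiv p ℓ (4 * p)` (`p` odd, `ℓ ≠ p`);
* `inertDiv_prime` : `InertDiv p ℓ p` by the push-down `PushDown7.inertDiv_of_dvd`.
-/
import Mathlib
import Fermat.Agent.MZ.LOCP.Core6
import Fermat.Agent.MZ.LOCP.Descent7

set_option autoImplicit false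
set_option linter.unusedSectionVars false
set_option linter.style.longLine false
set_option linter.style.haveILetI false

namespace Fermat.Agent.MZ.LOCP.InertDivFinal7

open AlgebraicCurve Fermat.Agent.ORD.SEMIRED.SemiRedDatum9
open Fermat.Agent.MZ.LOCP.Core6 Fermat.Agent.MZ.LOCP.PushDown7

/-- **the abstract descent in the shape consumed by `Core6`.** -/
theorem descentShape {L F k Ft ι E : Type} [Field L] [Field F] [Algebra L F] [Field k] [Field Ft]
    [Algebra k Ft] (𝔻 : SemiRedDatum L F k Ft ι E) (Γ : Type) [Group Γ] (gen : ℕ) :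
    DescentShape 𝔻 Γ gen := by
  intro v0 v1 tc _ _ G n hn hrootL _ hPn hK3 hA1 hL2 hdivis x hx
  haveI : NeZero n := ⟨hn.ne'⟩
  refine Fermat.Agent.MZ.LOCP.Descent7.exists_fixed_root G tc hrootL hPn hK3 ?_ hL2 hdivis x hx
  refine hA1.trans (le_of_eq (Nat.card_congr (Equiv.subtypeEquivRight fun y => ?_)))
  rw [Pic0.mem_torsion, natCast_zsmul]

/-- **(P1) at level `4p`.** -/
theorem inertDiv_four_mul {p : ℕ} [Fact p.Prime] (hp2 : p ≠ 2) {ℓ : ℕ} (hℓ : ℓ.Prime)
    (hℓp : ℓ ≠ p) : InertDiv p ℓ (4 * p) :=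
  inertDiv_of_descent hp2 hℓ hℓp (descentShape _ _ _)

/-- **(P1) at level `p`.** -/
theorem inertDiv_prime {p : ℕ} [Fact p.Prime] [NeZero p] (hp2 : p ≠ 2) {ℓ : ℕ} (hℓ : ℓ.Prime)
    (hℓp : ℓ ≠ p) : InertDiv p ℓ p :=
  inertDiv_of_dvd (Dvd.intro_left 4 rfl) (inertDiv_four_mul hp2 hℓ hℓp)

end Fermat.Agent.MZ.LOCP.InertDivFinal7
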