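/-
Programme MZ (S15, Mazur), area LOCP (helper7): **the twisted non-special lemma with slopes**.

`ORD/ANN/TwistedNS2.Input.exists_effective_gen` (the twisted NS lemma) treats a divisor `Z` and a tuple
`h` of functions on the components of the special fibre which are UNITS at the branches of the nodes.
Here the tuple `h` may have arbitrary orders `κ_e`, `κ'_e` at the two branches of a node `e` (slopes),
and comes with "virtual normalisers" `γ v ∈ Lˣ` : the data `(Z, h, γ)` look like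
`(div H, (nred (γ v) H)_v, γ)` for a function `H` — which need not exist.  The hypotheses are exactly the
three relations (N1), (N2), (N3, generalised) that such an `H` would satisfy:

* (a)  `fibSum Z = div h` off the branches;
* (b1) `annSum_e Z = κ_e + κ'_e`;
* (b2) `|γ_s / γ_t| |π_e|^{κ'_e} = |annProd_e Z|`;
* (c)  `(h_t / yb^{κ'})(Q') = (h_s / xb^{κ})(Q) · res ((γ_t/γ_s) · annProd_e Z · π_e^{-κ'} · (-1)^{annSum_e Z})`.

Conclusion (as for the twisted NS lemma): `Z + D0 ∼ E` effective, off the annuli, reducing to `D~0`.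

* `GN3 I xb yb` : the generalised (N3) of the annulus calculus, as a hypothesis on the bundle `I`;
* `edge_relations_gen`, `slope_src_gen`, `slope_tgt_gen`, `slopes_eq_zero_gen`;
* `exists_effective_slopes` : the lemma.
-/
import Mathlib
import Fermat.Agent.ORD.ANN.TwistedNS2

set_option autoImplicit false
set_option linter.unusedSectionVars false
set_option linter.style.longLine false

namespace Fermat.Agent.MZ.LOCP.GenTwisted7

open AlgebraicCurve Fermat.Agent.X0.FF Fermat.Agent.RR.LSpace Fermat.Agent.MW.EMB.Value6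
open Fermat.Agent.ORD.ANN.TwistedNS2

noncomputable section

variable {L F k : Type*} [Field L] [Field F] [Algebra L F] [Field k]
  {Comp Edge : Type*} {Ft : Comp → Type*} [∀ v, Field (Ft v)] [∀ v, Algebra k (Ft v)]

variable (I : Input L F k Comp Edge Ft)

/-- **The generalised (N3)**: the branch values of the leading terms, for arbitrary slopes. -/
def GN3 (xb : ∀ e, Ft (I.bs e).1) (yb : ∀ e, Ft (I.bt e).1) : Prop :=
  ∀ e (φ : F) (c c' : L) (D : Divisor L F), (∀ P, D P = P.ord φ) →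
    I.IsNorm (I.bs e).1 c φ → I.IsNorm (I.bt e).1 c' φ →
    ∃ u : I.A, (u : L) = c' / c * I.annProd e D *
        I.π e ^ (-((I.bt e).2.ord (I.nred (I.bt e).1 c' φ))) * (-1) ^ (I.annSum e D) ∧
      valF (I.Hk (I.bt e).1) (I.bt e).2
          (I.nred (I.bt e).1 c' φ * yb e ^ (-((I.bt e).2.ord (I.nred (I.bt e).1 c' φ)))) =
        valF (I.Hk (I.bs e).1) (I.bs e).2
          (I.nred (I.bs e).1 c φ * xb e ^ (-((I.bs e).2.ord (I.nred (I.bs e).1 c φ)))) * I.res u

/-! ### the edge relations with slopes -/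

/-- the two fundamental relations on an edge, for `E = Z + D0' + div φ` where `Z` has the annulus
data of a virtual function with slopes `κ`, `κ'` and normalisers `g`, `g'`. -/
theorem edge_relations_gen (e : Edge) {φ : F} {c c' : L}
    (hc : I.IsNorm (I.bs e).1 c φ) (hc' : I.IsNorm (I.bt e).1 c' φ)
    (Z D0' E : Divisor L F) (hE : ∀ P, E P = Z P + D0' P + P.ord φ)
    (hD0 : ∀ P ∈ I.ann e, D0' P = 0) (κ κ' : ℤ) {g g' : L} (hg : g ≠ 0) (hg' : g' ≠ 0)
    (hb1 : I.annSum e Z = κ + κ')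
    (hb2 : I.A.valuation (g / g') * I.A.valuation (I.π e) ^ κ' = I.A.valuation (I.annProd e Z)) :
    I.A.valuation (c * g / (c' * g')) *
        I.A.valuation (I.π e) ^ ((I.bt e).2.ord (I.nred (I.bt e).1 c' φ) + κ') =
        I.A.valuation (I.annProd e E) ∧
      I.A.valuation (c' * g' / (c * g)) *
        I.A.valuation (I.π e) ^ ((I.bs e).2.ord (I.nred (I.bs e).1 c φ) + κ) = I.annQ e E := by
  have hdiv : ∀ P, (E - Z - D0') P = P.ord φ := fun P => by
    rw [Finsupp.sub_apply, Finsupp.sub_apply, hE P]; ring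
  have h1 := I.n1 e φ c c' (E - Z - D0') hdiv hc hc'
  have h2 := I.n2 e φ c c' (E - Z - D0') hdiv hc hc'
  have hS : annSumG (I.ann e) (E - Z - D0') = I.annSum e E - (κ + κ') := by
    show I.annSum e (E - Z - D0') = _
    rw [I.annSum_sub, I.annSum_sub, hb1, I.annSum_eq_zero_of e D0' hD0, sub_zero]
  have hP : I.A.valuation (annProdG (I.ann e) (I.a e) (E - Z - D0')) =
      I.A.valuation (I.annProd e E) / I.A.valuation (I.annProd e Z) := by
    show I.A.valuation (I.annProd e (E - Z - D0')) = _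
    rw [I.annProd_sub, I.annProd_sub, I.annProd_eq_one_of e D0' hD0, div_one, map_div₀]
  rw [hS] at h1
  rw [hP] at h2
  have hπ : I.A.valuation (I.π e) ≠ 0 := by rw [Ne, Valuation.zero_iff]; exact I.π_ne e
  have hc0 : I.A.valuation c ≠ 0 := by rw [Ne, Valuation.zero_iff]; exact hc.ne_zero
  have hc'0 : I.A.valuation c' ≠ 0 := by rw [Ne, Valuation.zero_iff]; exact hc'.ne_zero
  have hg0 : I.A.valuation g ≠ 0 := by rw [Ne, Valuation.zero_iff]; exact hg
  have hg'0 : I.A.valuation g' ≠ 0 := by rw [Ne, Valuation.zero_iff]; exact hg'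
  have hZ0 : I.A.valuation (I.annProd e Z) ≠ 0 := by
    rw [Ne, Valuation.zero_iff]; exact I.annProd_ne_zero e Z
  have hA0 : I.A.valuation (I.annProd e E) ≠ 0 := by
    rw [Ne, Valuation.zero_iff]; exact I.annProd_ne_zero e E
  set s := (I.bs e).2.ord (I.nred (I.bs e).1 c φ) with hs
  set s' := (I.bt e).2.ord (I.nred (I.bt e).1 c' φ) with hs'
  set vπ := I.A.valuation (I.π e) with hvπ
  have h2' : I.A.valuation (c / c') * vπ ^ s' =
      I.A.valuation (I.annProd e E) / I.A.valuation (I.annProd e Z) := h2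
  -- the first relation
  have hF2 : I.A.valuation (c * g / (c' * g')) * vπ ^ (s' + κ') = I.A.valuation (I.annProd e E) := by
    have e1 : I.A.valuation (c * g / (c' * g')) =
        I.A.valuation (c / c') * I.A.valuation (g / g') := by
      rw [← map_mul]
      congr 1
      field_simp
    rw [e1, zpow_add₀ hπ]
    calc I.A.valuation (c / c') * I.A.valuation (g / g') * (vπ ^ s' * vπ ^ κ')
        = (I.A.valuation (c / c') * vπ ^ s') * (I.A.valuation (g / g') * vπ ^ κ') := by ac_rfl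
      _ = I.A.valuation (I.annProd e E) / I.A.valuation (I.annProd e Z) *
            I.A.valuation (I.annProd e Z) := by rw [h2', hb2]
      _ = I.A.valuation (I.annProd e E) := div_mul_cancel₀ _ hZ0
  refine ⟨hF2, ?_⟩
  -- the mirrored relation
  have h1' : s + κ = I.annSum e E - (s' + κ') := by
    have : s + s' = I.annSum e E - (κ + κ') := h1
    omega
  have hcg : I.A.valuation (c * g / (c' * g')) ≠ 0 := by
    rw [Ne, Valuation.zero_iff]
    exact div_ne_zero (mul_ne_zero hc.ne_zero hg) (mul_ne_zero hc'.ne_zero hg')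
  have e2 : I.A.valuation (c' * g' / (c * g)) = (I.A.valuation (c * g / (c' * g')))⁻¹ := by
    rw [← map_inv₀, inv_div]
  rw [Input.annQ, h1', zpow_sub₀ hπ, ← hF2, e2]
  rw [inv_mul_eq_div, div_div]
  congr 1
  rw [mul_comm]

/-- source side. -/
theorem slope_src_gen (e : Edge) {φ : F} {c c' : L}
    (hc : I.IsNorm (I.bs e).1 c φ) (hc' : I.IsNorm (I.bt e).1 c' φ)
    (Z D0' E : Divisor L F) (hE : ∀ P, E P = Z P + D0' P + P.ord φ) (hEnn : ∀ P, 0 ≤ E P)
    (hD0 : ∀ P ∈ I.ann e, D0' P = 0) (κ κ' : ℤ) {g g' : L} (hg : g ≠ 0) (hg' : g' ≠ 0)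
    (hb1 : I.annSum e Z = κ + κ')
    (hb2 : I.A.valuation (g / g') * I.A.valuation (I.π e) ^ κ' = I.A.valuation (I.annProd e Z))
    (hle : I.A.valuation (c * g) ≤ I.A.valuation (c' * g')) :
    0 ≤ (I.bs e).2.ord (I.nred (I.bs e).1 c φ) + κ ∧
      ((I.bs e).2.ord (I.nred (I.bs e).1 c φ) + κ = 0 →
        I.A.valuation (c' * g') = I.A.valuation (c * g) ∧ ∀ P ∈ I.ann e, E P = 0) := by
  obtain ⟨-, hF⟩ := edge_relations_gen I e hc hc' Z D0' E hE hD0 κ κ' hg hg' hb1 hb2
  have hπ0 : I.A.valuation (I.π e) ≠ 0 := by rw [Ne, Valuation.zero_iff]; exact I.π_ne e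
  have hc0 : I.A.valuation (c * g) ≠ 0 := by
    rw [Ne, Valuation.zero_iff]; exact mul_ne_zero hc.ne_zero hg
  have hQ := I.annQ_le_one e E hEnn
  have hge : 1 ≤ I.A.valuation (c' * g' / (c * g)) := by
    rw [map_div₀]
    exact (one_le_div₀ (zero_lt_iff.mpr hc0)).mpr hle
  set s := (I.bs e).2.ord (I.nred (I.bs e).1 c φ) + κ with hs
  constructor
  · by_contra hneg
    have hlt : s < 0 := not_le.mp hneg
    have h1 : 1 < I.A.valuation (I.π e) ^ s :=
      one_lt_zpow_of_neg₀ (zero_lt_iff.mpr hπ0) (I.π_lt e) hlt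
    have h2 : 1 < I.A.valuation (c' * g' / (c * g)) * I.A.valuation (I.π e) ^ s :=
      one_lt_mul_of_le_of_lt hge h1
    rw [hF] at h2
    exact absurd hQ (not_le.mpr h2)
  · intro h0
    rw [h0, zpow_zero, mul_one] at hF
    have h1 : I.A.valuation (c' * g' / (c * g)) = 1 := le_antisymm (hF ▸ hQ) hge
    refine ⟨?_, I.eq_zero_of_annQ_eq_one e E hEnn (by rw [← hF, h1])⟩
    rw [map_div₀] at h1
    exact (div_eq_one_iff_eq hc0).mp h1

/-- target side. -/
theorem slope_tgt_gen (e : Edge) {φ : F} {c c' : L}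
    (hc : I.IsNorm (I.bs e).1 c φ) (hc' : I.IsNorm (I.bt e).1 c' φ)
    (Z D0' E : Divisor L F) (hE : ∀ P, E P = Z P + D0' P + P.ord φ) (hEnn : ∀ P, 0 ≤ E P)
    (hD0 : ∀ P ∈ I.ann e, D0' P = 0) (κ κ' : ℤ) {g g' : L} (hg : g ≠ 0) (hg' : g' ≠ 0)
    (hb1 : I.annSum e Z = κ + κ')
    (hb2 : I.A.valuation (g / g') * I.A.valuation (I.π e) ^ κ' = I.A.valuation (I.annProd e Z))
    (hle : I.A.valuation (c' * g') ≤ I.A.valuation (c * g)) :
    0 ≤ (I.bt e).2.ord (I.nred (I.bt e).1 c' φ) + κ' ∧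
      ((I.bt e).2.ord (I.nred (I.bt e).1 c' φ) + κ' = 0 →
        I.A.valuation (c * g) = I.A.valuation (c' * g') ∧ ∀ P ∈ I.ann e, E P = 0) := by
  obtain ⟨hF, -⟩ := edge_relations_gen I e hc hc' Z D0' E hE hD0 κ κ' hg hg' hb1 hb2
  have hπ0 : I.A.valuation (I.π e) ≠ 0 := by rw [Ne, Valuation.zero_iff]; exact I.π_ne e
  have hc0 : I.A.valuation (c' * g') ≠ 0 := by
    rw [Ne, Valuation.zero_iff]; exact mul_ne_zero hc'.ne_zero hg'
  have hQ := I.val_annProd_le_one e E hEnn
  have hge : 1 ≤ I.A.valuation (c * g / (c' * g')) := by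
    rw [map_div₀]
    exact (one_le_div₀ (zero_lt_iff.mpr hc0)).mpr hle
  set s := (I.bt e).2.ord (I.nred (I.bt e).1 c' φ) + κ' with hs
  constructor
  · by_contra hneg
    have hlt : s < 0 := not_le.mp hneg
    have h1 : 1 < I.A.valuation (I.π e) ^ s :=
      one_lt_zpow_of_neg₀ (zero_lt_iff.mpr hπ0) (I.π_lt e) hlt
    have h2 : 1 < I.A.valuation (c * g / (c' * g')) * I.A.valuation (I.π e) ^ s :=
      one_lt_mul_of_le_of_lt hge h1
    rw [hF] at h2
    exact absurd hQ (not_le.mpr h2)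
  · intro h0
    rw [h0, zpow_zero, mul_one] at hF
    have h1 : I.A.valuation (c * g / (c' * g')) = 1 := le_antisymm (hF ▸ hQ) hge
    refine ⟨?_, I.eq_zero_of_val_annProd_eq_one e E hEnn (by rw [← hF, h1])⟩
    rw [map_div₀] at h1
    exact (div_eq_one_iff_eq hc0).mp h1

/-- conversely, equal (virtual) Gauss norms and no point of `E` in the annulus force both total slopes
to vanish. -/
theorem slopes_eq_zero_gen (e : Edge) {φ : F} {c c' : L}
    (hc : I.IsNorm (I.bs e).1 c φ) (hc' : I.IsNorm (I.bt e).1 c' φ)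
    (Z D0' E : Divisor L F) (hE : ∀ P, E P = Z P + D0' P + P.ord φ)
    (hD0 : ∀ P ∈ I.ann e, D0' P = 0) (κ κ' : ℤ) {g g' : L} (hg : g ≠ 0) (hg' : g' ≠ 0)
    (hb1 : I.annSum e Z = κ + κ')
    (hb2 : I.A.valuation (g / g') * I.A.valuation (I.π e) ^ κ' = I.A.valuation (I.annProd e Z))
    (heq : I.A.valuation (c * g) = I.A.valuation (c' * g'))
    (hEann : ∀ P ∈ I.ann e, E P = 0) :
    (I.bs e).2.ord (I.nred (I.bs e).1 c φ) + κ = 0 ∧
      (I.bt e).2.ord (I.nred (I.bt e).1 c' φ) + κ' = 0 := by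
  obtain ⟨hF2, hF1⟩ := edge_relations_gen I e hc hc' Z D0' E hE hD0 κ κ' hg hg' hb1 hb2
  have hc'0 : I.A.valuation (c' * g') ≠ 0 := by
    rw [Ne, Valuation.zero_iff]; exact mul_ne_zero hc'.ne_zero hg'
  rw [I.annQ_eq_one_of e E hEann, map_div₀, heq, div_self hc'0, one_mul] at hF1
  rw [I.annProd_eq_one_of e E hEann, map_one, map_div₀, heq, div_self hc'0, one_mul] at hF2
  exact ⟨(zpow_eq_one_iff_right₀ zero_le (I.π_lt e).ne).mp hF1,
    (zpow_eq_one_iff_right₀ zero_le (I.π_lt e).ne).mp hF2⟩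

/-! ### the twisted non-special lemma with slopes -/

/-- **The twisted non-special lemma with slopes.** -/
theorem exists_effective_slopes [Finite Comp] [Nonempty Comp]
    (xb : ∀ e, Ft (I.bs e).1) (yb : ∀ e, Ft (I.bt e).1)
    (hxb : ∀ e, (I.bs e).2.ord (xb e) = 1) (hyb : ∀ e, (I.bt e).2.ord (yb e) = 1)
    (gn3 : GN3 I xb yb)
    (D0 : Divisor L F) (hD0nn : ∀ P, 0 ≤ D0 P) (hD0sm : ∀ P, I.r P = none → D0 P = 0)
    (hns : ∀ f : ∀ v, Ft v,
      (∀ (v : Comp) (Q : Place k (Ft v)),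
        -(Finsupp.mapDomain I.r D0 (some ⟨v, Q⟩)) ≤ Q.ord (f v)) →
      (∀ e, valF (I.Hk (I.bs e).1) (I.bs e).2 (f (I.bs e).1) =
        valF (I.Hk (I.bt e).1) (I.bt e).2 (f (I.bt e).1)) →
      ∃ c : k, ∀ v, f v = algebraMap k (Ft v) c)
    (Z : Divisor L F) (hRR : ∃ f : F, f ≠ 0 ∧ ∀ P, -((Z + D0) P) ≤ P.ord f)
    (h : ∀ v, Ft v) (hh0 : ∀ v, h v ≠ 0) (γ : Comp → L) (hγ : ∀ v, γ v ≠ 0)
    (ha : ∀ (v : Comp) (Q : Place k (Ft v)), (∀ e, I.bs e ≠ ⟨v, Q⟩) → (∀ e, I.bt e ≠ ⟨v, Q⟩) →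
      Finsupp.mapDomain I.r Z (some ⟨v, Q⟩) = Q.ord (h v))
    (hb1 : ∀ e, I.annSum e Z =
      (I.bs e).2.ord (h (I.bs e).1) + (I.bt e).2.ord (h (I.bt e).1))
    (hb2 : ∀ e, I.A.valuation (γ (I.bs e).1 / γ (I.bt e).1) *
        I.A.valuation (I.π e) ^ ((I.bt e).2.ord (h (I.bt e).1)) = I.A.valuation (I.annProd e Z))
    (hc : ∀ e, ∃ u : I.A, (u : L) = γ (I.bt e).1 / γ (I.bs e).1 * I.annProd e Z *
          I.π e ^ (-((I.bt e).2.ord (h (I.bt e).1))) * (-1) ^ (I.annSum e Z) ∧
      valF (I.Hk (I.bt e).1) (I.bt e).2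
          (h (I.bt e).1 * yb e ^ (-((I.bt e).2.ord (h (I.bt e).1)))) =
        valF (I.Hk (I.bs e).1) (I.bs e).2
          (h (I.bs e).1 * xb e ^ (-((I.bs e).2.ord (h (I.bs e).1)))) * I.res u) :
    ∃ φ : F, φ ≠ 0 ∧ ∃ E : Divisor L F, (∀ P, E P = Z P + D0 P + P.ord φ) ∧ (∀ P, 0 ≤ E P) ∧
      (∀ P, I.r P = none → E P = 0) ∧
      ∀ b', Finsupp.mapDomain I.r E (some b') = Finsupp.mapDomain I.r D0 (some b') := by
  classical
  have : Fintype Comp := Fintype.ofFinite Comp
  -- Riemann's inequality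
  obtain ⟨φ, hφ, hφE⟩ := hRR
  refine ⟨φ, hφ, ?_⟩
  set E : Divisor L F := Z + D0 + divOf I.HL hφ with hEdef
  have hE : ∀ P, E P = Z P + D0 P + P.ord φ := fun P => by
    rw [hEdef, Finsupp.add_apply, Finsupp.add_apply, divOf_apply]
  have hEnn : ∀ P, 0 ≤ E P := fun P => by
    rw [hE P]
    have := hφE P
    rw [Finsupp.add_apply] at this
    omega
  refine ⟨E, hE, hEnn, ?_⟩
  have hD0ann : ∀ e, ∀ P ∈ I.ann e, D0 P = 0 := fun e P hP =>
    hD0sm P (I.ann_none e P hP)
  -- normalising constants, virtual normalisers, the components of minimal virtual Gauss norm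
  choose cN hcN using fun v => I.exists_isNorm v hφ
  obtain ⟨v0, -, hv0⟩ := Finset.exists_min_image Finset.univ
    (fun v => I.A.valuation (cN v * γ v)) Finset.univ_nonempty
  set c0 := cN v0 * γ v0 with hc0def
  have hmin : ∀ v, I.A.valuation c0 ≤ I.A.valuation (cN v * γ v) :=
    fun v => hv0 v (Finset.mem_univ v)
  set d : Comp → L := fun v => c0 / γ v with hddef
  have hdγ : ∀ v, d v * γ v = c0 := fun v => div_mul_cancel₀ _ (hγ v)
  have hγ0 : ∀ v, I.A.valuation (γ v) ≠ 0 := fun v => by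
    rw [Ne, Valuation.zero_iff]; exact hγ v
  have hvald : ∀ v, I.A.valuation (d v) = I.A.valuation c0 / I.A.valuation (γ v) := fun v => by
    rw [hddef, map_div₀]
  -- on `Vmin` the constant `d v` normalises
  have hnormMin : ∀ v, I.A.valuation (cN v * γ v) = I.A.valuation c0 → I.IsNorm v (d v) φ :=
    fun v hv => (hcN v).of_val_eq (by
      rw [hvald v, ← hv, map_mul, mul_div_assoc, div_self (hγ0 v), mul_one])
  have hzeroOff : ∀ v, I.A.valuation (cN v * γ v) ≠ I.A.valuation c0 → I.nred v (d v) φ = 0 :=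
    fun v hv => ((hcN v).nred_eq_zero_of_lt (by
      have hlt : I.A.valuation c0 < I.A.valuation (cN v * γ v) :=
        lt_of_le_of_ne (hmin v) (Ne.symm hv)
      rw [hvald v, div_lt_iff₀ (zero_lt_iff.mpr (hγ0 v)), ← map_mul]
      exact hlt)).2
  -- the tuple `η`
  set η : ∀ v, Ft v := fun v =>
    if I.A.valuation (cN v * γ v) = I.A.valuation c0 then h v * I.nred v (d v) φ else 0 with hηdef
  have hη_in : ∀ v, I.A.valuation (cN v * γ v) = I.A.valuation c0 →
      η v = h v * I.nred v (d v) φ :=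
    fun v hv => by rw [hηdef]; exact if_pos hv
  have hη_out : ∀ v, I.A.valuation (cN v * γ v) ≠ I.A.valuation c0 → η v = 0 :=
    fun v hv => by rw [hηdef]; exact if_neg hv
  -- total slopes at the branches for components in `Vmin`
  have hsrc : ∀ e, I.A.valuation (cN (I.bs e).1 * γ (I.bs e).1) = I.A.valuation c0 →
      0 ≤ (I.bs e).2.ord (I.nred (I.bs e).1 (d (I.bs e).1) φ) + (I.bs e).2.ord (h (I.bs e).1) ∧
      ((I.bs e).2.ord (I.nred (I.bs e).1 (d (I.bs e).1) φ) + (I.bs e).2.ord (h (I.bs e).1) = 0 →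
        I.A.valuation (cN (I.bt e).1 * γ (I.bt e).1) = I.A.valuation c0 ∧
          ∀ P ∈ I.ann e, E P = 0) := fun e hv => by
    have := slope_src_gen I e (hnormMin _ hv) (hcN (I.bt e).1) Z D0 E hE hEnn (hD0ann e)
      ((I.bs e).2.ord (h (I.bs e).1)) ((I.bt e).2.ord (h (I.bt e).1)) (hγ _) (hγ _) (hb1 e) (hb2 e)
      (by rw [hdγ]; exact hmin _)
    rw [hdγ] at this
    exact this
  have htgt : ∀ e, I.A.valuation (cN (I.bt e).1 * γ (I.bt e).1) = I.A.valuation c0 →
      0 ≤ (I.bt e).2.ord (I.nred (I.bt e).1 (d (I.bt e).1) φ) + (I.bt e).2.ord (h (I.bt e).1) ∧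
      ((I.bt e).2.ord (I.nred (I.bt e).1 (d (I.bt e).1) φ) + (I.bt e).2.ord (h (I.bt e).1) = 0 →
        I.A.valuation (cN (I.bs e).1 * γ (I.bs e).1) = I.A.valuation c0 ∧
          ∀ P ∈ I.ann e, E P = 0) := fun e hv => by
    have := slope_tgt_gen I e (hcN (I.bs e).1) (hnormMin _ hv) Z D0 E hE hEnn (hD0ann e)
      ((I.bs e).2.ord (h (I.bs e).1)) ((I.bt e).2.ord (h (I.bt e).1)) (hγ _) (hγ _) (hb1 e) (hb2 e)
      (by rw [hdγ]; exact hmin _)
    rw [hdγ] at this
    exact this
  -- orders of `η` off the branches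
  have hordη : ∀ (v : Comp) (Q : Place k (Ft v)),
      I.A.valuation (cN v * γ v) = I.A.valuation c0 →
      (∀ e, I.bs e ≠ ⟨v, Q⟩) → (∀ e, I.bt e ≠ ⟨v, Q⟩) →
      Q.ord (η v) = Finsupp.mapDomain I.r E (some ⟨v, Q⟩) -
        Finsupp.mapDomain I.r D0 (some ⟨v, Q⟩) := by
    intro v Q hv hQs hQt
    have hn := hnormMin v hv
    have hcomp := I.compat v ⟨algebraMap L F (d v) * φ, hn.1⟩
      (by rw [← I.nred_of_mem hn.1]; exact hn.2) (divOf I.HL hφ)
      (fun P => by
        rw [divOf_apply]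
        show P.ord φ = P.ord (algebraMap L F (d v) * φ)
        rw [P.ord_mul ((map_ne_zero _).mpr hn.ne_zero) hφ, ffp_ord_algebraMap, zero_add])
      Q hQs hQt
    rw [← I.nred_of_mem hn.1] at hcomp
    rw [hη_in v hv, Q.ord_mul (hh0 v) hn.nred_ne_zero, ← ha v Q hQs hQt, ← hcomp,
      hEdef, Finsupp.mapDomain_add, Finsupp.mapDomain_add, Finsupp.add_apply, Finsupp.add_apply]
    ring
  -- `η` is a section of `O(D~0)` on the nodal curve
  have hηns1 : ∀ (v : Comp) (Q : Place k (Ft v)),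
      -(Finsupp.mapDomain I.r D0 (some ⟨v, Q⟩)) ≤ Q.ord (η v) := by
    intro v Q
    have hrd := I.mapDomain_nonneg' D0 hD0nn (some ⟨v, Q⟩)
    by_cases hv : I.A.valuation (cN v * γ v) = I.A.valuation c0
    · by_cases hQs : ∃ e, I.bs e = ⟨v, Q⟩
      · obtain ⟨e, he⟩ := hQs
        have hv' : I.A.valuation (cN (I.bs e).1 * γ (I.bs e).1) = I.A.valuation c0 := by
          rw [he]; exact hv
        have h1 := (hsrc e hv').1
        have h3 : (I.bs e).2.ord (η (I.bs e).1) =
            (I.bs e).2.ord (h (I.bs e).1) +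
              (I.bs e).2.ord (I.nred (I.bs e).1 (d (I.bs e).1) φ) := by
          rw [hη_in _ hv', (I.bs e).2.ord_mul (hh0 _) (hnormMin _ hv').nred_ne_zero]
        have h4 : 0 ≤ (I.bs e).2.ord (η (I.bs e).1) := by omega
        have h5 : (⟨(I.bs e).1, (I.bs e).2⟩ : Σ v, Place k (Ft v)) = ⟨v, Q⟩ := he
        have h6 : 0 ≤ Q.ord (η v) := by
          cases h5; exact h4
        omega
      · by_cases hQt : ∃ e, I.bt e = ⟨v, Q⟩
        · obtain ⟨e, he⟩ := hQt
          have hv' : I.A.valuation (cN (I.bt e).1 * γ (I.bt e).1) = I.A.valuation c0 := by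
            rw [he]; exact hv
          have h1 := (htgt e hv').1
          have h3 : (I.bt e).2.ord (η (I.bt e).1) =
              (I.bt e).2.ord (h (I.bt e).1) +
                (I.bt e).2.ord (I.nred (I.bt e).1 (d (I.bt e).1) φ) := by
            rw [hη_in _ hv', (I.bt e).2.ord_mul (hh0 _) (hnormMin _ hv').nred_ne_zero]
          have h4 : 0 ≤ (I.bt e).2.ord (η (I.bt e).1) := by omega
          have h5 : (⟨(I.bt e).1, (I.bt e).2⟩ : Σ v, Place k (Ft v)) = ⟨v, Q⟩ := he
          have h6 : 0 ≤ Q.ord (η v) := by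
            cases h5; exact h4
          omega
        · push Not at hQs hQt
          rw [hordη v Q hv hQs hQt]
          have := I.mapDomain_nonneg' E hEnn (some ⟨v, Q⟩)
          omega
    · rw [hη_out v hv, Place.ord_zero]
      omega
  have hηns2 : ∀ e, valF (I.Hk (I.bs e).1) (I.bs e).2 (η (I.bs e).1) =
      valF (I.Hk (I.bt e).1) (I.bt e).2 (η (I.bt e).1) := by
    intro e
    by_cases hall : I.A.valuation (cN (I.bs e).1 * γ (I.bs e).1) = I.A.valuation c0 ∧
        I.A.valuation (cN (I.bt e).1 * γ (I.bt e).1) = I.A.valuation c0 ∧ ∀ P ∈ I.ann e, E P = 0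
    · -- both components in `Vmin`, no point of `E` in the annulus: (GN3) + (c)
      obtain ⟨hvs, hvt, hEann⟩ := hall
      have hns' := hnormMin _ hvs
      have hnt := hnormMin _ hvt
      obtain ⟨hs0, ht0⟩ := slopes_eq_zero_gen I e hns' hnt Z D0 E hE (hD0ann e)
        ((I.bs e).2.ord (h (I.bs e).1)) ((I.bt e).2.ord (h (I.bt e).1)) (hγ _) (hγ _) (hb1 e) (hb2 e)
        (by rw [hdγ, hdγ]) hEann
      have hdiv : ∀ P, (E - Z - D0) P = P.ord φ := fun P => by
        rw [Finsupp.sub_apply, Finsupp.sub_apply, hE P]; ring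
      obtain ⟨u, hu, huval⟩ := gn3 e φ (d (I.bs e).1) (d (I.bt e).1) (E - Z - D0) hdiv hns' hnt
      obtain ⟨uZ, huZ, huZval⟩ := hc e
      set κ := (I.bs e).2.ord (h (I.bs e).1) with hκ
      set κ' := (I.bt e).2.ord (h (I.bt e).1) with hκ'
      set s := (I.bs e).2.ord (I.nred (I.bs e).1 (d (I.bs e).1) φ) with hs
      set s' := (I.bt e).2.ord (I.nred (I.bt e).1 (d (I.bt e).1) φ) with hs'
      have hπ : I.π e ≠ 0 := I.π_ne e
      have hsE : I.annSum e E = 0 := I.annSum_eq_zero_of e E hEann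
      have hsD0 : I.annSum e D0 = 0 := I.annSum_eq_zero_of e D0 (hD0ann e)
      have huu : u * uZ = 1 := by
        apply Subtype.ext
        rw [I.A.coe_mul, hu, huZ]
        show d (I.bt e).1 / d (I.bs e).1 * I.annProd e (E - Z - D0) * I.π e ^ (-s') *
            (-1) ^ (I.annSum e (E - Z - D0)) *
          (γ (I.bt e).1 / γ (I.bs e).1 * I.annProd e Z * I.π e ^ (-κ') * (-1) ^ (I.annSum e Z)) = 1
        have e1 : I.annProd e (E - Z - D0) = (I.annProd e Z)⁻¹ := by
          rw [I.annProd_sub, I.annProd_sub, I.annProd_eq_one_of e E hEann,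
            I.annProd_eq_one_of e D0 (hD0ann e), div_one, one_div]
        have e2 : I.annSum e (E - Z - D0) = -I.annSum e Z := by
          rw [I.annSum_sub, I.annSum_sub, hsE, hsD0]; ring
        have e3 : d (I.bt e).1 / d (I.bs e).1 * (γ (I.bt e).1 / γ (I.bs e).1) = 1 := by
          rw [div_mul_div_comm, hdγ, hdγ]
          exact div_self (by rw [hc0def]; exact mul_ne_zero (hcN v0).ne_zero (hγ v0))
        have e4 : I.π e ^ (-s') * I.π e ^ (-κ') = 1 := by
          rw [← zpow_add₀ hπ]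
          have : -s' + -κ' = 0 := by omega
          rw [this, zpow_zero]
        have e5 : ((-1 : L)) ^ (-I.annSum e Z) * (-1) ^ (I.annSum e Z) = 1 := by
          rw [← zpow_add₀ (by norm_num : (-1 : L) ≠ 0), neg_add_cancel, zpow_zero]
        rw [e1, e2]
        calc d (I.bt e).1 / d (I.bs e).1 * (I.annProd e Z)⁻¹ * I.π e ^ (-s') *
              (-1) ^ (-I.annSum e Z) *
              (γ (I.bt e).1 / γ (I.bs e).1 * I.annProd e Z * I.π e ^ (-κ') *
                (-1) ^ (I.annSum e Z))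
            = (d (I.bt e).1 / d (I.bs e).1 * (γ (I.bt e).1 / γ (I.bs e).1)) *
              ((I.annProd e Z)⁻¹ * I.annProd e Z) * (I.π e ^ (-s') * I.π e ^ (-κ')) *
              ((-1) ^ (-I.annSum e Z) * (-1) ^ (I.annSum e Z)) := by ring
          _ = 1 := by
            rw [e3, e4, e5, inv_mul_cancel₀ (I.annProd_ne_zero e Z)]; ring
      have hres : I.res u * I.res uZ = 1 := by rw [← map_mul, huu, map_one]
      -- the four unit factors at the branches
      have hxb0 : xb e ≠ 0 := by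
        intro h0
        have := hxb e
        rw [h0, Place.ord_zero] at this
        exact zero_ne_one this
      have hyb0 : yb e ≠ 0 := by
        intro h0
        have := hyb e
        rw [h0, Place.ord_zero] at this
        exact zero_ne_one this
      have o1 : (I.bs e).2.ord (h (I.bs e).1 * xb e ^ (-κ)) = 0 := by
        rw [(I.bs e).2.ord_mul (hh0 _) (zpow_ne_zero _ hxb0), (I.bs e).2.ord_zpow, hxb e]
        omega
      have o2 : (I.bs e).2.ord (I.nred (I.bs e).1 (d (I.bs e).1) φ * xb e ^ (-s)) = 0 := by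
        rw [(I.bs e).2.ord_mul hns'.nred_ne_zero (zpow_ne_zero _ hxb0), (I.bs e).2.ord_zpow, hxb e]
        omega
      have o3 : (I.bt e).2.ord (h (I.bt e).1 * yb e ^ (-κ')) = 0 := by
        rw [(I.bt e).2.ord_mul (hh0 _) (zpow_ne_zero _ hyb0), (I.bt e).2.ord_zpow, hyb e]
        omega
      have o4 : (I.bt e).2.ord (I.nred (I.bt e).1 (d (I.bt e).1) φ * yb e ^ (-s')) = 0 := by
        rw [(I.bt e).2.ord_mul hnt.nred_ne_zero (zpow_ne_zero _ hyb0), (I.bt e).2.ord_zpow, hyb e]
        omega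
      have m1 := ffp_mem_of_ord_nonneg (I.bs e).2 o1.ge
      have m2 := ffp_mem_of_ord_nonneg (I.bs e).2 o2.ge
      have m3 := ffp_mem_of_ord_nonneg (I.bt e).2 o3.ge
      have m4 := ffp_mem_of_ord_nonneg (I.bt e).2 o4.ge
      have es : η (I.bs e).1 = (h (I.bs e).1 * xb e ^ (-κ)) *
          (I.nred (I.bs e).1 (d (I.bs e).1) φ * xb e ^ (-s)) := by
        rw [hη_in _ hvs]
        have : xb e ^ (-κ) * xb e ^ (-s) = 1 := by
          rw [← zpow_add₀ hxb0]
          have : -κ + -s = 0 := by omega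
          rw [this, zpow_zero]
        calc h (I.bs e).1 * I.nred (I.bs e).1 (d (I.bs e).1) φ
            = h (I.bs e).1 * I.nred (I.bs e).1 (d (I.bs e).1) φ * (xb e ^ (-κ) * xb e ^ (-s)) := by
              rw [this, mul_one]
          _ = _ := by ring
      have et : η (I.bt e).1 = (h (I.bt e).1 * yb e ^ (-κ')) *
          (I.nred (I.bt e).1 (d (I.bt e).1) φ * yb e ^ (-s')) := by
        rw [hη_in _ hvt]
        have : yb e ^ (-κ') * yb e ^ (-s') = 1 := by
          rw [← zpow_add₀ hyb0]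
          have : -κ' + -s' = 0 := by omega
          rw [this, zpow_zero]
        calc h (I.bt e).1 * I.nred (I.bt e).1 (d (I.bt e).1) φ
            = h (I.bt e).1 * I.nred (I.bt e).1 (d (I.bt e).1) φ *
                (yb e ^ (-κ') * yb e ^ (-s')) := by
              rw [this, mul_one]
          _ = _ := by ring
      rw [es, et, valF_mul _ _ m1 m2, valF_mul _ _ m3 m4, huZval, huval]
      calc valF (I.Hk (I.bs e).1) (I.bs e).2 (h (I.bs e).1 * xb e ^ (-κ)) *
            valF (I.Hk (I.bs e).1) (I.bs e).2 (I.nred (I.bs e).1 (d (I.bs e).1) φ * xb e ^ (-s))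
          = valF (I.Hk (I.bs e).1) (I.bs e).2 (h (I.bs e).1 * xb e ^ (-κ)) *
            valF (I.Hk (I.bs e).1) (I.bs e).2 (I.nred (I.bs e).1 (d (I.bs e).1) φ * xb e ^ (-s)) *
              (I.res u * I.res uZ) := by rw [hres, mul_one]
        _ = _ := by ring
    · -- otherwise both values vanish
      have hzs : valF (I.Hk (I.bs e).1) (I.bs e).2 (η (I.bs e).1) = 0 := by
        by_cases hvs : I.A.valuation (cN (I.bs e).1 * γ (I.bs e).1) = I.A.valuation c0
        · have hn := hnormMin _ hvs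
          obtain ⟨h1, h2⟩ := hsrc e hvs
          have hpos : 0 < (I.bs e).2.ord (η (I.bs e).1) := by
            rw [hη_in _ hvs, (I.bs e).2.ord_mul (hh0 _) hn.nred_ne_zero]
            rcases h1.lt_or_eq with hlt | heq
            · omega
            · exact absurd ⟨hvs, (h2 heq.symm).1, (h2 heq.symm).2⟩ hall
          have hmem : η (I.bs e).1 ∈ (I.bs e).2.toValuationSubring :=
            ffp_mem_of_ord_nonneg _ hpos.le
          exact (valF_eq_zero_iff _ _ hmem).mpr (Or.inr hpos)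
        · rw [hη_out _ hvs, valF_zero]
      have hzt : valF (I.Hk (I.bt e).1) (I.bt e).2 (η (I.bt e).1) = 0 := by
        by_cases hvt : I.A.valuation (cN (I.bt e).1 * γ (I.bt e).1) = I.A.valuation c0
        · have hn := hnormMin _ hvt
          obtain ⟨h1, h2⟩ := htgt e hvt
          have hpos : 0 < (I.bt e).2.ord (η (I.bt e).1) := by
            rw [hη_in _ hvt, (I.bt e).2.ord_mul (hh0 _) hn.nred_ne_zero]
            rcases h1.lt_or_eq with hlt | heq
            · omega
            · exact absurd ⟨(h2 heq.symm).1, hvt, (h2 heq.symm).2⟩ hall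
          have hmem : η (I.bt e).1 ∈ (I.bt e).2.toValuationSubring :=
            ffp_mem_of_ord_nonneg _ hpos.le
          exact (valF_eq_zero_iff _ _ hmem).mpr (Or.inr hpos)
        · rw [hη_out _ hvt, valF_zero]
      rw [hzs, hzt]
  -- non-speciality: `η` is constant
  obtain ⟨ct, hct⟩ := hns η hηns1 hηns2
  have hη0 : η v0 ≠ 0 := by
    rw [hη_in v0 rfl]
    exact mul_ne_zero (hh0 v0) (hnormMin v0 rfl).nred_ne_zero
  have hct0 : ct ≠ 0 := by
    intro h0
    apply hη0
    rw [hct v0, h0, map_zero]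
  have hall : ∀ v, I.A.valuation (cN v * γ v) = I.A.valuation c0 := by
    intro v
    by_contra hv
    have := hη_out v hv
    rw [hct v, map_eq_zero] at this
    exact hct0 this
  have hordzero : ∀ (v : Comp) (Q : Place k (Ft v)), Q.ord (η v) = 0 := fun v Q => by
    rw [hct v, ffp_ord_algebraMap]
  -- no point of `E` in the annuli
  have hEann : ∀ e, ∀ P ∈ I.ann e, E P = 0 := by
    intro e
    have hvs := hall (I.bs e).1
    have h3 : (I.bs e).2.ord (η (I.bs e).1) =
        (I.bs e).2.ord (h (I.bs e).1) +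
          (I.bs e).2.ord (I.nred (I.bs e).1 (d (I.bs e).1) φ) := by
      rw [hη_in _ hvs, (I.bs e).2.ord_mul (hh0 _) (hnormMin _ hvs).nred_ne_zero]
    rw [hordzero] at h3
    exact ((hsrc e hvs).2 (by omega)).2
  refine ⟨fun P hP => ?_, fun b' => ?_⟩
  · obtain ⟨e, he⟩ := I.none_ann P hP
    exact hEann e P he
  · obtain ⟨v, Q⟩ := b'
    by_cases hQs : ∃ e, I.bs e = ⟨v, Q⟩
    · rw [I.mapDomain_branch_eq_zero E _ (Or.inl hQs),
        I.mapDomain_branch_eq_zero D0 _ (Or.inl hQs)]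
    · by_cases hQt : ∃ e, I.bt e = ⟨v, Q⟩
      · rw [I.mapDomain_branch_eq_zero E _ (Or.inr hQt),
          I.mapDomain_branch_eq_zero D0 _ (Or.inr hQt)]
      · push Not at hQs hQt
        have := hordη v Q (hall v) hQs hQt
        rw [hordzero] at this
        omega

end

end Fermat.Agent.MZ.LOCP.GenTwisted7
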