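/-
Programme MZ (S15, Mazur), area LOCP (helper7): **the generalised (N3) of the annulus calculus**.

For a node chart `N` (`ORD/ANN/Node3`), a function `φ ≠ 0` with normalisers `c` on `S`, `c'` on `S'`,
slopes `s = ord_Q (nred c φ)`, `s' = ord_Q' (nred' c' φ)` and `m_P = ord_P φ` on the annulus:

  `z := c' / c · ∏ a_P ^ m_P · π ^ (-s') · (-1) ^ (∑ m_P)` is a unit of `A` and
  `(nred' c' φ · yb ^ (-s'))(Q') = res z · (nred c φ · xb ^ (-s))(Q)`.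

For `s = s' = 0` this is `NodeChart.lead_jump`.
-/
import Mathlib
import Fermat.Agent.ORD.ANN.Node3

set_option autoImplicit false
set_option linter.unusedSectionVars false
set_option linter.style.longLine false

namespace Fermat.Agent.MZ.LOCP.NodeGen7

open AlgebraicCurve Fermat.Agent.X0.FF Fermat.Agent.RR.LSpace Fermat.Agent.MW.EMB.Value6
open Fermat.Agent.ORD.ANN.Side3 Fermat.Agent.ORD.ANN.Node3

noncomputable section

variable {L k F Ft Ft' : Type*} [Field L] [Field k] [Field F] [Algebra L F]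
  [Field Ft] [Algebra k Ft] [Field Ft'] [Algebra k Ft']
variable {B : Base L k} {HL : LHyp L F} {S : Side B F Ft} {S' : Side B F Ft'}
  {Hk : LHyp k Ft} {Hk' : LHyp k Ft'} (N : NodeChart B HL S S' Hk Hk')

/-- **(N3), general slopes.** -/
theorem lead_jump_gen {φ : F} (hφ : φ ≠ 0) {c c' : L} (h : S.IsNorm c φ) (h' : S'.IsNorm c' φ) :
    B.IsU (c' / c * (∏ P ∈ N.supp hφ, N.a P ^ P.ord φ) * N.π ^ (-(N.Q'.ord (S'.nred c' φ))) *
        (-1) ^ (∑ P ∈ N.supp hφ, P.ord φ)) ∧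
      valF Hk' N.Q' (S'.nred c' φ * N.yb ^ (-(N.Q'.ord (S'.nred c' φ)))) =
        B.resL (c' / c * (∏ P ∈ N.supp hφ, N.a P ^ P.ord φ) *
            N.π ^ (-(N.Q'.ord (S'.nred c' φ))) * (-1) ^ (∑ P ∈ N.supp hφ, P.ord φ)) *
          valF Hk N.Q (S.nred c φ * N.xb ^ (-(N.Q.ord (S.nred c φ)))) := by
  obtain ⟨T⟩ := N.nonempty_NF hφ
  have hs : N.Q.ord (S.nred c φ) = T.n + T.tot := T.ord_nred h
  have hs' : N.Q'.ord (S'.nred c' φ) = -T.n := T.ord_nred' h'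
  have hu := (T.isNorm.compare h).1
  have hu' := (T.isNorm'.compare h').1
  have hc := h.c_ne_zero
  have hcS : T.cS ≠ 0 := T.isNorm.c_ne_zero
  have hcS' : T.cS' ≠ 0 := T.isNorm'.c_ne_zero
  have hπ : N.π ≠ 0 := N.π_ne
  -- the shape of `cS'`
  have hPi : ∏ P ∈ N.supp hφ, (-(N.a P))⁻¹ ^ P.ord φ =
      ((-1 : L) ^ T.tot * ∏ P ∈ N.supp hφ, N.a P ^ P.ord φ)⁻¹ := by
    have e : ∀ P ∈ N.supp hφ,
        (-(N.a P))⁻¹ ^ P.ord φ = ((-1 : L) ^ P.ord φ)⁻¹ * (N.a P ^ P.ord φ)⁻¹ := by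
      intro P _
      have : (-(N.a P))⁻¹ = (-1 : L)⁻¹ * (N.a P)⁻¹ := by
        rw [← mul_inv, neg_one_mul]
      rw [this, mul_zpow, inv_zpow, inv_zpow]
    rw [Finset.prod_congr rfl e, Finset.prod_mul_distrib, Finset.prod_inv_distrib,
      Finset.prod_inv_distrib, prod_zpow_base (by norm_num : (-1 : L) ≠ 0), mul_inv]
    rfl
  have hPi0 : ∏ P ∈ N.supp hφ, N.a P ^ P.ord φ ≠ 0 :=
    Finset.prod_ne_zero_iff.mpr fun P hP =>
      zpow_ne_zero _ (N.a_ne P (N.mem_ann_of_mem_supp hφ hP))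
  have hm1 : ((-1 : L)) ^ T.tot ≠ 0 := zpow_ne_zero _ (by norm_num)
  have hcS'eq : T.cS' = T.cS * (N.π ^ T.n)⁻¹ *
      ((-1 : L) ^ T.tot * ∏ P ∈ N.supp hφ, N.a P ^ P.ord φ)⁻¹ := by
    rw [NodeChart.NF.cS', NodeChart.NF.cS, hPi, inv_zpow]
  have hz : c' / c * (∏ P ∈ N.supp hφ, N.a P ^ P.ord φ) * N.π ^ (-(N.Q'.ord (S'.nred c' φ))) *
      (-1) ^ (∑ P ∈ N.supp hφ, P.ord φ) = (c' / T.cS') / (c / T.cS) := by
    rw [hs', neg_neg, hcS'eq]
    show c' / c * (∏ P ∈ N.supp hφ, N.a P ^ P.ord φ) * N.π ^ T.n * (-1) ^ T.tot = _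
    have hπn : N.π ^ T.n ≠ 0 := zpow_ne_zero _ hπ
    field_simp
  have hzU : B.IsU (c' / c * (∏ P ∈ N.supp hφ, N.a P ^ P.ord φ) *
      N.π ^ (-(N.Q'.ord (S'.nred c' φ))) * (-1) ^ (∑ P ∈ N.supp hφ, P.ord φ)) := by
    rw [hz]; exact hu'.div hu
  refine ⟨hzU, ?_⟩
  -- the two reductions
  have r1 : S.nred c φ * N.xb ^ (-(N.Q.ord (S.nred c φ))) =
      algebraMap k Ft (B.resL (c / T.cS)) * T.Ub := by
    have e1 : S.nred c φ = algebraMap k Ft (B.resL (c / T.cS)) * S.nred T.cS φ :=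
      (T.isNorm.compare h).2
    have e2 : S.nred T.cS φ = N.xb ^ (T.n + T.tot) * T.Ub := T.nred_eq
    rw [hs]
    rw [e1, e2]
    have : N.xb ^ (T.n + T.tot) * N.xb ^ (-(T.n + T.tot)) = 1 := by
      rw [← zpow_add₀ N.xb_ne_zero, add_neg_cancel, zpow_zero]
    calc algebraMap k Ft (B.resL (c / T.cS)) * (N.xb ^ (T.n + T.tot) * T.Ub) *
          N.xb ^ (-(T.n + T.tot))
        = algebraMap k Ft (B.resL (c / T.cS)) * T.Ub *
          (N.xb ^ (T.n + T.tot) * N.xb ^ (-(T.n + T.tot))) := by ring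
      _ = _ := by rw [this, mul_one]
  have r2 : S'.nred c' φ * N.yb ^ (-(N.Q'.ord (S'.nred c' φ))) =
      algebraMap k Ft' (B.resL (c' / T.cS')) * T.Ub' := by
    have e1 : S'.nred c' φ = algebraMap k Ft' (B.resL (c' / T.cS')) * S'.nred T.cS' φ :=
      (T.isNorm'.compare h').2
    have e2 : S'.nred T.cS' φ = N.yb⁻¹ ^ T.n * T.Ub' := T.nred_eq'
    rw [hs', neg_neg]
    rw [e1, e2]
    have : N.yb⁻¹ ^ T.n * N.yb ^ T.n = 1 := by
      rw [inv_zpow, inv_mul_cancel₀ (zpow_ne_zero _ N.yb_ne_zero)]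
    calc algebraMap k Ft' (B.resL (c' / T.cS')) * (N.yb⁻¹ ^ T.n * T.Ub') * N.yb ^ T.n
        = algebraMap k Ft' (B.resL (c' / T.cS')) * T.Ub' * (N.yb⁻¹ ^ T.n * N.yb ^ T.n) := by ring
      _ = _ := by rw [this, mul_one]
  have mU : T.Ub ∈ N.Q.toValuationSubring := ffp_mem_of_ord_nonneg _ (le_of_eq T.ordU.symm)
  have mU' : T.Ub' ∈ N.Q'.toValuationSubring := ffp_mem_of_ord_nonneg _ (le_of_eq T.ordU'.symm)
  rw [r1, r2, valF_mul Hk N.Q (N.Q.algebraMap_mem' _) mU, valF_mul Hk' N.Q' (N.Q'.algebraMap_mem' _) mU',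
    valF_algebraMap, valF_algebraMap, T.val_eq, hz, ← mul_assoc]
  congr 1
  have := B.resL_mul (hu'.div hu).mem hu.mem
  rw [div_mul_cancel₀ _ hu.ne_zero] at this
  exact this

end

end Fermat.Agent.MZ.LOCP.NodeGen7
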