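/-
Programme MZ (S15, Mazur), area LOCP (helper7): **push-down of inertia-fixed division from an
auxiliary level**.

The `p`-local geometric input (P1) of the descent is

  `∃ m₀ > 0, ∀ r, ∀ x ∈ J₀(N)(ℚ̄)^{I_p}, ∃ y ∈ J₀(N)(ℚ̄)^{I_p}, ℓ^r • y = m₀ • x`.

The geometric core proves it at an auxiliary level `M` (`N ∣ M`, e.g. `M = 4 N`) where a semistable
two-chart model exists.  This file transports it down:

* `levelPush h : JZero M →+ JZero N`, the push-forward `π_*` along `levelIncl h`, with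
  `levelPush_smul` (Galois-equivariance) and `levelPush_levelPullback` (`π_* π^* = deg π`),
  `levelDeg_pos`;
* `InertDiv p ℓ N` : the statement (P1) at level `N`;
* `inertDiv_of_dvd` : `InertDiv p ℓ M → InertDiv p ℓ N` for `N ∣ M`;
* `inertDiv_local` : (P1) in the local vocabulary `Iq p`, `rq p` of `TW/LOC/Defs2`;
* `resq1_kappa_nsmul_mem_H1ur` : the consumer — the local Kummer class at `p` of `m₀ • x`,
  `x ∈ J₀(N)(ℚ)`, is unramified, for `m = ℓ^r`.
-/
import Mathlib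
import Fermat.Agent.MZ.DESC.Kummer7
import Fermat.Agent.MP.HECKE.Maps5
import Fermat.Agent.MP.HECKE.LvlMap6

set_option autoImplicit false
set_option linter.unusedSectionVars false
set_option linter.style.longLine false
set_option linter.style.haveILetI false
set_option synthInstance.maxHeartbeats 400000

noncomputable section

open AlgebraicCurve ModularCurve
open Fermat.Agent.ES.HECKE.LevelPullback12
open Fermat.Agent.PT.GLUE.Objects21
open Fermat.Agent.TW.DEF.Basic1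

namespace Fermat.Agent.MZ.LOCP.PushDown7

local notation "Qb" => AlgebraicClosure ℚ

variable {N M : ℕ} [NeZero N] [NeZero M]

/-! ### the push-forward along `levelIncl` -/

/-- `π_* : J₀(M) → J₀(N)` for `N ∣ M`. -/
def levelPush (h : N ∣ M) : JZero M →+ JZero N :=
  Fermat.Agent.MP.HECKE.Maps5.pushOf (levelIncl h) (levelIncl_finiteAlong h)

/-- the degree of `X₀(M) → X₀(N)`. -/
def levelDeg (h : N ∣ M) : ℕ := finrankAlong Qb (levelIncl h)

theorem levelDeg_pos (h : N ∣ M) : 0 < levelDeg h := by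
  unfold levelDeg
  rw [finrankAlong_levelIncl]
  exact Fermat.Agent.RED.LVL.LevelDegree17.relfinrank_pos h

theorem galComm_levelIncl (h : N ∣ M) : Fermat.Agent.MP.HECKE.Maps5.GalComm (levelIncl h) :=
  fun σ f => Fermat.Agent.ES.RED.PullbackInj12.levelIncl_arithmeticGalois_smul h σ f

/-- **`π_*` is `Gal(ℚ̄/ℚ)`-equivariant.** -/
theorem levelPush_smul (h : N ∣ M) (σ : Qb ≃ₐ[ℚ] Qb) (y : JZero M) :
    levelPush h (σ • y) = σ • levelPush h y :=
  Fermat.Agent.MP.HECKE.Maps5.pushOf_smul (levelIncl_finiteAlong h) (galComm_levelIncl h) σ y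

/-- **`π_* π^* = deg π`.** -/
theorem levelPush_levelPullback (h : N ∣ M) (x : JZero N) :
    levelPush h (levelPullback h x) = levelDeg h • x :=
  Fermat.Agent.MP.HECKE.LvlMap6.pushL_pullL (levelIncl h) (levelIncl_finiteAlong h) x

/-! ### the statement (P1) and its descent along `N ∣ M` -/

/-- **(P1) at level `N`**: up to a fixed multiple `m₀`, every `I_p`-fixed point of `J₀(N)(ℚ̄)` is
divisible by every power of `ℓ` inside the `I_p`-fixed points. -/
def InertDiv (p ℓ N : ℕ) [Fact p.Prime] [NeZero N] : Prop :=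
  ∃ m₀ : ℕ, 0 < m₀ ∧ ∀ (r : ℕ) (x : JZero N),
    (∀ τ ∈ (padicPlace p).inertiaSubgroupIn ℚ, τ • x = x) →
    ∃ y : JZero N, ℓ ^ r • y = m₀ • x ∧ ∀ τ ∈ (padicPlace p).inertiaSubgroupIn ℚ, τ • y = y

/-- **push-down**: (P1) at level `M` implies (P1) at every level `N ∣ M`
(`m₀(N) = deg(π) · m₀(M)`). -/
theorem inertDiv_of_dvd {p ℓ : ℕ} [Fact p.Prime] (h : N ∣ M) (hM : InertDiv p ℓ M) :
    InertDiv p ℓ N := by
  obtain ⟨m₁, hm₁, H⟩ := hM
  refine ⟨levelDeg h * m₁, Nat.mul_pos (levelDeg_pos h) hm₁, fun r x hx => ?_⟩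
  obtain ⟨y', hy', hfix'⟩ := H r (levelPullback h x) (fun τ hτ => by
    rw [← Fermat.Agent.ES.RED.PullbackInj12.levelPullback_smul h τ x, hx τ hτ])
  refine ⟨levelPush h y', ?_, fun τ hτ => ?_⟩
  · rw [← map_nsmul, hy', map_nsmul, levelPush_levelPullback, smul_smul, Nat.mul_comm]
  · rw [← levelPush_smul h τ y', hfix' τ hτ]

/-- (P1) for rational points, in the local vocabulary `Iq p`, `rq p` of `TW/LOC/Defs2`. -/
theorem inertDiv_rational {p ℓ : ℕ} [Fact p.Prime] (hN : InertDiv p ℓ N) :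
    ∃ m₀ : ℕ, 0 < m₀ ∧ ∀ (r : ℕ) (x : ↥(Fermat.Agent.MZ.DESC.Kummer7.JQ N)),
      ∃ y : JZero N, ℓ ^ r • y = m₀ • (x : JZero N) ∧
        ∀ τ ∈ Fermat.Agent.TW.LOC.Defs2.Iq p, (rq p τ) • y = y := by
  obtain ⟨m₀, hm₀, H⟩ := hN
  refine ⟨m₀, hm₀, fun r x => ?_⟩
  obtain ⟨y, hy, hfix⟩ := H r (x : JZero N)
    (fun τ _ => Fermat.Agent.MZ.DESC.Kummer7.smul_eq_of_mem_JQ x τ)
  exact ⟨y, hy, fun τ hτ => hfix _ (Fermat.Agent.TW.LOC.Defs2.rq_mem_inertia p hτ)⟩

/-! ### the consumer: local Kummer classes at `p` are unramified up to the multiple `m₀` -/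

open Fermat.Agent.MZ.DESC.Kummer7 in
/-- **(P1) ⇒ unramifiedness at `p`** of the `ℓ^r`-Kummer classes of `m₀ • J₀(N)(ℚ)`. -/
theorem resq1_kappa_nsmul_mem_H1ur {p ℓ : ℕ} [Fact p.Prime] (hN : InertDiv p ℓ N) :
    ∃ m₀ : ℕ, 0 < m₀ ∧ ∀ (r : ℕ) (S : Finset Nat.Primes) (hm : 0 < ℓ ^ r)
      (hmS : ∀ q : Nat.Primes, (q : ℕ) ∣ ℓ ^ r → q ∈ S)
      (hNS : ∀ q : Nat.Primes, (q : ℕ) ∣ N → q ∈ S) (x : ↥(JQ N)),
      resq1 S (torRep N (ℓ ^ r)) p (kappa S hm hmS hNS (m₀ • x))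
        ∈ Fermat.Agent.TW.LOC.Defs2.H1ur p (Mq (torRep N (ℓ ^ r)) p) := by
  obtain ⟨m₀, hm₀, H⟩ := inertDiv_rational hN
  refine ⟨m₀, hm₀, fun r S hm hmS hNS x => ?_⟩
  obtain ⟨y, hy, hfix⟩ := H r x
  exact resq1_kappa_mem_H1ur S p hm hmS hNS (m₀ • x) y
    (by rw [hy]; rfl) hfix

end Fermat.Agent.MZ.LOCP.PushDown7
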