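/-
Programme MZ (S15, Mazur), area LOCP (helper7): **the twisted criterion with slopes** for membership in
the kernel of reduction of a semistable datum.

* `gn3_toInput` : the hypothesis bundle `TwistedNSAdapt2.toInput 𝔻` of a provisional semistable datum
  satisfies the generalised (N3) (`NodeGen7.lead_jump_gen`);
* `twistedNS_slopes` : `GenTwisted7.exists_effective_slopes` for `SemiRed`;
* `mem_kerRed_of_twisted_slopes` : for a `SemiRedDatum` with a non-special system `S` of `g` centres and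
  Riemann's inequality: a divisor `Z` of degree `0` (annulus points allowed), a tuple `h` of nonzero
  functions on the components (ANY orders at the branches) and "virtual normalisers" `γ v ≠ 0` with
  (a) `fibSum Z = div h` at the smooth points,
  (b1) `annSum_e Z = ord_{Qs e} h_src + ord_{Qt e} h_tgt`,
  (b2) `|γ_src / γ_tgt| |π_e|^{ord_{Qt e} h_tgt} = |annProd_e Z|`,
  (c) `(h_tgt yb^{-κ'})(Qt e) = res(γ_tgt/γ_src · annProd_e Z · π_e^{-κ'} (-1)^{annSum_e Z}) (h_src xb^{-κ})(Qs e)`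
  ⟹ `[Z] ∈ kerRed 𝔻`.
-/
import Mathlib
import Fermat.Agent.MZ.LOCP.GenTwisted7
import Fermat.Agent.MZ.LOCP.NodeGen7
import Fermat.Agent.MP.TAU.KumCrit3

set_option autoImplicit false
set_option linter.unusedSectionVars false
set_option linter.style.longLine false

namespace Fermat.Agent.MZ.LOCP.SlopeCrit7

open AlgebraicCurve Fermat.Agent.X0.FF Fermat.Agent.RR.LSpace Fermat.Agent.MW.EMB.Value6
open Fermat.Agent.ORD.ANN.Side3 Fermat.Agent.ORD.ANN.Node3 Fermat.Agent.ORD.ANN.SemiRed3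
open Fermat.Agent.ORD.ANN.TwistedNS2 Fermat.Agent.ORD.ANN.TwistedNSAdapt2
open Fermat.Agent.ORD.SEMIRED.SemiRedDatum9 Fermat.Agent.ORD.SEMIRED.ToSemiRed9
open Fermat.Agent.ORD.REDN.DiscC9 Fermat.Agent.ORD.KERN.KerDefs9 Fermat.Agent.ORD.KERN.KerN9
open Fermat.Agent.MZ.LOCP.GenTwisted7 Fermat.Agent.MZ.LOCP.NodeGen7

noncomputable section

section Prov

variable {L k F : Type*} [Field L] [Field k] [Field F] [Algebra L F]
variable {B : Base L k} {HL : LHyp L F} {V : Type*} {Ft : V → Type*}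
  [∀ v, Field (Ft v)] [∀ v, Algebra k (Ft v)] {E : Type*}

variable (𝔻 : SemiRed B HL Ft E)

/-- the generalised (N3) for the bundle of a provisional semistable datum. -/
theorem gn3_toInput :
    GN3 (toInput 𝔻) (fun e => (𝔻.node e).xb) (fun e => (𝔻.node e).yb) := by
  intro e φ c c' D hD hc hc'
  have hn := (isNormG_iff _ c φ).mp hc
  have hn' := (isNormG_iff _ c' φ).mp hc'
  have hφ : φ ≠ 0 := hn.ne_zero
  obtain ⟨hU, hval⟩ := lead_jump_gen (𝔻.node e) hφ hn hn'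
  have e1 : (toInput 𝔻).nred ((toInput 𝔻).bs e).1 c φ = (𝔻.side (𝔻.src e)).nred c φ :=
    redOf_eq_nred _ c φ
  have e2 : (toInput 𝔻).nred ((toInput 𝔻).bt e).1 c' φ = (𝔻.side (𝔻.tgt e)).nred c' φ :=
    redOf_eq_nred _ c' φ
  have e3 : (toInput 𝔻).annProd e D = ∏ P ∈ (𝔻.node e).supp hφ, (𝔻.node e).a P ^ P.ord φ :=
    (prod_supp_eq 𝔻 e hφ D hD).symm
  have e4 : (toInput 𝔻).annSum e D = ∑ P ∈ (𝔻.node e).supp hφ, P.ord φ :=
    (sum_supp_eq 𝔻 e hφ D hD).symm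
  refine ⟨⟨_, hU.mem⟩, ?_, ?_⟩
  · rw [e2, e3, e4]
    rfl
  · rw [e1, e2]
    have h3 := hval
    rw [B.resL_of_mem hU.mem] at h3
    exact h3.trans (mul_comm _ _)

/-- **The twisted NS lemma with slopes** for a provisional semistable datum. -/
theorem twistedNS_slopes [Finite V] [Nonempty V]
    (D0 : Divisor L F) (hD0 : 0 ≤ D0) (hD0sm : ∀ P, D0 P ≠ 0 → 𝔻.Smooth P)
    (hNS : 𝔻.NonSpecial (fun v Q => 𝔻.fibSum D0 v Q))
    (hRR : ∀ D : Divisor L F, Divisor.degree D = Divisor.degree D0 →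
      ∃ (φ : F) (hφ : φ ≠ 0), 0 ≤ D + divOf HL hφ)
    (Z : Divisor L F) (hZ : Divisor.degree Z = 0)
    (h : ∀ v, Ft v) (hh0 : ∀ v, h v ≠ 0) (γ : V → L) (hγ : ∀ v, γ v ≠ 0)
    (ha : ∀ v Q, 𝔻.NonBranch v Q → 𝔻.fibSum Z v Q = Q.ord (h v))
    (hb1 : ∀ e, 𝔻.annSum Z e =
      (𝔻.node e).Q.ord (h (𝔻.src e)) + (𝔻.node e).Q'.ord (h (𝔻.tgt e)))
    (hb2 : ∀ e, B.A.valuation (γ (𝔻.src e) / γ (𝔻.tgt e)) *
        B.A.valuation (𝔻.node e).π ^ ((𝔻.node e).Q'.ord (h (𝔻.tgt e))) =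
      B.A.valuation (𝔻.annProd Z e))
    (hc : ∀ e, B.IsU (γ (𝔻.tgt e) / γ (𝔻.src e) * 𝔻.annProd Z e *
          (𝔻.node e).π ^ (-((𝔻.node e).Q'.ord (h (𝔻.tgt e)))) * (-1) ^ (𝔻.annSum Z e)) ∧
      valF (𝔻.Hk (𝔻.tgt e)) (𝔻.node e).Q'
          (h (𝔻.tgt e) * (𝔻.node e).yb ^ (-((𝔻.node e).Q'.ord (h (𝔻.tgt e))))) =
        B.resL (γ (𝔻.tgt e) / γ (𝔻.src e) * 𝔻.annProd Z e *
          (𝔻.node e).π ^ (-((𝔻.node e).Q'.ord (h (𝔻.tgt e)))) * (-1) ^ (𝔻.annSum Z e)) *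
        valF (𝔻.Hk (𝔻.src e)) (𝔻.node e).Q
          (h (𝔻.src e) * (𝔻.node e).xb ^ (-((𝔻.node e).Q.ord (h (𝔻.src e)))))) :
    ∃ (φ : F) (hφ : φ ≠ 0), 0 ≤ Z + D0 + divOf HL hφ ∧
      (∀ P, (Z + D0 + divOf HL hφ) P ≠ 0 → 𝔻.Smooth P) ∧
      ∀ v Q, 𝔻.fibSum (Z + D0 + divOf HL hφ) v Q = 𝔻.fibSum D0 v Q := by
  classical
  obtain ⟨φ0, hφ0, hφ0E⟩ := hRR (Z + D0) (by rw [map_add, hZ, zero_add])
  have hRR' : ∃ f : F, f ≠ 0 ∧ ∀ P, -((Z + D0) P) ≤ P.ord f := by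
    refine ⟨φ0, hφ0, fun P => ?_⟩
    have := hφ0E P
    rw [Finsupp.add_apply, divOf_apply] at this
    simp only [Finsupp.coe_zero, Pi.zero_apply] at this
    omega
  have hD0none : ∀ P, (toInput 𝔻).r P = none → D0 P = 0 := by
    intro P hP
    by_contra hne
    have hs := hD0sm P hne
    rw [SemiRed.Smooth] at hs
    have hP' : 𝔻.r P = none := hP
    rw [hP'] at hs
    exact absurd hs (by simp)
  have hns : ∀ f : ∀ v, Ft v,
      (∀ (v : V) (Q : Place k (Ft v)),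
        -(Finsupp.mapDomain (toInput 𝔻).r D0 (some ⟨v, Q⟩)) ≤ Q.ord (f v)) →
      (∀ e, valF ((toInput 𝔻).Hk ((toInput 𝔻).bs e).1) ((toInput 𝔻).bs e).2
          (f ((toInput 𝔻).bs e).1) =
        valF ((toInput 𝔻).Hk ((toInput 𝔻).bt e).1) ((toInput 𝔻).bt e).2
          (f ((toInput 𝔻).bt e).1)) →
      ∃ c : k, ∀ v, f v = algebraMap k (Ft v) c := by
    intro f hf1 hf2
    exact hNS ⟨f, fun v _ Q => by
      have := hf1 v Q
      rw [fibSum_eq_mapDomain]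
      exact this, hf2⟩
  have hSum : ∀ e, (toInput 𝔻).annSum e Z = 𝔻.annSum Z e := fun e => by
    show annSumG (𝔻.node e).ann Z = _
    rw [annSumG_eq]; rfl
  have hProd : ∀ e, (toInput 𝔻).annProd e Z = 𝔻.annProd Z e := fun e => by
    show annProdG (𝔻.node e).ann (𝔻.node e).a Z = _
    rw [annProdG_eq]; rfl
  obtain ⟨φ, hφ, E', hE', hEnn, hEsm, hEr⟩ := exists_effective_slopes (toInput 𝔻)
    (fun e => (𝔻.node e).xb) (fun e => (𝔻.node e).yb) (fun e => (𝔻.node e).ord_xb)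
    (fun e => (𝔻.node e).ord_yb) (gn3_toInput 𝔻) D0
    (fun P => hD0 P) hD0none hns Z hRR' h hh0 γ hγ
    (fun v Q hQs hQt => by
      have := ha v Q ⟨hQs, hQt⟩
      rw [fibSum_eq_mapDomain] at this
      exact this)
    (fun e => by rw [hSum]; exact hb1 e)
    (fun e => by rw [hProd]; exact hb2 e)
    (fun e => by
      obtain ⟨h1, h2⟩ := hc e
      refine ⟨⟨_, h1.mem⟩, ?_, ?_⟩
      · rw [hSum, hProd]; rfl
      · have h3 := h2
        rw [B.resL_of_mem h1.mem] at h3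
        exact h3.trans (mul_comm _ _))
  have hEeq : Z + D0 + divOf HL hφ = E' := by
    ext P
    rw [hE' P, Finsupp.add_apply, Finsupp.add_apply, divOf_apply]
  refine ⟨φ, hφ, ?_, ?_, ?_⟩
  · rw [hEeq]; exact fun P => hEnn P
  · rw [hEeq]
    intro P hP
    rw [SemiRed.Smooth, Option.isSome_iff_ne_none]
    exact fun hnone => hP (hEsm P hnone)
  · intro v Q
    rw [hEeq, fibSum_eq_mapDomain, fibSum_eq_mapDomain]
    exact hEr ⟨v, Q⟩

end Prov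

section Datum

variable {L F k Ft : Type*} [Field L] [Field F] [Algebra L F] [Field k] [Field Ft] [Algebra k Ft]
variable {ι E : Type*} {𝔻 : SemiRedDatum L F k Ft ι E} {g : ℕ}

/-- **The twisted criterion with slopes.** -/
theorem mem_kerRed_of_twisted_slopes [Finite ι] [Nonempty ι] (S : NSSystemN 𝔻 g)
    (hRR : ∀ E' : Divisor L F, Divisor.degree E' = g → ∃ f : F, f ≠ 0 ∧ ∀ P, -(E' P) ≤ P.ord f)
    (Z : Divisor.degZero (K := L) (F := F)) (h : ι → Ft) (hh0 : ∀ v, h v ≠ 0)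
    (γ : ι → L) (hγ : ∀ v, γ v ≠ 0)
    (ha : ∀ v Q, 𝔻.IsSm v Q →
      Finsupp.mapDomain 𝔻.r (Z : Divisor L F) (Sum.inl (v, Q)) = Q.ord (h v))
    (hb1 : ∀ e, (toSemiRed 𝔻).annSum (Z : Divisor L F) e =
      (𝔻.Qs e).ord (h (𝔻.src e)) + (𝔻.Qt e).ord (h (𝔻.tgt e)))
    (hb2 : ∀ e, 𝔻.B.A.valuation (γ (𝔻.src e) / γ (𝔻.tgt e)) *
        𝔻.B.A.valuation (𝔻.node e).π ^ ((𝔻.Qt e).ord (h (𝔻.tgt e))) =
      𝔻.B.A.valuation ((toSemiRed 𝔻).annProd (Z : Divisor L F) e))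
    (hc : ∀ e, 𝔻.B.IsU (γ (𝔻.tgt e) / γ (𝔻.src e) * (toSemiRed 𝔻).annProd (Z : Divisor L F) e *
          (𝔻.node e).π ^ (-((𝔻.Qt e).ord (h (𝔻.tgt e)))) *
          (-1) ^ ((toSemiRed 𝔻).annSum (Z : Divisor L F) e)) ∧
      valF 𝔻.Hk (𝔻.Qt e) (h (𝔻.tgt e) * (𝔻.node e).yb ^ (-((𝔻.Qt e).ord (h (𝔻.tgt e))))) =
        𝔻.B.resL (γ (𝔻.tgt e) / γ (𝔻.src e) * (toSemiRed 𝔻).annProd (Z : Divisor L F) e *
          (𝔻.node e).π ^ (-((𝔻.Qt e).ord (h (𝔻.tgt e)))) *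
          (-1) ^ ((toSemiRed 𝔻).annSum (Z : Divisor L F) e)) *
        valF 𝔻.Hk (𝔻.Qs e) (h (𝔻.src e) * (𝔻.node e).xb ^ (-((𝔻.Qs e).ord (h (𝔻.src e)))))) :
    Pic0.mk Z ∈ kerRed 𝔻 := by
  have hRR' : ∀ D : Divisor L F, Divisor.degree D = Divisor.degree S.D0 →
      ∃ (φ : F) (hφ : φ ≠ 0), 0 ≤ D + divOf 𝔻.HL hφ := by
    intro D hD
    rw [S.degree_D0] at hD
    obtain ⟨f, hf, hfD⟩ := hRR D hD
    refine ⟨f, hf, fun P => ?_⟩
    rw [Finsupp.add_apply, divOf_apply]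
    have := hfD P
    simp only [Finsupp.coe_zero, Pi.zero_apply]
    omega
  obtain ⟨φ, hφ, hE0, hEsm, hEfib⟩ := twistedNS_slopes (toSemiRed 𝔻) S.D0 S.D0_nonneg
    (fun P hP => S.smooth_of_D0_ne_zero hP) S.nonSpecial_D0 hRR' (Z : Divisor L F)
    (Divisor.mem_degZero.mp Z.2) h hh0 γ hγ
    (fun v Q hQ => by
      rw [toSemiRed_fibSum]
      exact ha v Q ((toSemiRed_nonBranch_iff 𝔻).mp hQ))
    hb1 hb2 hc
  obtain ⟨T, hT⟩ := exists_kap_eq_of_twisted S Z hφ hE0 hEsm hEfib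
  rw [← hT]
  exact kap_mem_kerRed S T

end Datum

end

end Fermat.Agent.MZ.LOCP.SlopeCrit7
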