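/-
Programme MZ (S15), chapter LOCP (helper9), WP5 (A1-lower), abstract part: **many characters of finite
order from linearly independent additive characters.**

`Γ` a finitely generated group, `φ_1, …, φ_d : Γ → ℂ` `ℂ`-linearly independent additive characters killing a
set `T ⊆ Γ`.  Then for every `n > 0` there is an injective family, indexed by `(ℤ/n)^d`, of characters
`Γ → ℂˣ` of order dividing `n` which are trivial on `T`.

Proof: `Λ := (φ_j)_j (Γ) ⊆ ℂ^d` is a finitely generated torsion-free group, hence free of some rank `ρ`; it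
spans `ℂ^d` (independence), so `ρ ≥ d`; the characters are `ζ ^ ⟨a, coordinates in a ℤ-basis of Λ⟩`.
-/
import Mathlib

set_option autoImplicit false
set_option linter.unusedSectionVars false
set_option linter.style.haveILetI false

namespace Fermat.Agent.MZ.LOCP.TorsCountAbs9

open Module

section

variable {Γ : Type*} [Group Γ]

/-- the vector of the values of the `φ_j`. -/
def vec {d : ℕ} (φ : Fin d → (Additive Γ →+ ℂ)) : Additive Γ →+ (Fin d → ℂ) :=
  AddMonoidHom.pi φ

@[simp] theorem vec_apply {d : ℕ} (φ : Fin d → (Additive Γ →+ ℂ)) (γ : Additive Γ) (j : Fin d) :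
    vec φ γ j = φ j γ := rfl

/-- the lattice of values. -/
def lattice {d : ℕ} (φ : Fin d → (Additive Γ →+ ℂ)) : Submodule ℤ (Fin d → ℂ) where
  carrier := Set.range (vec φ)
  add_mem' := by
    rintro _ _ ⟨a, rfl⟩ ⟨b, rfl⟩
    exact ⟨a + b, map_add _ _ _⟩
  zero_mem' := ⟨0, map_zero _⟩
  smul_mem' := by
    rintro c _ ⟨a, rfl⟩
    exact ⟨c • a, map_zsmul _ _ _⟩

/-- the corestriction of `vec φ` to the lattice. -/
def toLattice {d : ℕ} (φ : Fin d → (Additive Γ →+ ℂ)) : Additive Γ →+ ↥(lattice φ) where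
  toFun γ := ⟨vec φ γ, γ, rfl⟩
  map_zero' := Subtype.ext (map_zero _)
  map_add' a b := Subtype.ext (map_add _ a b)

theorem toLattice_surjective {d : ℕ} (φ : Fin d → (Additive Γ →+ ℂ)) :
    Function.Surjective (toLattice φ) := by
  rintro ⟨_, γ, rfl⟩
  exact ⟨γ, rfl⟩

theorem coe_toLattice {d : ℕ} (φ : Fin d → (Additive Γ →+ ℂ)) (γ : Additive Γ) :
    ((toLattice φ γ : ↥(lattice φ)) : Fin d → ℂ) = vec φ γ := rfl

/-- the lattice spans `ℂ^d` if the `φ_j` are linearly independent. -/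
theorem span_lattice_eq_top {d : ℕ} (φ : Fin d → (Additive Γ →+ ℂ))
    (hφ : LinearIndependent ℂ φ) :
    Submodule.span ℂ ((lattice φ : Submodule ℤ (Fin d → ℂ)) : Set (Fin d → ℂ)) = ⊤ := by
  by_contra hne
  obtain ⟨f, hf0, hfS⟩ := Submodule.exists_le_ker_of_lt_top _ (lt_top_iff_ne_top.mpr hne)
  apply hf0
  -- the coefficients of `f`
  set c : Fin d → ℂ := fun j => f (Pi.single j 1) with hc
  have hfx : ∀ x : Fin d → ℂ, f x = ∑ j, x j * c j := by
    intro x
    conv_lhs => rw [← Finset.univ_sum_single x]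
    rw [map_sum]
    refine Finset.sum_congr rfl fun j _ => ?_
    have : (Pi.single j (x j) : Fin d → ℂ) = x j • Pi.single j 1 := by
      rw [← Pi.single_smul, smul_eq_mul, mul_one]
    rw [this, map_smul, smul_eq_mul]
  have hrel : ∑ j, c j • φ j = 0 := by
    refine AddMonoidHom.ext fun γ => ?_
    have h1 : f (vec φ γ) = 0 :=
      LinearMap.mem_ker.mp (hfS (Submodule.subset_span ⟨γ, rfl⟩))
    rw [hfx] at h1
    rw [AddMonoidHom.zero_apply, ← h1, AddMonoidHom.finset_sum_apply]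
    refine Finset.sum_congr rfl fun j _ => ?_
    rw [AddMonoidHom.smul_apply, smul_eq_mul, vec_apply, mul_comm]
  have hc0 : ∀ j, c j = 0 := fun j =>
    (Fintype.linearIndependent_iff.mp hφ) c hrel j
  refine LinearMap.ext fun x => ?_
  rw [LinearMap.zero_apply, hfx]
  exact Finset.sum_eq_zero fun j _ => by rw [hc0 j, mul_zero]

end

section Main

variable {Γ : Type*} [Group Γ] [Group.FG Γ]

/-- **`(ℤ/n)^d` embeds into the characters of order dividing `n` which are trivial on `T`.** -/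
theorem exists_injective_char (T : Set Γ) (n : ℕ) [NeZero n] {d : ℕ}
    (φ : Fin d → (Additive Γ →+ ℂ)) (hφ : LinearIndependent ℂ φ)
    (hT : ∀ j, ∀ γ ∈ T, φ j (Additive.ofMul γ) = 0) :
    ∃ f : (Fin d → ZMod n) → (Γ →* ℂˣ), Function.Injective f ∧
      ∀ a, (∀ γ ∈ T, f a γ = 1) ∧ f a ^ n = 1 := by
  classical
  set Λ := lattice φ with hΛ
  -- `Λ` is a finitely generated free `ℤ`-module
  haveI : AddGroup.FG ↥Λ := AddGroup.fg_of_surjective (toLattice_surjective φ)
  haveI : Module.Finite ℤ ↥Λ := Module.Finite.iff_addGroup_fg.mpr inferInstance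
  haveI : Module.Free ℤ ↥Λ := Module.free_of_finite_type_torsion_free'
  set ρ := Module.finrank ℤ ↥Λ with hρ
  let b : Basis (Fin ρ) ℤ ↥Λ := Module.finBasis ℤ ↥Λ
  -- `d ≤ ρ`
  have hdρ : d ≤ ρ := by
    have hspan : Submodule.span ℂ (Set.range fun i => ((b i : ↥Λ) : Fin d → ℂ)) = ⊤ := by
      rw [eq_top_iff, ← span_lattice_eq_top φ hφ, Submodule.span_le]
      intro x hx
      have h1 : (⟨x, hx⟩ : ↥Λ) ∈ Submodule.span ℤ (Set.range b) := by
        rw [b.span_eq]; exact Submodule.mem_top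
      have h2 : x ∈ Submodule.span ℤ (Set.range fun i => ((b i : ↥Λ) : Fin d → ℂ)) := by
        have h3 := Submodule.apply_mem_span_image_of_mem_span Λ.subtype h1
        rw [← Set.range_comp] at h3
        exact h3
      exact Submodule.span_le_restrictScalars ℤ ℂ _ h2
    have h4 := finrank_range_le_card (R := ℂ) (fun i => ((b i : ↥Λ) : Fin d → ℂ))
    rw [Set.finrank, hspan, finrank_top, Module.finrank_fin_fun, Fintype.card_fin] at h4
    exact h4
  -- the primitive root
  obtain ⟨ζ, hζ⟩ := HasEnoughRootsOfUnity.exists_primitiveRoot ℂ n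
  have hζu : IsUnit ζ := hζ.isUnit (NeZero.ne n)
  obtain ⟨ζu, rfl⟩ := hζu
  have hζu' : IsPrimitiveRoot ζu n := IsPrimitiveRoot.coe_units_iff.mp hζ
  -- `ψ : ZMod n → ℂˣ`
  let ψ : ZMod n →+ Additive ℂˣ := ZMod.lift n ⟨zmultiplesHom _ (Additive.ofMul ζu), by
    show (n : ℤ) • Additive.ofMul ζu = 0
    rw [natCast_zsmul, ← ofMul_pow, hζu'.pow_eq_one]
    rfl⟩
  have hψ : ∀ k : ZMod n, ψ k = Additive.ofMul (ζu ^ k.val) := by
    intro k
    have h1 : ψ ((k.val : ℤ) : ZMod n) = zmultiplesHom _ (Additive.ofMul ζu) (k.val : ℤ) :=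
      ZMod.lift_coe n _ _
    rw [Int.cast_natCast, ZMod.natCast_zmod_val] at h1
    rw [h1]
    show ((k.val : ℕ) : ℤ) • Additive.ofMul ζu = _
    rw [natCast_zsmul, ofMul_pow]
  have hψinj : ∀ k : ZMod n, ψ k = 0 → k = 0 := by
    intro k hk
    rw [hψ] at hk
    have h1 : ζu ^ k.val = 1 := hk
    have h2 := (hζu'.pow_eq_one_iff_dvd _).mp h1
    have h3 : k.val = 0 := Nat.eq_zero_of_dvd_of_lt h2 (ZMod.val_lt k)
    exact (ZMod.val_eq_zero k).mp h3
  -- the characters
  let ext0 : (Fin d → ZMod n) → (Fin ρ → ZMod n) := fun a i =>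
    if h : (i : ℕ) < d then a ⟨i, h⟩ else 0
  let θ : (Fin ρ → ZMod n) → (↥Λ →+ ZMod n) := fun a' =>
    ((Finsupp.linearCombination ℤ a').comp b.repr.toLinearMap).toAddMonoidHom
  have hθ : ∀ a' i, θ a' (b i) = a' i := by
    intro a' i
    show Finsupp.linearCombination ℤ a' (b.repr (b i)) = a' i
    rw [b.repr_self, Finsupp.linearCombination_single, one_smul]
  let g : (Fin d → ZMod n) → (Additive Γ →+ Additive ℂˣ) := fun a =>
    ψ.comp ((θ (ext0 a)).comp (toLattice φ))
  refine ⟨fun a => MonoidHom.toAdditive.symm (g a), ?_, fun a => ⟨fun γ hγ => ?_, ?_⟩⟩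
  · -- injectivity
    intro a a' haa'
    have hg : g a = g a' := MonoidHom.toAdditive.symm.injective haa'
    funext j
    have hjρ : (j : ℕ) < ρ := lt_of_lt_of_le j.2 hdρ
    obtain ⟨γ, hγ⟩ := toLattice_surjective φ (b ⟨j, hjρ⟩)
    have h1 := DFunLike.congr_fun hg γ
    have h2 : ∀ a'' : Fin d → ZMod n, g a'' γ = ψ (a'' j) := by
      intro a''
      show ψ (θ (ext0 a'') (toLattice φ γ)) = _
      rw [hγ, hθ]
      show ψ (if h : ((⟨j, hjρ⟩ : Fin ρ) : ℕ) < d then a'' ⟨_, h⟩ else 0) = _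
      rw [dif_pos j.2]
    rw [h2, h2] at h1
    have h3 : ψ (a j - a' j) = 0 := by rw [map_sub, h1, sub_self]
    exact sub_eq_zero.mp (hψinj _ h3)
  · -- trivial on `T`
    show Additive.toMul (g a (Additive.ofMul γ)) = 1
    have h0 : toLattice φ (Additive.ofMul γ) = 0 := by
      refine Subtype.ext (funext fun j => ?_)
      rw [coe_toLattice, vec_apply, hT j γ hγ]
      rfl
    show Additive.toMul (ψ (θ (ext0 a) (toLattice φ (Additive.ofMul γ)))) = 1
    rw [h0, map_zero, map_zero]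
    rfl
  · -- order dividing `n`
    refine MonoidHom.ext fun γ => ?_
    show (Additive.toMul (g a (Additive.ofMul γ))) ^ n = 1
    have h1 : ∀ k : ZMod n, (Additive.toMul (ψ k)) ^ n = 1 := by
      intro k
      rw [hψ, toMul_ofMul, ← pow_mul, mul_comm, pow_mul, hζu'.pow_eq_one, one_pow]
    exact h1 _

end Main

end Fermat.Agent.MZ.LOCP.TorsCountAbs9
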